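import Fermat.Agent.TW.Coh.Lattice

/-!
# The Euler characteristic `#Hom_G(N, W) · #N / #Ext1_G(N, W)` and its multiplicativity

For a module `W` with trivial cohomology over a Sylow subgroup (`IsCT`) and a finite module `N`
killed by `p`, both groups are finite and `chi_mul` shows that `chi` is multiplicative in short
exact sequences, by the six term exact sequence. Also the permutation modules `PermMod X N`.
-/

set_option autoImplicit false
set_option linter.unusedSectionVars false
set_option linter.style.haveILetI false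

noncomputable section

namespace FLTAgent.TW.Coh

variable {G : Type} [Group G] [Fintype G]

/-! ### Permutation modules -/

/-- Functions from a `G`-set to a module, with the conjugation action. -/
def PermMod (X N : Type) : Type := X → N

instance {X N : Type} [AddCommGroup N] : AddCommGroup (PermMod X N) :=
  inferInstanceAs (AddCommGroup (X → N))

instance {X N : Type} [Finite X] [Finite N] : Finite (PermMod X N) :=
  inferInstanceAs (Finite (X → N))

variable {X N : Type} [MulAction G X] [AddCommGroup N] [DistribMulAction G N]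

instance : DistribMulAction G (PermMod X N) where
  smul g f := fun x => g • f (g⁻¹ • x)
  one_smul f := funext fun x => by
    show (1 : G) • f ((1 : G)⁻¹ • x) = f x
    simp
  mul_smul g h f := funext fun x => by
    show (g * h) • f ((g * h)⁻¹ • x) = g • h • f (h⁻¹ • g⁻¹ • x)
    simp [mul_smul]
  smul_zero g := funext fun x => smul_zero g
  smul_add g f f' := funext fun x => smul_add g _ _

theorem PermMod.smul_apply (g : G) (f : PermMod X N) (x : X) :
    (g • f) x = g • f (g⁻¹ • x) := rfl

theorem PermMod.nsmul_eq_zero {p : ℕ} (hN : ∀ n : N, p • n = 0) (f : PermMod X N) : p • f = 0 :=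
  funext fun x => hN (f x)

/-- The diagonal embedding. -/
def PermMod.const : N →+ PermMod X N where
  toFun n := fun _ => n
  map_zero' := rfl
  map_add' _ _ := rfl

theorem PermMod.const_mem : (PermMod.const : N →+ PermMod X N) ∈ eqHom G N (PermMod X N) :=
  fun _ _ => rfl

/-- A regular permutation module satisfies Higman's criterion. -/
theorem exists_theta_regular :
    ∃ θ : PermMod G N →+ PermMod G N, htrace G θ = AddMonoidHom.id _ := by
  classical
  let θ : PermMod G N →+ PermMod G N :=
    { toFun := fun f x => if x = 1 then f x else 0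
      map_zero' := funext fun x => ite_self (0 : N)
      map_add' := fun f f' => funext fun x => by
        show (if x = 1 then f x + f' x else 0) = (if x = 1 then f x else 0) + if x = 1 then f' x else 0
        split_ifs <;> simp }
  refine ⟨θ, AddMonoidHom.ext fun f => funext fun x => ?_⟩
  rw [htrace_apply, AddMonoidHom.finsetSum_apply]
  show (∑ g : G, hconj g θ f : PermMod G N) x = f x
  have : ∀ (s : Finset G) (F : G → PermMod G N), (∑ g ∈ s, F g) x = ∑ g ∈ s, F g x :=
    fun s F => Finset.sum_apply x s F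
  rw [this]
  rw [Finset.sum_eq_single x]
  · show x • (if x⁻¹ • x = (1 : G) then (x⁻¹ • f) (x⁻¹ • x) else 0) = f x
    rw [if_pos (by simp), PermMod.smul_apply]
    simp [smul_eq_mul]
  · intro g _ hg
    show g • (if g⁻¹ • x = (1 : G) then (g⁻¹ • f) (g⁻¹ • x) else 0) = 0
    rw [if_neg (by simpa [inv_mul_eq_one] using hg), smul_zero]
  · exact fun h => absurd (Finset.mem_univ x) h

/-! ### Cohomologically trivial data -/

/-- A module with trivial cohomology for the `p`-Sylow `P`, finite modulo `p`. -/
structure IsCT (p : ℕ) (P : Subgroup G) [Fintype P] (W : Type) [AddCommGroup W]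
    [DistribMulAction G W] : Prop where
  isPGroup : IsPGroup p P
  coprime : P.index.Coprime p
  h1 : H1Zero P W
  h0 : TraceSurj P W
  finite_torsion : Finite {w : W // p • w = 0}
  finite_modP : Finite (ModP p W)

variable {p : ℕ} [Fact p.Prime] {P : Subgroup G} [Fintype P] {W : Type} [AddCommGroup W]
  [DistribMulAction G W]

theorem IsCT.finite_hom (hW : IsCT p P W) {M : Type} [AddCommGroup M] [DistribMulAction G M]
    [Finite M] (hM : ∀ m : M, p • m = 0) : Finite (eqHom G M W) := by
  haveI := hW.finite_torsion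
  refine Finite.of_injective (fun f : eqHom G M W => fun m =>
    (⟨f.1 m, by rw [← map_nsmul, hM, map_zero]⟩ : {w : W // p • w = 0})) fun f f' h => ?_
  exact Subtype.ext (AddMonoidHom.ext fun m => congrArg Subtype.val (congrFun h m))

theorem IsCT.finite_homModP (hW : IsCT p P W) {M : Type} [AddCommGroup M] [DistribMulAction G M]
    [Finite M] : Finite (eqHom G M (ModP p W)) := by
  haveI := hW.finite_modP
  exact Finite.of_injective (fun f : eqHom G M (ModP p W) => (f.1 : M → ModP p W))
    fun f f' h => Subtype.ext (DFunLike.coe_injective h)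

theorem IsCT.finite_ext1 (hW : IsCT p P W) [Finite N] (hN : ∀ n : N, p • n = 0) :
    Finite (Ext1 G N W) := by
  obtain ⟨θ, hθ⟩ := exists_theta_regular (G := G) (N := N)
  haveI := hW.finite_homModP (M := PermMod G N)
  haveI : Finite (Ext1 G (PermMod G N) W) := by
    refine Nat.finite_of_card_ne_zero ?_
    rw [card_ext1_of_theta (W := W) (PermMod.nsmul_eq_zero hN) θ hθ]
    exact Nat.card_pos.ne'
  exact Finite.of_surjective _ (Ext1.comap_surjective (N := PermMod G N) (N' := N) (W := W) P
    hW.isPGroup hW.coprime hW.h1 hW.h0 PermMod.const PermMod.const_mem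
    (fun a b h => congrFun h 1) hN)

variable (p P W) in
/-- The Euler characteristic. -/
def chi (N : Type) [AddCommGroup N] [DistribMulAction G N] : ℚ :=
  (Nat.card (eqHom G N W) * Nat.card N : ℕ) / (Nat.card (Ext1 G N W) : ℚ)

theorem IsCT.chi_pos (hW : IsCT p P W) [Finite N] (hN : ∀ n : N, p • n = 0) :
    0 < chi (G := G) W N := by
  haveI := hW.finite_hom (M := N) hN
  haveI := hW.finite_ext1 (N := N) hN
  have h1 : 0 < Nat.card (eqHom G N W) * Nat.card N :=
    Nat.mul_pos Nat.card_pos Nat.card_pos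
  exact div_pos (Nat.cast_pos.mpr h1) (Nat.cast_pos.mpr Nat.card_pos)

/-! ### Short exact sequences -/

theorem card_eq_range_mul_ker {A B : Type} [AddCommGroup A] [AddCommGroup B] (f : A →+ B) :
    Nat.card A = Nat.card f.range * Nat.card f.ker := by
  rw [AddSubgroup.card_eq_card_quotient_mul_card_addSubgroup f.ker,
    Nat.card_congr (QuotientAddGroup.quotientKerEquivRange f).toEquiv]

/-- A short exact sequence of modules. -/
structure IsSES {N' N'' : Type} [AddCommGroup N'] [DistribMulAction G N'] [AddCommGroup N'']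
    [DistribMulAction G N''] (ι : N' →+ N) (π : N →+ N'') : Prop where
  eq_ι : ι ∈ eqHom G N' N
  injective : Function.Injective ι
  eq_π : π ∈ eqHom G N N''
  surjective : Function.Surjective π
  exact : π.ker = ι.range

namespace IsSES

variable {N' N'' : Type} [AddCommGroup N'] [DistribMulAction G N'] [AddCommGroup N'']
  [DistribMulAction G N''] {ι : N' →+ N} {π : N →+ N''} (hs : IsSES (G := G) ι π)
  {A : Type} [AddCommGroup A] [DistribMulAction G A]

include hs

theorem comp_eq_zero (n' : N') : π (ι n') = 0 := by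
  have : ι n' ∈ π.ker := hs.exact ▸ ⟨n', rfl⟩
  exact this

theorem exists_preimage {n : N} (hn : π n = 0) : ∃ n', ι n' = n := by
  have : n ∈ ι.range := hs.exact ▸ (hn : n ∈ π.ker)
  exact this

/-- A section of the free modules. -/
def sect : Free G N'' →+ Free G N := Free.map (Function.surjInv hs.surjective)

theorem sect_mem : hs.sect ∈ eqHom G (Free G N'') (Free G N) := Free.map_mem _

theorem map_sect (x : Free G N'') : Free.map π (hs.sect x) = x := by
  rw [sect, Free.map_map, show π ∘ Function.surjInv hs.surjective = id from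
    funext (Function.surjInv_eq hs.surjective), Free.map_id]

theorem proj_sect (x : Free G N'') : π (proj G N (hs.sect x)) = proj G N'' x := by
  rw [← proj_map π hs.eq_π, hs.map_sect]

theorem proj_sect_rel (y : Rel G N'') : π (proj G N (hs.sect y)) = 0 := by
  rw [hs.proj_sect, mem_rel_iff.mp y.2]

/-- The connecting map on relations. -/
def conn : Rel G N'' →+ N' :=
  AddMonoidHom.mk' (fun y => (hs.exists_preimage (hs.proj_sect_rel y)).choose) fun y y' =>
    hs.injective (by
      rw [map_add, (hs.exists_preimage (hs.proj_sect_rel _)).choose_spec,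
        (hs.exists_preimage (hs.proj_sect_rel _)).choose_spec,
        (hs.exists_preimage (hs.proj_sect_rel _)).choose_spec, AddSubgroup.coe_add, map_add,
        map_add])

theorem ι_conn (y : Rel G N'') : ι (hs.conn y) = proj G N (hs.sect y) :=
  (hs.exists_preimage (hs.proj_sect_rel y)).choose_spec

theorem conn_mem : hs.conn ∈ eqHom G (Rel G N'') N' := fun g y => hs.injective (by
  rw [hs.ι_conn, hs.eq_ι g, hs.ι_conn, Rel.coe_smul, hs.sect_mem g, proj_smul])

variable (A) in
/-- The connecting homomorphism. -/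
def delta : eqHom G N' A →+ Ext1 G N'' A := Ext1.mk.comp (homComap hs.conn hs.conn_mem)

theorem homComap_injective :
    Function.Injective (homComap π hs.eq_π : eqHom G N'' A →+ eqHom G N A) :=
  fun f f' h => Subtype.ext (AddMonoidHom.ext fun n => by
    obtain ⟨m, rfl⟩ := hs.surjective n
    exact DFunLike.congr_fun (congrArg Subtype.val h) m)

theorem hom_exact : (homComap ι hs.eq_ι : eqHom G N A →+ eqHom G N' A).ker =
    (homComap π hs.eq_π : eqHom G N'' A →+ eqHom G N A).range := by
  refine AddSubgroup.ext fun f => ⟨fun h => ?_, ?_⟩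
  · have h0 : ∀ n', f.1 (ι n') = 0 := fun n' => DFunLike.congr_fun (congrArg Subtype.val h) n'
    have hw : ∀ n m, π n = π m → f.1 n = f.1 m := fun n m hnm => by
      obtain ⟨n', hn'⟩ := hs.exists_preimage (n := n - m) (by rw [map_sub, hnm, sub_self])
      rw [← sub_eq_zero, ← map_sub, ← hn', h0]
    have hsi : ∀ n'', π (Function.surjInv hs.surjective n'') = n'' :=
      Function.surjInv_eq hs.surjective
    refine ⟨⟨AddMonoidHom.mk' (fun n => f.1 (Function.surjInv hs.surjective n)) fun a b => ?_,
      fun g a => ?_⟩, Subtype.ext (AddMonoidHom.ext fun n => hw _ _ (hsi (π n)))⟩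
    · rw [← map_add]; exact hw _ _ (by simp [hsi])
    · show f.1 (Function.surjInv hs.surjective (g • a)) = g • f.1 _
      rw [← f.2]; exact hw _ _ (by simp [hsi, hs.eq_π g])
  · rintro ⟨f, rfl⟩
    exact Subtype.ext (AddMonoidHom.ext fun n' => by
      show f.1 (π (ι n')) = 0
      rw [hs.comp_eq_zero, map_zero])

theorem delta_exact :
    (hs.delta A).ker = (homComap ι hs.eq_ι : eqHom G N A →+ eqHom G N' A).range := by
  refine AddSubgroup.ext fun θ => ⟨fun h => ?_, ?_⟩
  · obtain ⟨D, hD⟩ := Ext1.mk_eq_zero_iff.mp (h : hs.delta A θ = 0)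
    have hD' : ∀ y : Rel G N'', D.1 y = θ.1 (hs.conn y) := hD
    -- the extension of `θ`
    have hex : ∀ n, ∃ n', ι n' = n - proj G N (hs.sect (Free.of 1 (π n))) := fun n =>
      hs.exists_preimage (by rw [map_sub, hs.proj_sect, proj_of, one_smul, sub_self])
    choose rest hrest using hex
    let Θ : N → A := fun n => D.1 (Free.of 1 (π n)) + θ.1 (rest n)
    have hΘ : ∀ (n : N) (x : Free G N'') (n' : N'), proj G N'' x = π n →
        ι n' = n - proj G N (hs.sect x) → Θ n = D.1 x + θ.1 n' := fun n x n' hx hn' => by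
      have hy : Free.of 1 (π n) - x ∈ Rel G N'' := by simp [mem_rel_iff, hx]
      have e : hs.conn ⟨_, hy⟩ + (rest n - n') = 0 := hs.injective (by
        rw [map_add, map_sub, map_zero, hs.ι_conn, hrest, hn', map_sub, map_sub]
        abel)
      rw [← sub_eq_zero]
      show D.1 (Free.of 1 (π n)) + θ.1 (rest n) - (D.1 x + θ.1 n') = 0
      rw [add_sub_add_comm, ← map_sub, ← map_sub]
      refine ((congrArg (· + θ.1 (rest n - n')) (hD' ⟨_, hy⟩)).trans ?_)
      rw [← map_add, e, map_zero]
    refine ⟨⟨AddMonoidHom.mk' Θ fun n m => ?_, fun g n => ?_⟩,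
      Subtype.ext (AddMonoidHom.ext fun n' => ?_)⟩
    · rw [hΘ (n + m) (Free.of 1 (π n) + Free.of 1 (π m)) (rest n + rest m) (by simp)
        (by simp only [map_add, hrest]; abel), map_add, map_add]
      show D.1 _ + D.1 _ + (θ.1 (rest n) + θ.1 (rest m)) = Θ n + Θ m
      simp only [Θ]; abel
    · show Θ (g • n) = g • Θ n
      rw [hΘ (g • n) (g • Free.of 1 (π n)) (g • rest n)
        (by rw [proj_smul, proj_of, one_smul, hs.eq_π g])
        (by rw [hs.eq_ι g, hrest, hs.sect_mem g, proj_smul, smul_sub])]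
      show D.1 _ + θ.1 _ = g • (D.1 _ + θ.1 _)
      rw [D.2, θ.2, smul_add]
    · show Θ (ι n') = θ.1 n'
      rw [hΘ (ι n') 0 n' (by simp [hs.comp_eq_zero]) (by simp)]
      simp
  · rintro ⟨f, rfl⟩
    refine Ext1.mk_eq_zero_iff.mpr ⟨⟨f.1.comp ((proj G N).comp hs.sect),
      comp_mem_eqHom f.2 (comp_mem_eqHom proj_smul hs.sect_mem)⟩, fun y => ?_⟩
    show f.1 (proj G N (hs.sect y)) = f.1 (ι (hs.conn y))
    rw [hs.ι_conn]

theorem ext_exact_left :
    (Ext1.comap π hs.eq_π : Ext1 G N'' A →+ Ext1 G N A).ker = (hs.delta A).range := by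
  refine AddSubgroup.ext fun c => ⟨fun h => ?_, ?_⟩
  · induction c using Ext1.induction with
    | _ f =>
      have h' : Ext1.comap π hs.eq_π (Ext1.mk f) = 0 := h
      rw [Ext1.comap_mk] at h'
      obtain ⟨D, hD⟩ := Ext1.mk_eq_zero_iff.mp h'
      have hz : ∀ (n' : N') (x : Free G N), proj G N x = ι n' → Free.map π x ∈ Rel G N'' :=
        fun n' x hx => by rw [mem_rel_iff, proj_map π hs.eq_π, hx, hs.comp_eq_zero]
      let lf : N' → A := fun n' => D.1 (Free.of 1 (ι n')) -
        f.1 ⟨Free.map π (Free.of 1 (ι n')), hz n' _ (by simp)⟩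
      have hw : ∀ (n' : N') (x : Free G N) (hx : proj G N x = ι n'),
          lf n' = D.1 x - f.1 ⟨Free.map π x, hz n' x hx⟩ := fun n' x hx => by
        have hy : Free.of 1 (ι n') - x ∈ Rel G N := by simp [mem_rel_iff, hx]
        show D.1 _ - f.1 _ = _
        rw [sub_eq_sub_iff_sub_eq_sub, ← map_sub, ← map_sub]
        exact (hD ⟨_, hy⟩).trans (congrArg f.1 (Subtype.ext (map_sub (Free.map π) _ _)))
      let θ₁ : eqHom G N' A := ⟨AddMonoidHom.mk' lf fun n m => by
          rw [hw (n + m) (Free.of 1 (ι n) + Free.of 1 (ι m)) (by simp)]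
          show _ = D.1 (Free.of 1 (ι n)) - f.1 ⟨_, hz n _ (by simp)⟩ +
            (D.1 (Free.of 1 (ι m)) - f.1 ⟨_, hz m _ (by simp)⟩)
          rw [map_add, sub_add_sub_comm, ← map_add f.1]
          exact congrArg (fun t => _ - f.1 t) (Subtype.ext (map_add (Free.map π) _ _)),
        fun g n => by
          show lf (g • n) = g • lf n
          rw [hw (g • n) (g • Free.of 1 (ι n)) (by rw [proj_smul, proj_of, one_smul, hs.eq_ι g])]
          show _ = g • (D.1 (Free.of 1 (ι n)) - f.1 ⟨_, hz n _ (by simp)⟩)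
          rw [smul_sub, ← D.2, ← f.2]
          exact congrArg (fun t => _ - f.1 t) (Subtype.ext (Free.map_mem π g _))⟩
      refine ⟨-θ₁, ?_⟩
      rw [map_neg, neg_eq_iff_add_eq_zero]
      show Ext1.mk (homComap hs.conn hs.conn_mem θ₁) + Ext1.mk f = 0
      rw [← map_add, Ext1.mk_eq_zero_iff]
      refine ⟨⟨D.1.comp hs.sect, comp_mem_eqHom D.2 hs.sect_mem⟩, fun y => ?_⟩
      show D.1 (hs.sect y) = lf (hs.conn y) + f.1 y
      rw [hw _ (hs.sect y) (hs.ι_conn y).symm]
      have e : (⟨Free.map π (hs.sect y), hz _ _ (hs.ι_conn y).symm⟩ : Rel G N'') = y :=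
        Subtype.ext (hs.map_sect y)
      rw [e, sub_add_cancel]
  · rintro ⟨θ, rfl⟩
    refine (Ext1.comap_mk π hs.eq_π _).trans (Ext1.mk_eq_zero_iff.mpr ?_)
    have h1 : ∀ x : Free G N, π (proj G N (hs.sect (Free.map π x) - x)) = 0 := fun x => by
      rw [map_sub, map_sub, hs.proj_sect, proj_map π hs.eq_π, sub_self]
    choose pre hpre using fun x => hs.exists_preimage (h1 x)
    refine ⟨⟨AddMonoidHom.mk' (fun x => θ.1 (pre x)) fun a b => ?_, fun g a => ?_⟩, fun y => ?_⟩
    · rw [← map_add]
      refine congrArg θ.1 (hs.injective ?_)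
      simp only [map_add, map_sub, hpre]
      abel
    · show θ.1 (pre (g • a)) = g • θ.1 (pre a)
      rw [← θ.2]
      refine congrArg θ.1 (hs.injective ?_)
      rw [hs.eq_ι g, hpre, hpre, Free.map_mem π g, hs.sect_mem g, ← smul_sub, proj_smul]
    · show θ.1 (pre y.1) = θ.1 (hs.conn (Rel.map π hs.eq_π y))
      refine congrArg θ.1 (hs.injective ?_)
      rw [hs.ι_conn, hpre, map_sub, mem_rel_iff.mp y.2, sub_zero, Rel.coe_map]

theorem ext_exact_mid :
    (Ext1.comap ι hs.eq_ι : Ext1 G N A →+ Ext1 G N' A).ker =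
      (Ext1.comap π hs.eq_π : Ext1 G N'' A →+ Ext1 G N A).range := by
  classical
  refine AddSubgroup.ext fun c => ⟨fun h => ?_, ?_⟩
  · induction c using Ext1.induction with
    | _ f =>
      have h' : Ext1.comap ι hs.eq_ι (Ext1.mk f) = 0 := h
      rw [Ext1.comap_mk] at h'
      obtain ⟨D', hD'⟩ := Ext1.mk_eq_zero_iff.mp h'
      let D : eqHom G (Free G N) A :=
        ⟨Free.eqLift fun n => if h : ∃ n', ι n' = n then D'.1 (Free.of 1 h.choose) else 0,
          Free.eqLift_mem _⟩
      have hDι : ∀ x, D.1 (Free.map ι x) = D'.1 x := fun x => by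
        refine DFunLike.congr_fun (Free.hom_ext (f := D.1.comp (Free.map ι)) (f' := D'.1)
          fun g n => ?_) x
        have hn : ∃ n', ι n' = ι n := ⟨n, rfl⟩
        simp only [D, AddMonoidHom.comp_apply, Free.map_of, Free.eqLift_of, dif_pos hn]
        rw [hs.injective hn.choose_spec, ← D'.2, Free.smul_of, mul_one]
      let f₁ : eqHom G (Rel G N) A := f - restrictRel G N A D
      have hf₁ : ∀ y', f₁.1 (Rel.map ι hs.eq_ι y') = 0 := fun y' => by
        show f.1 (Rel.map ι hs.eq_ι y') - D.1 (Free.map ι y'.1) = 0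
        rw [hDι, hD']
        exact sub_self _
      -- `f₁` extends to the preimage of `ι N'`
      let Ψ : Free G N → A := fun z =>
        if h : ∃ x' : Free G N', z - Free.map ι x' ∈ Rel G N then f₁.1 ⟨_, h.choose_spec⟩ else 0
      have hΨ : ∀ (z : Free G N) (x' : Free G N') (h : z - Free.map ι x' ∈ Rel G N),
          Ψ z = f₁.1 ⟨_, h⟩ := fun z x' h => by
        have hex : ∃ x' : Free G N', z - Free.map ι x' ∈ Rel G N := ⟨x', h⟩
        simp only [Ψ, dif_pos hex]
        have hy : x' - hex.choose ∈ Rel G N' := by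
          rw [mem_rel_iff]
          refine hs.injective ?_
          have h1 := mem_rel_iff.mp h
          have h2 := mem_rel_iff.mp hex.choose_spec
          rw [map_sub, proj_map ι hs.eq_ι, sub_eq_zero] at h1 h2
          rw [map_sub, map_sub, map_zero, ← h1, ← h2, sub_self]
        rw [← sub_eq_zero, ← map_sub, ← hf₁ ⟨_, hy⟩]
        refine congrArg f₁.1 (Subtype.ext ?_)
        show z - Free.map ι hex.choose - (z - Free.map ι x') = Free.map ι (x' - hex.choose)
        rw [map_sub]; abel
      have hdom : ∀ z, π (proj G N z) = 0 → ∃ x' : Free G N', z - Free.map ι x' ∈ Rel G N :=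
        fun z hz => by
          obtain ⟨n', hn'⟩ := hs.exists_preimage hz
          exact ⟨Free.of 1 n', by simp [mem_rel_iff, hn']⟩
      have hΨadd : ∀ z w, π (proj G N z) = 0 → π (proj G N w) = 0 → Ψ (z + w) = Ψ z + Ψ w :=
        fun z w hz hw => by
          obtain ⟨x, hx⟩ := hdom z hz
          obtain ⟨y, hy⟩ := hdom w hw
          have e : z + w - Free.map ι (x + y) = z - Free.map ι x + (w - Free.map ι y) := by
            rw [map_add]; abel
          rw [hΨ z x hx, hΨ w y hy, hΨ (z + w) (x + y) (e ▸ add_mem hx hy), ← map_add]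
          exact congrArg f₁.1 (Subtype.ext e)
      have hΨsmul : ∀ (g : G) z, π (proj G N z) = 0 → Ψ (g • z) = g • Ψ z := fun g z hz => by
        obtain ⟨x, hx⟩ := hdom z hz
        have e : g • z - Free.map ι (g • x) = g • (z - Free.map ι x) := by
          rw [Free.map_mem ι g, smul_sub]
        rw [hΨ z x hx, ← f₁.2, hΨ (g • z) (g • x) (e ▸ (g • (⟨_, hx⟩ : Rel G N)).2)]
        exact congrArg f₁.1 (Subtype.ext e)
      let f'' : eqHom G (Rel G N'') A :=
        ⟨AddMonoidHom.mk' (fun y => Ψ (hs.sect y)) fun y y' => by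
            rw [AddSubgroup.coe_add, map_add,
              hΨadd _ _ (hs.proj_sect_rel y) (hs.proj_sect_rel y')],
          fun g y => by
            show Ψ (hs.sect (g • y).1) = g • Ψ (hs.sect y)
            rw [Rel.coe_smul, hs.sect_mem g, hΨsmul g _ (hs.proj_sect_rel y)]⟩
      refine ⟨Ext1.mk f'', ?_⟩
      show Ext1.comap π hs.eq_π (Ext1.mk f'') = Ext1.mk f
      rw [Ext1.comap_mk, ← sub_eq_zero, ← map_sub, Ext1.mk_eq_zero_iff]
      have h1 : ∀ x : Free G N, π (proj G N (hs.sect (Free.map π x) - x)) = 0 := fun x => by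
        rw [map_sub, map_sub, hs.proj_sect, proj_map π hs.eq_π, sub_self]
      let D₁ : eqHom G (Free G N) A :=
        ⟨AddMonoidHom.mk' (fun x => Ψ (hs.sect (Free.map π x) - x)) fun a b => by
            rw [← hΨadd _ _ (h1 a) (h1 b)]
            congr 1
            simp only [map_add]; abel,
          fun g a => by
            show Ψ (hs.sect (Free.map π (g • a)) - g • a) = g • Ψ (hs.sect (Free.map π a) - a)
            rw [Free.map_mem π g, hs.sect_mem g, ← smul_sub, hΨsmul g _ (h1 a)]⟩
      refine ⟨D₁ - D, fun y => ?_⟩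
      show Ψ (hs.sect (Free.map π y.1) - y.1) - D.1 y.1 = Ψ (hs.sect (Free.map π y.1)) - f.1 y
      have hyK : π (proj G N y.1) = 0 := by rw [mem_rel_iff.mp y.2, map_zero]
      have h2 := hΨadd _ _ (h1 y.1) hyK
      rw [sub_add_cancel] at h2
      have h3 : Ψ y.1 = f.1 y - D.1 y.1 := by
        rw [hΨ y.1 0 (by simp)]
        exact congrArg f₁.1 (Subtype.ext (by simp) :
          (⟨y.1 - Free.map ι 0, _⟩ : Rel G N) = y)
      rw [h2, h3]
      abel
  · rintro ⟨c, rfl⟩
    induction c using Ext1.induction with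
    | _ f =>
      show Ext1.comap ι hs.eq_ι (Ext1.comap π hs.eq_π (Ext1.mk f)) = 0
      rw [Ext1.comap_mk, Ext1.comap_mk, Ext1.mk_eq_zero_iff]
      have hz : ∀ x : Free G N', Free.map π (Free.map ι x) ∈ Rel G N'' := fun x => by
        rw [mem_rel_iff, proj_map π hs.eq_π, proj_map ι hs.eq_ι, hs.comp_eq_zero]
      exact ⟨⟨f.1.comp (((Free.map π).comp (Free.map ι)).codRestrict _ hz),
        comp_mem_eqHom f.2 fun g x => Subtype.ext
          (comp_mem_eqHom (Free.map_mem π) (Free.map_mem ι) g x)⟩, fun y => rfl⟩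

/-- The Euler characteristic is multiplicative. -/
theorem chi_mul (hW : IsCT p P W) [Finite N'] [Finite N] [Finite N'']
    (hN : ∀ n : N, p • n = 0) :
    chi (G := G) W N = chi (G := G) W N' * chi (G := G) W N'' := by
  have hN' : ∀ n : N', p • n = 0 := fun n => hs.injective (by rw [map_nsmul, hN, map_zero])
  have hN'' : ∀ n : N'', p • n = 0 := fun n => by
    obtain ⟨m, rfl⟩ := hs.surjective n; rw [← map_nsmul, hN, map_zero]
  haveI := hW.finite_hom (M := N) hN
  haveI := hW.finite_hom (M := N') hN'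
  haveI := hW.finite_hom (M := N'') hN''
  haveI := hW.finite_ext1 (N := N) hN
  haveI := hW.finite_ext1 (N := N') hN'
  haveI := hW.finite_ext1 (N := N'') hN''
  have c₁ := card_eq_range_mul_ker (homComap ι hs.eq_ι : eqHom G N W →+ eqHom G N' W)
  have c₂ := card_eq_range_mul_ker (hs.delta W)
  have c₃ := card_eq_range_mul_ker (Ext1.comap π hs.eq_π : Ext1 G N'' W →+ Ext1 G N W)
  have c₄ := card_eq_range_mul_ker (Ext1.comap ι hs.eq_ι : Ext1 G N W →+ Ext1 G N' W)
  have cN := card_eq_range_mul_ker π
  rw [hs.hom_exact, ← Nat.card_congr (AddMonoidHom.ofInjective hs.homComap_injective).toEquiv]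
    at c₁
  rw [hs.delta_exact] at c₂
  rw [hs.ext_exact_left] at c₃
  rw [hs.ext_exact_mid, AddMonoidHom.range_eq_top.mpr (Ext1.comap_surjective P hW.isPGroup
      hW.coprime hW.h1 hW.h0 ι hs.eq_ι hs.injective hN'),
    Nat.card_congr AddSubgroup.topEquiv.toEquiv] at c₄
  rw [hs.exact, AddMonoidHom.range_eq_top.mpr hs.surjective,
    Nat.card_congr AddSubgroup.topEquiv.toEquiv,
    ← Nat.card_congr (AddMonoidHom.ofInjective hs.injective).toEquiv] at cN
  have p4 : (Nat.card (Ext1 G N' W) : ℚ) ≠ 0 := Nat.cast_ne_zero.mpr Nat.card_pos.ne'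
  have p2 : (Nat.card (hs.delta W).range : ℚ) ≠ 0 := Nat.cast_ne_zero.mpr Nat.card_pos.ne'
  have p3 : (Nat.card (Ext1.comap π hs.eq_π : Ext1 G N'' W →+ Ext1 G N W).range : ℚ) ≠ 0 :=
    Nat.cast_ne_zero.mpr Nat.card_pos.ne'
  unfold chi
  rw [c₁, c₄, cN, c₂, c₃]
  push_cast
  field_simp

end IsSES

end FLTAgent.TW.Coh
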