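import Fermat.Agent.TW.Coh.Cover

/-!
# The extension modulo `p` and its local Euler identity

The extension of the classes by the augmentation ideal is finite modulo `p` and cohomologically
trivial (`isCT_cover`). Reducing it modulo `p` and taking homomorphisms equivariant under a
subgroup of order prime to `p`, which is exact, gives its local Euler identity from that of the
classes (`localEuler_cover`).
-/

set_option autoImplicit false
set_option linter.unusedSectionVars false
set_option linter.style.haveILetI false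

noncomputable section

namespace FLTAgent.TW.Coh

variable {G : Type} [Group G] {p : ℕ}

/-- The trivial module `ℤ/p`. -/
def TrivFp (p : ℕ) : Type := ZMod p

instance : AddCommGroup (TrivFp p) := inferInstanceAs (AddCommGroup (ZMod p))

instance : DistribMulAction G (TrivFp p) where
  smul _ x := x
  one_smul _ := rfl
  mul_smul _ _ _ := rfl
  smul_zero _ := rfl
  smul_add _ _ _ := rfl

theorem TrivFp.nsmul_eq_zero (x : TrivFp p) : p • x = 0 :=
  show p • (show ZMod p from x) = 0 from ZModModule.char_nsmul_eq_zero p _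

theorem TrivMod.nsmul_apply {X : Type} (k : ℕ) (z : TrivMod X) (x : X) :
    (k • z) x = (k : ℤ) * z x :=
  (show (k • z) x = k • z x from rfl).trans (nsmul_eq_mul k (z x))

/-- Functoriality of `A / p A`. -/
def ModP.map {A B : Type} [AddCommGroup A] [AddCommGroup B] (j : A →+ B) : ModP p A →+ ModP p B :=
  QuotientAddGroup.map _ _ j (by
    rintro _ ⟨x, rfl⟩
    exact ⟨j x, (map_nsmul j p x).symm⟩)

theorem ModP.map_toModP {A B : Type} [AddCommGroup A] [AddCommGroup B] (j : A →+ B) (x : A) :
    ModP.map (p := p) j (toModP x) = toModP (j x) := rfl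

theorem ModP.map_mem {A B : Type} [AddCommGroup A] [DistribMulAction G A] [AddCommGroup B]
    [DistribMulAction G B] {j : A →+ B} (hj : j ∈ eqHom G A B) :
    ModP.map (p := p) j ∈ eqHom G (ModP p A) (ModP p B) := fun g x => by
  obtain ⟨a, rfl⟩ := toModP_surjective x
  exact congrArg toModP (hj g a)

/-- The dual of a finite `p`-torsion module has the same cardinality. -/
theorem card_dual {N : Type} [AddCommGroup N] [Finite N] [Fact p.Prime]
    (hN : ∀ n : N, p • n = 0) : Nat.card (N →+ ZMod p) = Nat.card N := by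
  letI := AddCommGroup.zmodModule (n := p) hN
  haveI : Module.Finite (ZMod p) N := Module.Finite.of_finite
  let b := Module.finBasis (ZMod p) N
  refine (Nat.card_congr (b.toDualEquiv.toEquiv.trans
    { toFun := fun f => f.toAddMonoidHom
      invFun := fun f => f.toZModLinearMap p
      left_inv := fun f => LinearMap.ext fun _ => rfl
      right_inv := fun f => AddMonoidHom.ext fun _ => rfl })).symm

theorem exists_lift_hom {N B D : Type} [AddCommGroup N] [AddCommGroup B] [AddCommGroup D]
    [Fact p.Prime] (hN : ∀ n : N, p • n = 0) (hB : ∀ b : B, p • b = 0) (π : B →+ D)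
    (hπ : Function.Surjective π) (f : N →+ D) : ∃ h : N →+ B, π.comp h = f := by
  letI := AddCommGroup.zmodModule (n := p) hN
  letI := AddCommGroup.zmodModule (n := p) hB
  obtain ⟨⟨ι, b⟩⟩ := Module.Free.exists_basis (ZMod p) N
  letI : Module (ZMod p) D := AddCommGroup.zmodModule (n := p) fun d => by
    obtain ⟨x, rfl⟩ := hπ d
    rw [← map_nsmul, hB, map_zero]
  refine ⟨(b.constr ℕ fun i => Function.surjInv hπ (f (b i))).toAddMonoidHom, ?_⟩
  have : (π.toZModLinearMap p).comp (b.constr ℕ fun i => Function.surjInv hπ (f (b i))) =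
      f.toZModLinearMap p := b.ext fun i => by simp [Function.surjInv_eq hπ]
  exact AddMonoidHom.ext fun x => LinearMap.congr_fun this x

/-- `Hom_C(N, ·)` is exact when `C` has order prime to `p`. -/
theorem card_eqHom_of_exact {C N A B D : Type} [Group C] [Fintype C] [Fact p.Prime]
    [AddCommGroup N] [DistribMulAction C N] [AddCommGroup A] [DistribMulAction C A]
    [AddCommGroup B] [DistribMulAction C B] [AddCommGroup D] [DistribMulAction C D]
    (hC : (Nat.card C).Coprime p) (hN : ∀ n : N, p • n = 0) (hB : ∀ b : B, p • b = 0)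
    (ι : A →+ B) (hι : ι ∈ eqHom C A B) (π : B →+ D) (hπ : π ∈ eqHom C B D)
    (hinj : Function.Injective ι) (hsurj : Function.Surjective π) (hex : π.ker = ι.range) :
    Nat.card (eqHom C N B) = Nat.card (eqHom C N A) * Nat.card (eqHom C N D) := by
  let F : eqHom C N B →+ eqHom C N D :=
    AddMonoidHom.mk' (fun f => ⟨π.comp f.1, comp_mem_eqHom hπ f.2⟩) fun f f' =>
      Subtype.ext (AddMonoidHom.ext fun x => map_add π _ _)
  have hFs : Function.Surjective F := fun f => by
    obtain ⟨h, hh⟩ := exists_lift_hom hN hB π hsurj f.1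
    obtain ⟨u, -, hu⟩ := Nat.exists_mul_mod_eq_one_of_coprime hC (Fact.out : p.Prime).one_lt
    refine ⟨⟨htrace C (u • h), htrace_mem _⟩, Subtype.ext ?_⟩
    show π.comp (htrace C (u • h)) = f.1
    rw [← htrace_comp_left hπ, show π.comp (u • h) = u • π.comp h from
      AddMonoidHom.ext fun x => map_nsmul π u _, hh, map_nsmul, htrace_apply]
    simp only [hconj_eq_self f.2, Finset.sum_const, Finset.card_univ]
    rw [← mul_nsmul, ← Nat.card_eq_fintype_card]
    refine AddMonoidHom.ext fun x => ?_
    rw [AddMonoidHom.nsmul_apply, ← Nat.mod_add_div (Nat.card C * u) p, hu, add_nsmul, one_nsmul,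
      mul_nsmul, ← map_nsmul f.1 p, hN, map_zero, nsmul_zero, add_zero]
  let I : eqHom C N A →+ eqHom C N B :=
    AddMonoidHom.mk' (fun f => ⟨ι.comp f.1, comp_mem_eqHom hι f.2⟩) fun f f' =>
      Subtype.ext (AddMonoidHom.ext fun x => map_add ι _ _)
  have hI : Function.Injective I := fun f f' h => Subtype.ext (AddMonoidHom.ext fun x =>
    hinj (DFunLike.congr_fun (congrArg Subtype.val h) x))
  have hker : F.ker = I.range := by
    refine AddSubgroup.ext fun f => ⟨fun hf => ?_, ?_⟩
    · have hf' : ∀ n, f.1 n ∈ ι.range := fun n => by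
        rw [← hex]
        exact DFunLike.congr_fun (congrArg Subtype.val (hf : F f = 0)) n
      choose a ha using hf'
      refine ⟨⟨AddMonoidHom.mk' a fun n m => hinj (by rw [map_add, ha, ha, ha, map_add]),
        fun c n => hinj (by
          show ι (a (c • n)) = ι (c • a n)
          rw [ha, f.2, hι, ha])⟩, Subtype.ext (AddMonoidHom.ext ha)⟩
    · rintro ⟨g, rfl⟩
      refine Subtype.ext (AddMonoidHom.ext fun n => ?_)
      show π (ι (g.1 n)) = 0
      rw [← AddMonoidHom.mem_ker, hex]
      exact ⟨_, rfl⟩
  rw [card_eq_range_mul_ker F, hker, Nat.card_congr (AddMonoidHom.ofInjective hI).symm.toEquiv,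
    AddMonoidHom.range_eq_top.mpr hFs, AddSubgroup.card_top, mul_comm]

/-! ### The regular lattice modulo `p` -/

variable [Fintype G]

/-- The augmentation modulo `p`. -/
def augFp : TrivMod G →+ TrivFp p := (Int.castAddHom (ZMod p)).comp aug

theorem augFp_apply (z : TrivMod G) : (augFp z : TrivFp p) = ((aug z : ℤ) : ZMod p) := rfl

/-- The augmentation of the reduced regular lattice. -/
def augP : ModP p (TrivMod G) →+ TrivFp p :=
  QuotientAddGroup.lift _ augFp (by
    rintro _ ⟨z, rfl⟩
    show augFp (p • z) = 0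
    rw [map_nsmul]
    exact TrivFp.nsmul_eq_zero _)

theorem augP_toModP (z : TrivMod G) : (augP (toModP z) : TrivFp p) = augFp z := rfl

theorem augP_mem : (augP : ModP p (TrivMod G) →+ TrivFp p) ∈ eqHom G _ _ := fun g x => by
  obtain ⟨z, rfl⟩ := toModP_surjective x
  show augFp (g • z) = augFp z
  rw [augFp_apply, augFp_apply, aug_smul]

variable (G p) in
/-- The reduced augmentation ideal. -/
def augIdeal : StableSub G (ModP p (TrivMod G)) where
  sub := augP.ker
  smul_mem g x hx := by
    rw [AddMonoidHom.mem_ker, augP_mem g x, AddMonoidHom.mem_ker.mp hx, smul_zero]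

/-- Coordinates of the reduced regular lattice. -/
def coordFp (x : G) : ModP p (TrivMod G) →+ ZMod p :=
  QuotientAddGroup.lift _ ((Int.castAddHom (ZMod p)).comp
    (AddMonoidHom.mk' (fun z : TrivMod G => z x) fun _ _ => rfl)) (by
    rintro _ ⟨z, rfl⟩
    show (((p • z) x : ℤ) : ZMod p) = 0
    simp [TrivMod.nsmul_apply])

theorem coordFp_toModP (x : G) (z : TrivMod G) :
    coordFp x (toModP z : ModP p (TrivMod G)) = ((z x : ℤ) : ZMod p) := rfl

theorem coordFp_smul (g x : G) (v : ModP p (TrivMod G)) :
    coordFp x (g • v) = coordFp (g⁻¹ * x) v := by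
  obtain ⟨z, rfl⟩ := toModP_surjective v
  rfl

theorem coordFp_ext {v w : ModP p (TrivMod G)} (h : ∀ x, coordFp x v = coordFp x w) : v = w := by
  rw [← sub_eq_zero]
  obtain ⟨z, hz⟩ := toModP_surjective (v - w)
  rw [← hz, toModP_eq_zero_iff]
  have h' : ∀ x, (p : ℤ) ∣ z x := fun x => by
    rw [← ZMod.intCast_zmod_eq_zero_iff_dvd, ← coordFp_toModP, hz, map_sub, h, sub_self]
  choose y hy using h'
  exact ⟨fun x => y x, funext fun x => (TrivMod.nsmul_apply p _ x).trans (hy x).symm⟩

theorem exists_coordFp [NeZero p] (c : G → ZMod p) :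
    ∃ v : ModP p (TrivMod G), ∀ x, coordFp x v = c x :=
  ⟨toModP (fun x => (c x).val : TrivMod G), fun x =>
    (coordFp_toModP (p := p) x _).trans (by
      show (((c x).val : ℤ) : ZMod p) = c x
      rw [Int.cast_natCast, ZMod.natCast_zmod_val])⟩

theorem augP_eq_sum (v : ModP p (TrivMod G)) : augP v = (∑ x : G, coordFp x v : ZMod p) := by
  obtain ⟨z, rfl⟩ := toModP_surjective v
  refine Eq.trans ?_ (Finset.sum_congr rfl fun x _ => (coordFp_toModP x z).symm)
  show ((∑ x : G, z x : ℤ) : ZMod p) = _
  exact Int.cast_sum _ _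

omit [Fintype G] in
theorem card_orbit_quotient (C : Subgroup G) :
    Nat.card (Quotient (MulAction.orbitRel C G)) = C.index :=
  (Nat.card_congr (QuotientGroup.quotientRightRelEquivQuotientLeftRel C)).trans rfl

theorem card_eqHom_regular {N : Type} [AddCommGroup N] [DistribMulAction G N] [Finite N]
    [Fact p.Prime] (hN : ∀ n : N, p • n = 0) (C : Subgroup G) :
    Nat.card (eqHom C N (ModP p (TrivMod G))) = Nat.card N ^ C.index := by
  classical
  let rep : Quotient (MulAction.orbitRel C G) → G := Quotient.out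
  let Φ : eqHom C N (ModP p (TrivMod G)) → (Quotient (MulAction.orbitRel C G) → (N →+ ZMod p)) :=
    fun f q => (coordFp (rep q)).comp f.1
  have hdec : ∀ x : G, ∃ c : C, (c : G) * rep (Quotient.mk _ x) = x := fun x => by
    obtain ⟨c, hc⟩ := MulAction.orbitRel_apply.mp
      (Quotient.mk_out (s := MulAction.orbitRel C G) x)
    refine ⟨c⁻¹, ?_⟩
    have : (c : G) * x = rep (Quotient.mk _ x) := hc
    rw [← this, InvMemClass.coe_inv, inv_mul_cancel_left]
  choose dec hdec using hdec
  have hbij : Function.Bijective Φ := by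
    refine ⟨fun f f' h => Subtype.ext (AddMonoidHom.ext fun n => coordFp_ext fun x => ?_),
      fun F => ?_⟩
    · have h1 := DFunLike.congr_fun (congrFun h (Quotient.mk _ x)) ((dec x)⁻¹ • n)
      change coordFp _ (f.1 _) = coordFp _ (f'.1 _) at h1
      rw [f.2, f'.2] at h1
      change coordFp _ ((((dec x)⁻¹ : C) : G) • f.1 n) = coordFp _ ((((dec x)⁻¹ : C) : G) • f'.1 n)
        at h1
      rw [coordFp_smul, coordFp_smul, InvMemClass.coe_inv, inv_inv, hdec] at h1
      exact h1
    · choose v hv using fun n : N => exists_coordFp (p := p) fun x : G =>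
        F (Quotient.mk _ x) ((dec x)⁻¹ • n)
      refine ⟨⟨AddMonoidHom.mk' v fun n m => coordFp_ext fun x => by
        simp [hv, smul_add], fun c n => coordFp_ext fun x => ?_⟩, funext fun q =>
          AddMonoidHom.ext fun n => ?_⟩
      · show coordFp x (v (c • n)) = coordFp x ((c : G) • v n)
        rw [coordFp_smul, hv, hv]
        have hq : (Quotient.mk (MulAction.orbitRel C G) ((c : G)⁻¹ * x)) = Quotient.mk _ x :=
          Quotient.sound (MulAction.orbitRel_apply.mpr ⟨c⁻¹, rfl⟩)
        have hd : dec x = c * dec ((c : G)⁻¹ * x) := by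
          refine Subtype.ext (mul_right_cancel (b := rep (Quotient.mk _ x)) ?_)
          rw [hdec, Subgroup.coe_mul, mul_assoc]
          conv_rhs => rw [← hq, hdec, mul_inv_cancel_left]
        rw [hq, hd, mul_inv_rev, mul_smul, inv_smul_smul]
      · show coordFp (rep q) (v n) = F q n
        rw [hv]
        have hq : Quotient.mk _ (rep q) = q := Quotient.out_eq q
        have hd : dec (rep q) = 1 := by
          refine Subtype.ext (mul_right_cancel (b := rep q) ?_)
          have := hdec (rep q)
          rw [hq] at this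
          rw [this, Subgroup.coe_one, one_mul]
        rw [hq, hd, inv_one, one_smul]
  rw [Nat.card_congr (Equiv.ofBijective Φ hbij), Nat.card_fun, card_dual hN, card_orbit_quotient]

/-! ### The extension modulo `p` -/

variable {n : ℕ} {B : Type} [AddCommGroup B] [DistribMulAction G B] (D : CoverData G p n B)

namespace CoverData

/-- The classes inside the extension. -/
def inclA : D.classes →+ D.cover where
  toFun c := ⟨(c.1, 0), map_zero aug, by rw [map_zero, D.mem_classes.mp c.2, sub_self]⟩
  map_zero' := rfl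
  map_add' c c' := Subtype.ext (Prod.ext rfl (add_zero 0).symm)

theorem inclA_mem : D.inclA ∈ eqHom G D.classes D.cover := fun g _ =>
  Subtype.ext (Prod.ext rfl (smul_zero g).symm)

theorem inclA_injective : Function.Injective D.inclA := fun _ _ h =>
  Subtype.ext (congrArg (fun w : D.cover => w.1.1) h)

/-- The lattice component. -/
def latt : D.cover →+ TrivMod G where
  toFun w := w.1.2
  map_zero' := rfl
  map_add' _ _ := rfl

theorem latt_mem : D.latt ∈ eqHom G D.cover (TrivMod G) := fun _ _ => rfl

theorem exists_inclA_of_latt {w : D.cover} (hw : D.latt w = 0) : ∃ c, D.inclA c = w := by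
  refine ⟨⟨w.1.1, ?_⟩, Subtype.ext (Prod.ext rfl hw.symm)⟩
  rw [mem_classes, ← sub_eq_zero, w.2.2, show w.1.2 = 0 from hw, map_zero]

theorem trivMod_nsmul_eq_zero [Fact p.Prime] {z : TrivMod G} (h : p • z = 0) : z = 0 :=
  funext fun x => by
    have h1 : ((p • z) x : ℤ) = 0 := congrFun h x
    rw [TrivMod.nsmul_apply, mul_eq_zero] at h1
    exact h1.resolve_left (by exact_mod_cast (Fact.out : p.Prime).ne_zero)

theorem exists_inclA_of_torsion [Fact p.Prime] {w : D.cover} (hw : p • w = 0) :
    ∃ c, D.inclA c = w :=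
  D.exists_inclA_of_latt (trivMod_nsmul_eq_zero (p := p) (by rw [← map_nsmul, hw, map_zero]))

theorem finite_torsion_cover [Fact p.Prime] (h : Finite {c : D.classes // p • c = 0}) :
    Finite {w : D.cover // p • w = 0} :=
  Finite.of_surjective (fun c : {c : D.classes // p • c = 0} =>
    (⟨D.inclA c.1, by rw [← map_nsmul, c.2, map_zero]⟩ : {w : D.cover // p • w = 0})) fun w => by
      obtain ⟨c, hc⟩ := D.exists_inclA_of_torsion w.2
      refine ⟨⟨c, D.inclA_injective ?_⟩, Subtype.ext hc⟩
      rw [map_nsmul, hc, map_zero]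
      exact w.2

theorem exists_lift_augIdeal [Fact p.Prime] {z : TrivMod G}
    (hz : (toModP z : ModP p (TrivMod G)) ∈ (augIdeal G p).sub) :
    ∃ w : D.cover, (toModP (D.latt w) : ModP p (TrivMod G)) = toModP z := by
  have h1 : ((aug z : ℤ) : ZMod p) = 0 := hz
  obtain ⟨m, hm⟩ := (ZMod.intCast_zmod_eq_zero_iff_dvd _ _).mp h1
  obtain ⟨c, hc⟩ := D.exists_lift (z - p • (m • delta1 1)) (by
    rw [map_sub, map_nsmul, map_zsmul, aug_delta1, hm]; simp)
  refine ⟨⟨_, hc⟩, ?_⟩
  show toModP (z - p • (m • delta1 1)) = toModP z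
  rw [map_sub, map_nsmul, nsmul_modP, sub_zero]

/-- The reduced extension maps onto the reduced augmentation ideal. -/
def lattP : ModP p D.cover →+ (augIdeal G p).sub :=
  (ModP.map D.latt).codRestrict _ fun x => by
    obtain ⟨w, rfl⟩ := toModP_surjective x
    show ((aug w.1.2 : ℤ) : ZMod p) = 0
    rw [w.2.1, Int.cast_zero]

theorem lattP_mem : D.lattP ∈ eqHom G (ModP p D.cover) (augIdeal G p).sub := fun g x =>
  Subtype.ext (ModP.map_mem D.latt_mem g x)

theorem lattP_surjective [Fact p.Prime] : Function.Surjective D.lattP := fun v => by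
  obtain ⟨z, hz⟩ := toModP_surjective v.1
  obtain ⟨w, hw⟩ := D.exists_lift_augIdeal (z := z) (hz ▸ v.2)
  exact ⟨toModP w, Subtype.ext (hw.trans hz)⟩

theorem modP_inclA_injective [Fact p.Prime] :
    Function.Injective (ModP.map (p := p) D.inclA) := by
  refine (injective_iff_map_eq_zero _).mpr fun x hx => ?_
  obtain ⟨c, rfl⟩ := toModP_surjective x
  obtain ⟨w, hw⟩ := toModP_eq_zero_iff.mp hx
  obtain ⟨c', rfl⟩ := D.exists_inclA_of_latt (w := w)
    (trivMod_nsmul_eq_zero (p := p) (by rw [← map_nsmul, hw]; rfl))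
  exact toModP_eq_zero_iff.mpr ⟨c', D.inclA_injective (by rw [map_nsmul, hw])⟩

theorem lattP_ker [Fact p.Prime] : D.lattP.ker = (ModP.map (p := p) D.inclA).range := by
  refine AddSubgroup.ext fun x => ⟨fun hx => ?_, ?_⟩
  · obtain ⟨w, rfl⟩ := toModP_surjective x
    obtain ⟨z, hz⟩ := toModP_eq_zero_iff.mp
      (congrArg Subtype.val (hx : D.lattP (toModP w) = 0))
    have haug : aug z = 0 := by
      have h1 := congrArg aug hz
      rw [map_nsmul, show aug (D.latt w) = 0 from w.2.1, nsmul_eq_mul, mul_eq_zero] at h1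
      exact h1.resolve_left (by exact_mod_cast (Fact.out : p.Prime).ne_zero)
    obtain ⟨c₀, hc₀⟩ := D.exists_lift z haug
    let w₀ : D.cover := ⟨(c₀, z), hc₀⟩
    obtain ⟨c, hc⟩ := D.exists_inclA_of_latt (w := w - p • w₀) (by
      rw [map_sub, map_nsmul, show D.latt w₀ = z from rfl, hz, sub_self])
    refine ⟨toModP c, ?_⟩
    rw [ModP.map_toModP, hc, map_sub, map_nsmul, nsmul_modP, sub_zero]
  · rintro ⟨y, rfl⟩
    obtain ⟨c, rfl⟩ := toModP_surjective y
    exact Subtype.ext rfl

theorem finite_modP_cover [Fact p.Prime] (h : Finite (ModP p D.classes)) :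
    Finite (ModP p D.cover) := by
  haveI := h
  haveI : Finite (ModP p (TrivMod G)) :=
    Finite.of_injective (fun v => fun x => coordFp (p := p) x v) fun v w e =>
      coordFp_ext fun x => congrFun e x
  refine Nat.finite_of_card_ne_zero ?_
  rw [card_eq_range_mul_ker D.lattP, D.lattP_ker]
  haveI : Finite (ModP.map (p := p) D.inclA).range :=
    Finite.of_surjective (fun x => ⟨_, x, rfl⟩) fun ⟨_, x, hx⟩ => ⟨x, Subtype.ext hx⟩
  exact Nat.mul_ne_zero Nat.card_pos.ne' Nat.card_pos.ne'

/-- The extension is a cohomologically trivial datum. -/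
theorem isCT_cover [Fact p.Prime] {P : Subgroup G} [Fintype P] (hP : IsPGroup p P)
    (hcard : Fintype.card P = n) (hfac : n = p ^ (Fintype.card G).factorization p)
    (htor : Finite {c : D.classes // p • c = 0}) (hmod : Finite (ModP p D.classes)) :
    IsCT p P D.cover := by
  have hidx : P.index.Coprime p := by
    refine ((Fact.out : p.Prime).coprime_iff_not_dvd.mpr fun hdvd => ?_).symm
    have h1 : p ^ ((Fintype.card G).factorization p + 1) ∣ Fintype.card G := by
      have h2 := P.card_mul_index
      rw [Nat.card_eq_fintype_card, hcard, hfac, Nat.card_eq_fintype_card] at h2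
      conv_rhs => rw [← h2]
      rw [pow_succ]
      exact mul_dvd_mul_left _ hdvd
    have := ((Fact.out : p.Prime).pow_dvd_iff_le_factorization Fintype.card_ne_zero).mp h1
    omega
  refine ⟨hP, hidx, D.h1Zero_cover hP hcard ?_, D.traceSurj_cover hP hcard hfac,
    D.finite_torsion_cover htor, D.finite_modP_cover hmod⟩
  rw [hfac]
  exact Nat.Coprime.pow_right _ hidx

theorem card_eqHom_cover [Fact p.Prime] {N : Type} [AddCommGroup N] [DistribMulAction G N]
    (hN : ∀ n : N, p • n = 0) (C : Subgroup G) :
    Nat.card (eqHom C N D.cover) = Nat.card (eqHom C N D.classes) := by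
  let I : eqHom C N D.classes → eqHom C N D.cover := fun f =>
    ⟨D.inclA.comp f.1, comp_mem_eqHom (fun c x => D.inclA_mem (c : G) x) f.2⟩
  refine (Nat.card_congr (Equiv.ofBijective I ⟨fun f f' h => Subtype.ext (AddMonoidHom.ext fun x =>
    D.inclA_injective (DFunLike.congr_fun (congrArg Subtype.val h) x)), fun f => ?_⟩)).symm
  choose a ha using fun x : N => D.exists_inclA_of_torsion (w := f.1 x)
    (by rw [← map_nsmul, hN, map_zero])
  refine ⟨⟨AddMonoidHom.mk' a fun x y => D.inclA_injective (by rw [map_add, ha, ha, ha, map_add]),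
    fun c x => D.inclA_injective ?_⟩, Subtype.ext (AddMonoidHom.ext ha)⟩
  show D.inclA (a (c • x)) = D.inclA ((c : G) • a x)
  rw [ha, f.2, D.inclA_mem, ha]
  rfl

/-- The local Euler identity from that of the classes. -/
theorem localEuler_cover [Fact p.Prime] {N : Type} [AddCommGroup N] [DistribMulAction G N]
    [Finite N] (hN : ∀ n : N, p • n = 0)
    (hA : ∀ C : Subgroup G, (Nat.card C).Coprime p → Nat.card (eqHom C N (ModP p D.classes)) =
      Nat.card (eqHom C N (TrivFp p)) * Nat.card (eqHom C N D.classes)) :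
    LocalEuler (G := G) p D.cover N := fun C hC => by
  classical
  have e1 : Nat.card (eqHom C N (ModP p D.cover)) =
      Nat.card (eqHom C N (ModP p D.classes)) * Nat.card (eqHom C N (augIdeal G p).sub) :=
    card_eqHom_of_exact hC hN (fun b => nsmul_modP b) (ModP.map (p := p) D.inclA)
      (fun c x => ModP.map_mem D.inclA_mem (c : G) x) D.lattP
      (fun c x => D.lattP_mem (c : G) x) D.modP_inclA_injective D.lattP_surjective D.lattP_ker
  have e2 : Nat.card (eqHom C N (ModP p (TrivMod G))) =
      Nat.card (eqHom C N (augIdeal G p).sub) * Nat.card (eqHom C N (TrivFp p)) :=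
    card_eqHom_of_exact hC hN (fun b => nsmul_modP b) (augIdeal G p).sub.subtype
      (fun c x => rfl) augP (fun c x => augP_mem (c : G) x) Subtype.val_injective
      (fun t => ⟨toModP ((ZMod.val (t : ZMod p) : ℤ) • delta1 1), by
        rw [augP_toModP, augFp_apply, map_zsmul, aug_delta1]
        simp only [smul_eq_mul, mul_one, Int.cast_natCast]
        exact ZMod.natCast_zmod_val (n := p) t⟩)
      (by rw [AddSubgroup.range_subtype]; rfl)
  rw [card_eqHom_regular hN C] at e2
  rw [e1, hA C hC, D.card_eqHom_cover hN C, e2]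
  ring

end CoverData

end FLTAgent.TW.Coh
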