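import Mathlib

/-!
# Elementary cohomological algebra for a finite group

Additive modules with a distributive action, equivariant homomorphisms, the canonical free
presentation `0 → Rel → Free → N → 0`, and the group
`Ext1 G N A = Hom_G(Rel, A) / Hom_G(Free, A)`, with `Ext1.mk` and functoriality `Ext1.map`.
-/

set_option autoImplicit false
set_option linter.unusedSectionVars false

noncomputable section

namespace FLTAgent.TW.Coh

variable {G : Type} [Group G]

section Conj

variable {A B C : Type} [AddCommGroup A] [DistribMulAction G A] [AddCommGroup B]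
  [DistribMulAction G B] [AddCommGroup C] [DistribMulAction G C]

/-- The action on homomorphisms. -/
def hconj (g : G) : (A →+ B) →+ (A →+ B) where
  toFun f := (DistribSMul.toAddMonoidHom B g).comp (f.comp (DistribSMul.toAddMonoidHom A g⁻¹))
  map_zero' := by ext; simp
  map_add' f f' := by ext; simp

@[simp] theorem hconj_apply (g : G) (f : A →+ B) (x : A) : hconj g f x = g • f (g⁻¹ • x) := rfl

@[simp] theorem hconj_one (f : A →+ B) : hconj (1 : G) f = f := by ext; simp

theorem hconj_mul (g h : G) (f : A →+ B) : hconj (g * h) f = hconj g (hconj h f) := by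
  ext; simp [mul_smul]

theorem hconj_comp (g : G) (f : B →+ C) (f' : A →+ B) :
    hconj g (f.comp f') = (hconj g f).comp (hconj g f') := by
  ext; simp

variable (G A B)

/-- Equivariant homomorphisms. -/
def eqHom : AddSubgroup (A →+ B) where
  carrier := {f | ∀ (g : G) (a : A), f (g • a) = g • f a}
  zero_mem' g a := by simp
  add_mem' {f f'} hf hf' g a := by simp [hf g a, hf' g a]
  neg_mem' {f} hf g a := by simp [hf g a]

variable {G A B}

theorem mem_eqHom {f : A →+ B} : f ∈ eqHom G A B ↔ ∀ (g : G) (a : A), f (g • a) = g • f a :=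
  Iff.rfl

theorem hconj_eq_self {f : A →+ B} (hf : f ∈ eqHom G A B) (g : G) : hconj g f = f := by
  ext x; simp [hf g⁻¹ x]

theorem mem_eqHom_of_hconj {f : A →+ B} (hf : ∀ g : G, hconj g f = f) : f ∈ eqHom G A B :=
  fun g a => by
    have := DFunLike.congr_fun (hf g) (g • a)
    simpa using this.symm

theorem comp_mem_eqHom {f : B →+ C} {f' : A →+ B} (hf : f ∈ eqHom G B C)
    (hf' : f' ∈ eqHom G A B) : f.comp f' ∈ eqHom G A C :=
  fun g a => by simp [hf' g a, hf g (f' a)]

variable [Fintype G]

variable (G) in
/-- The trace of a homomorphism. -/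
def htrace : (A →+ B) →+ (A →+ B) := ∑ g : G, hconj g

theorem htrace_apply (f : A →+ B) : htrace G f = ∑ g : G, hconj g f := by
  simp [htrace, AddMonoidHom.finsetSum_apply]

theorem htrace_mem (f : A →+ B) : htrace G f ∈ eqHom G A B :=
  mem_eqHom_of_hconj fun g => by
    rw [htrace_apply, map_sum]
    simp only [← hconj_mul]
    exact Fintype.sum_equiv (Equiv.mulLeft g) _ _ fun _ => rfl

theorem htrace_comp_left {f : B →+ C} (hf : f ∈ eqHom G B C) (f' : A →+ B) :
    htrace G (f.comp f') = f.comp (htrace G f') := by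
  ext x; simp [htrace_apply, hconj_comp, hconj_eq_self hf]

theorem htrace_comp_right (f : B →+ C) {f' : A →+ B} (hf' : f' ∈ eqHom G A B) :
    htrace G (f.comp f') = (htrace G f).comp f' := by
  ext x; simp [htrace_apply, hconj_comp, hconj_eq_self hf']

end Conj

section Cochain

variable (G) (A : Type) [AddCommGroup A] [DistribMulAction G A]

/-- `a` is a crossed homomorphism. -/
def IsCrossed {A : Type} [AddCommGroup A] [DistribMulAction G A] (a : G → A) : Prop :=
  ∀ g h : G, a (g * h) = a g + g • a h

/-- `H¹(G, A) = 0`. -/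
def H1Zero : Prop := ∀ a : G → A, IsCrossed G a → ∃ w : A, ∀ g : G, a g = g • w - w

/-- `Ĥ⁰(G, A) = 0`: every invariant is a trace. -/
def TraceSurj [Fintype G] : Prop :=
  ∀ a : A, (∀ g : G, g • a = a) → ∃ w : A, ∑ g : G, g • w = a

end Cochain

section Free

variable (G) (N : Type) [AddCommGroup N] [DistribMulAction G N]

/-- The free module on `N`. -/
def Free : Type := (G × N) →₀ ℤ

instance : AddCommGroup (Free G N) := inferInstanceAs (AddCommGroup ((G × N) →₀ ℤ))

variable {G N}

/-- A basis vector. -/
def Free.of (g : G) (n : N) : Free G N := Finsupp.single (g, n) 1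

/-- The homomorphism with the given values on the basis. -/
def Free.lift {A : Type} [AddCommGroup A] (φ : G → N → A) : Free G N →+ A :=
  Finsupp.liftAddHom fun x => zmultiplesHom A (φ x.1 x.2)

@[simp] theorem Free.lift_of {A : Type} [AddCommGroup A] (φ : G → N → A) (g : G) (n : N) :
    Free.lift φ (Free.of g n) = φ g n := by
  show (Finsupp.single (g, n) (1 : ℤ)).sum (fun x => zmultiplesHom A (φ x.1 x.2)) = φ g n
  simp

theorem Free.hom_ext {A : Type} [AddCommGroup A] {f f' : Free G N →+ A}
    (h : ∀ g n, f (Free.of g n) = f' (Free.of g n)) : f = f' :=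
  Finsupp.addHom_ext' fun x => AddMonoidHom.ext_int (h x.1 x.2)

instance : DistribMulAction G (Free G N) where
  smul g x := Free.lift (fun h n => Free.of (g * h) n) x
  one_smul x := by
    show Free.lift (fun h n => Free.of (1 * h) n) x = AddMonoidHom.id _ x
    exact DFunLike.congr_fun (Free.hom_ext fun h n => by simp) x
  mul_smul g g' x := by
    show Free.lift (fun h n => Free.of (g * g' * h) n) x =
      ((Free.lift fun h n => Free.of (g * h) n).comp (Free.lift fun h n => Free.of (g' * h) n)) x
    exact DFunLike.congr_fun (Free.hom_ext fun h n => by simp [mul_assoc]) x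
  smul_zero g := map_zero (Free.lift _)
  smul_add g := map_add (Free.lift _)

@[simp] theorem Free.smul_of (g h : G) (n : N) :
    g • (Free.of h n : Free G N) = Free.of (g * h) n :=
  Free.lift_of _ h n

theorem Free.of_eq_smul (g : G) (n : N) : Free.of g n = g • (Free.of 1 n : Free G N) := by simp

/-- The equivariant homomorphism with the given values on `Free.of 1`. -/
def Free.eqLift {A : Type} [AddCommGroup A] [DistribMulAction G A] (φ : N → A) : Free G N →+ A :=
  Free.lift fun g n => g • φ n

theorem Free.eqLift_of {A : Type} [AddCommGroup A] [DistribMulAction G A] (φ : N → A) (g : G)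
    (n : N) : Free.eqLift φ (Free.of g n : Free G N) = g • φ n :=
  Free.lift_of _ g n

theorem Free.eqLift_mem {A : Type} [AddCommGroup A] [DistribMulAction G A] (φ : N → A) :
    Free.eqLift φ ∈ eqHom G (Free G N) A := fun g x => by
  have : (Free.eqLift φ).comp (DistribSMul.toAddMonoidHom (Free G N) g) =
      (DistribSMul.toAddMonoidHom A g).comp (Free.eqLift φ) :=
    Free.hom_ext fun h n => by simp [Free.eqLift_of, mul_smul]
  exact DFunLike.congr_fun this x

variable (G N)

/-- The canonical projection. -/
def proj : Free G N →+ N := Free.eqLift id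

variable {G N}

@[simp] theorem proj_of (g : G) (n : N) : proj G N (Free.of g n) = g • n := Free.eqLift_of _ g n

theorem proj_smul (g : G) (x : Free G N) : proj G N (g • x) = g • proj G N x :=
  Free.eqLift_mem (id : N → N) g x

theorem proj_surjective : Function.Surjective (proj G N) := fun n =>
  ⟨Free.of 1 n, by simp⟩

variable (G N)

/-- The relation module. -/
def Rel : AddSubgroup (Free G N) := (proj G N).ker

variable {G N} in
theorem mem_rel_iff {x : Free G N} : x ∈ Rel G N ↔ proj G N x = 0 := AddMonoidHom.mem_ker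

instance : DistribMulAction G (Rel G N) where
  smul g x := ⟨g • x.1, by rw [mem_rel_iff, proj_smul, mem_rel_iff.mp x.2, smul_zero]⟩
  one_smul x := Subtype.ext (one_smul G x.1)
  mul_smul g h x := Subtype.ext (mul_smul g h x.1)
  smul_zero g := Subtype.ext (smul_zero g)
  smul_add g x y := Subtype.ext (smul_add g x.1 y.1)

@[simp] theorem Rel.coe_smul (g : G) (x : Rel G N) :
    ((g • x : Rel G N) : Free G N) = g • (x : Free G N) := rfl

variable {G N}

theorem subtype_mem_eqHom : (Rel G N).subtype ∈ eqHom G (Rel G N) (Free G N) := fun _ _ => rfl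

end Free

section Ext

variable (G) (N A : Type) [AddCommGroup N] [DistribMulAction G N] [AddCommGroup A]
  [DistribMulAction G A]

/-- Restriction of equivariant maps to the relation module. -/
def restrictRel : eqHom G (Free G N) A →+ eqHom G (Rel G N) A where
  toFun D := ⟨D.1.comp (Rel G N).subtype, comp_mem_eqHom D.2 subtype_mem_eqHom⟩
  map_zero' := rfl
  map_add' _ _ := rfl

/-- `Ext¹_G(N, A)`. -/
abbrev Ext1 : Type := eqHom G (Rel G N) A ⧸ (restrictRel G N A).range

variable {G N A}

/-- The class of an equivariant map on the relation module. -/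
def Ext1.mk : eqHom G (Rel G N) A →+ Ext1 G N A := QuotientAddGroup.mk' _

theorem Ext1.mk_eq_zero_iff {f : eqHom G (Rel G N) A} :
    Ext1.mk f = 0 ↔ ∃ D : eqHom G (Free G N) A, ∀ y : Rel G N, D.1 y = f.1 y := by
  refine (QuotientAddGroup.eq_zero_iff f).trans ⟨?_, ?_⟩
  · rintro ⟨D, rfl⟩; exact ⟨D, fun _ => rfl⟩
  · rintro ⟨D, hD⟩; exact ⟨D, Subtype.ext (AddMonoidHom.ext hD)⟩

theorem Ext1.mk_surjective : Function.Surjective (Ext1.mk : _ → Ext1 G N A) :=
  QuotientAddGroup.mk'_surjective _

theorem Ext1.induction {P : Ext1 G N A → Prop} (h : ∀ f, P (Ext1.mk f)) (c : Ext1 G N A) : P c := by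
  obtain ⟨f, rfl⟩ := Ext1.mk_surjective c; exact h f

theorem Ext1.nsmul_eq_zero {p : ℕ} (hN : ∀ n : N, p • n = 0) (c : Ext1 G N A) : p • c = 0 := by
  induction c using Ext1.induction with
  | _ f =>
    rw [← map_nsmul, Ext1.mk_eq_zero_iff]
    have hp : ∀ x : Free G N, p • x ∈ Rel G N := fun x => by
      rw [mem_rel_iff, map_nsmul, hN]
    let D : Free G N →+ A := f.1.comp
      { toFun := fun x => (⟨p • x, hp x⟩ : Rel G N)
        map_zero' := Subtype.ext (nsmul_zero p)
        map_add' := fun x y => Subtype.ext (nsmul_add x y p) }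
    have hD : D ∈ eqHom G (Free G N) A := fun g x => by
      have h1 : (⟨p • g • x, hp _⟩ : Rel G N) = g • (⟨p • x, hp x⟩ : Rel G N) :=
        Subtype.ext (smul_comm p g x)
      show f.1 ⟨p • g • x, hp _⟩ = g • f.1 ⟨p • x, hp x⟩
      rw [h1, f.2]
    refine ⟨⟨D, hD⟩, fun y => ?_⟩
    show f.1 ⟨p • y.1, hp _⟩ = (p • f.1) y
    rw [AddMonoidHom.nsmul_apply, ← map_nsmul]
    rfl

variable {B : Type} [AddCommGroup B] [DistribMulAction G B]

/-- Functoriality in the coefficients. -/
def Ext1.map (j : A →+ B) (hj : j ∈ eqHom G A B) : Ext1 G N A →+ Ext1 G N B :=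
  QuotientAddGroup.map _ _
    { toFun := fun f => ⟨j.comp f.1, comp_mem_eqHom hj f.2⟩
      map_zero' := Subtype.ext (AddMonoidHom.ext fun _ => map_zero j)
      map_add' := fun f f' => Subtype.ext (AddMonoidHom.ext fun _ => map_add j _ _) }
    (by
      rintro _ ⟨D, rfl⟩
      exact ⟨⟨j.comp D.1, comp_mem_eqHom hj D.2⟩, rfl⟩)

theorem Ext1.map_mk (j : A →+ B) (hj : j ∈ eqHom G A B) (f : eqHom G (Rel G N) A) :
    Ext1.map j hj (Ext1.mk f) = Ext1.mk ⟨j.comp f.1, comp_mem_eqHom hj f.2⟩ := rfl

end Ext

end FLTAgent.TW.Coh
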