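import Fermat.Agent.TW.Coh.ModPSeq

/-!
# `#Hom_G(N, A) ≤ #Ext¹_G(N, A)` for the classes `A`, and every class is a trace

For a cover datum with classes `A` inside the cohomologically trivial extension, the long exact
sequence against the trivial lattice and the Euler characteristic `1` of the extension give
`card_eqHom_le_card_ext1`; `finite_ext1_classes` is the finiteness. If moreover `H¹(G, N) = 0`,
every class in `Ext¹_G(N, A)` is the class of a trace (`exists_trace_classes`).
-/

set_option autoImplicit false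
set_option linter.unusedSectionVars false
set_option linter.style.haveILetI false

noncomputable section

namespace FLTAgent.TW.Coh

variable {G : Type} [Group G] [Fintype G] {p : ℕ} [Fact p.Prime]

theorem eq_of_nsmul_eq {z z' : TrivMod G} (h : p • z = p • z') : z = z' :=
  sub_eq_zero.mp (CoverData.trivMod_nsmul_eq_zero (p := p) (by rw [nsmul_sub, h, sub_self]))

variable {N : Type} [AddCommGroup N] [DistribMulAction G N]

/-- A lattice valued map on the free module is determined by the relations. -/
theorem lattHom_ext (hN : ∀ n : N, p • n = 0) {D D' : Free G N →+ TrivMod G}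
    (h : ∀ y : Rel G N, D y = D' y) : D = D' :=
  AddMonoidHom.ext fun x => eq_of_nsmul_eq (p := p) (by
    rw [← map_nsmul, ← map_nsmul]; exact h (pRel G p hN x))

/-! ### The regular module and its coinvariants -/

/-- Functions to the dual, with the conjugation action. -/
def dualShift (σ : G) (ψ : G → (N →+ ZMod p)) : G → (N →+ ZMod p) :=
  fun x => (ψ (σ⁻¹ * x)).comp (DistribSMul.toAddMonoidHom N σ⁻¹)

variable (G p N) in
/-- The boundaries. -/
def dualBd : AddSubgroup (G → (N →+ ZMod p)) :=
  AddSubgroup.closure {ψ | ∃ (σ : G) (u : G → (N →+ ZMod p)),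
    ∑ x : G, u x = 0 ∧ ψ = dualShift σ u - u}

/-- If `H¹(G, N) = 0` the trace kills only boundaries. -/
theorem mem_dualBd_of_trace [Finite N] (hN : ∀ n : N, p • n = 0) (h1 : H1Zero G N)
    (ψ : G → (N →+ ZMod p)) (hsum : ∑ x : G, ψ x = 0)
    (htr : ∀ n : N, ∑ σ : G, ψ σ (σ • n) = 0) : ψ ∈ dualBd G p N := by
  classical
  by_contra hmem
  letI := AddCommGroup.zmodModule (n := p) hN
  haveI : Module.Finite (ZMod p) N := Module.Finite.of_finite
  haveI : Module.Finite (ZMod p) (G → N) := Module.Finite.of_finite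
  let U : Submodule (ZMod p) (G → (N →+ ZMod p)) := AddSubgroup.toZModSubmodule p (dualBd G p N)
  obtain ⟨Φ, hΦ0, hΦU⟩ := Submodule.exists_dual_map_eq_bot_of_notMem (p := U) (x := ψ) hmem
    inferInstance
  let toDual : (N →ₗ[ZMod p] ZMod p) → (N →+ ZMod p) := fun a => a.toAddMonoidHom
  have hv : ∀ x : G, ∃ v : N, ∀ a : N →+ ZMod p, Φ (Pi.single x a) = a v := fun x => by
    let φ : Module.Dual (ZMod p) (Module.Dual (ZMod p) N) :=
      (AddMonoidHom.mk' (fun a : Module.Dual (ZMod p) N => Φ (Pi.single x (toDual a))) fun a b => by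
        rw [← map_add, ← Pi.single_add]; rfl).toZModLinearMap p
    refine ⟨(Module.evalEquiv (ZMod p) N).symm φ, fun a => ?_⟩
    have := Module.apply_evalEquiv_symm_apply (R := ZMod p) (M := N) (a.toZModLinearMap p) φ
    exact this.symm
  choose v hv using hv
  have hΦ : ∀ u : G → (N →+ ZMod p), Φ u = ∑ x : G, u x (v x) := fun u => by
    conv_lhs => rw [← Finset.univ_sum_single u]
    rw [map_sum]
    exact Finset.sum_congr rfl fun x _ => hv x (u x)
  have hbd : ∀ u ∈ dualBd G p N, Φ u = 0 := fun u hu =>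
    (Submodule.mem_bot _).mp (hΦU.le ⟨u, hu, rfl⟩)
  have hkey : ∀ (σ x : G) (a : N →+ ZMod p),
      a (σ⁻¹ • v (σ * x)) - a (v x) = a (σ⁻¹ • v σ) - a (v 1) := fun σ x a => by
    let u : G → (N →+ ZMod p) := Pi.single x a - Pi.single 1 a
    have h0 : ∑ z : G, u z = 0 := by simp [u]
    have h2 := hbd _ (AddSubgroup.subset_closure ⟨σ, u, h0, rfl⟩)
    rw [map_sub, hΦ, hΦ, sub_eq_zero] at h2
    have h3 : ∀ w : G → (N →+ ZMod p), ∑ z : G, dualShift σ w z (v z) =
        ∑ z : G, w z (σ⁻¹ • v (σ * z)) := fun w => by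
      refine (Fintype.sum_equiv (Equiv.mulLeft σ) _ _ fun z => ?_).symm
      show _ = w (σ⁻¹ * (σ * z)) (σ⁻¹ • v (σ * z))
      rw [inv_mul_cancel_left]
    rw [h3] at h2
    have h4 : ∀ (x : G) (y : G → N),
        ∑ z : G, (Pi.single x a : G → (N →+ ZMod p)) z (y z) = a (y x) := fun x y =>
      (Finset.sum_eq_single x (fun z _ hz => by simp [hz]) (by simp)).trans (by simp)
    simp only [u, Pi.sub_apply, AddMonoidHom.sub_apply, Finset.sum_sub_distrib, h4,
      mul_one] at h2
    exact sub_eq_sub_iff_sub_eq_sub.mp h2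
  have hcr : IsCrossed G fun σ => v σ - σ • v 1 := fun σ x => by
    have h2 : σ⁻¹ • v (σ * x) - v x = σ⁻¹ • v σ - v 1 :=
      (Module.evalEquiv (ZMod p) N).injective (LinearMap.ext fun a => by
        show a (σ⁻¹ • v (σ * x) - v x) = a (σ⁻¹ • v σ - v 1)
        rw [map_sub, map_sub]
        exact hkey σ x a.toAddMonoidHom)
    have h3 := congrArg (σ • ·) h2
    simp only [smul_sub, smul_inv_smul] at h3
    rw [sub_eq_iff_eq_add] at h3
    show v (σ * x) - (σ * x) • v 1 = (v σ - σ • v 1) + σ • (v x - x • v 1)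
    rw [h3, mul_smul, smul_sub]
    abel
  obtain ⟨w, hw⟩ := h1 _ hcr
  refine hΦ0 ?_
  rw [hΦ]
  have hvx : ∀ x, v x = x • (w + v 1) - w := fun x => by
    rw [smul_add, add_sub_right_comm, ← hw x, sub_add_cancel]
  calc ∑ x : G, ψ x (v x) = ∑ x : G, ψ x (x • (w + v 1)) - (∑ x : G, ψ x) w := by
        rw [AddMonoidHom.finsetSum_apply, ← Finset.sum_sub_distrib]
        exact Finset.sum_congr rfl fun x _ => by rw [hvx x, map_sub]
    _ = 0 := by rw [htr, hsum]; simp

variable {n : ℕ} {B : Type} [AddCommGroup B] [DistribMulAction G B] (D : CoverData G p n B)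

namespace CoverData

/-- An equivariant map on relations whose lattice part extends is a class of the classes. -/
theorem exists_sub_restrict (hN : ∀ m : N, p • m = 0) (f : eqHom G (Rel G N) D.cover)
    (E : Free G N →+ TrivMod G) (hE : ∀ y : Rel G N, E y = D.latt (f.1 y)) :
    ∃ f' : eqHom G (Rel G N) D.classes, Ext1.map D.inclA D.inclA_mem (Ext1.mk f') = Ext1.mk f := by
  have haug : ∀ x, aug (E x) = 0 := fun x => by
    have h1 : p • aug (E x) = 0 := by
      rw [← map_nsmul, ← map_nsmul]
      exact (congrArg aug (hE (pRel G p hN x))).trans (f.1 _).2.1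
    simpa [(Fact.out : p.Prime).ne_zero] using h1
  choose c hc using fun m : N => D.exists_lift (E (Free.of 1 m)) (haug _)
  let F : Free G N →+ D.cover := Free.eqLift fun m => ⟨_, hc m⟩
  have hEeq : ∀ (g : G) (x : Free G N), E (g • x) = g • E x := fun g x => eq_of_nsmul_eq (p := p) (by
    rw [← map_nsmul, ← smul_comm g p (E x), ← map_nsmul]
    rw [smul_comm p g x]
    have h1 := hE (g • pRel G p hN x)
    rw [f.2, D.latt_mem, ← hE] at h1
    exact h1)
  have hF : ∀ x, D.latt (F x) = E x := fun x =>
    DFunLike.congr_fun (Free.hom_ext (f := D.latt.comp F) (f' := E) fun g m => by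
      rw [AddMonoidHom.comp_apply, Free.eqLift_of, D.latt_mem]
      show g • E (Free.of 1 m) = _
      rw [← hEeq, ← Free.of_eq_smul]) x
  choose a ha using fun y : Rel G N => D.exists_inclA_of_latt (w := f.1 y - F y) (by
    rw [map_sub, hF, hE, sub_self])
  refine ⟨⟨AddMonoidHom.mk' a fun y y' => D.inclA_injective (by
    rw [map_add, ha, ha, ha, map_add, AddSubgroup.coe_add, map_add]; abel),
    fun g y => D.inclA_injective (by
      show D.inclA (a (g • y)) = D.inclA (g • a y)
      rw [ha, f.2, Rel.coe_smul, Free.eqLift_mem _ g, D.inclA_mem, ha, smul_sub])⟩, ?_⟩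
  rw [Ext1.map_mk, ← sub_eq_zero, ← map_sub, Ext1.mk_eq_zero_iff]
  refine ⟨⟨-F, (eqHom G _ _).neg_mem (Free.eqLift_mem _)⟩, fun y => ?_⟩
  show -F y = D.inclA (a y) - f.1 y
  rw [ha]
  abel

theorem map_inclA_injective (hN : ∀ m : N, p • m = 0) :
    Function.Injective (Ext1.map (N := N) D.inclA D.inclA_mem) := by
  refine (injective_iff_map_eq_zero _).mpr fun c hc => ?_
  induction c using Ext1.induction with
  | _ f =>
    rw [Ext1.map_mk, Ext1.mk_eq_zero_iff] at hc
    obtain ⟨⟨E, hE⟩, hEf⟩ := hc
    have h0 : D.latt.comp E = 0 := lattHom_ext hN fun y => by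
      show D.latt (E y) = 0
      rw [hEf y]; rfl
    choose a ha using fun x => D.exists_inclA_of_latt (w := E x) (DFunLike.congr_fun h0 x)
    rw [Ext1.mk_eq_zero_iff]
    refine ⟨⟨AddMonoidHom.mk' a fun x x' => D.inclA_injective (by
      rw [map_add, ha, ha, ha, map_add]), fun g x => D.inclA_injective (by
      show D.inclA (a (g • x)) = D.inclA (g • a x)
      rw [ha, hE g x, D.inclA_mem, ha])⟩, fun y => D.inclA_injective ?_⟩
    show D.inclA (a y) = D.inclA (f.1 y)
    rw [ha]
    exact hEf y

/-- The lattice obstruction of a class of the extension. -/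
def obstruction (hN : ∀ m : N, p • m = 0) : Ext1 G N D.cover →+ (N →+ ZMod p) :=
  QuotientAddGroup.lift _
    (AddMonoidHom.mk' (fun f : eqHom G (Rel G N) D.cover =>
      (coordFp 1).comp (modPHom hN (D.latt.comp f.1))) fun f f' => by
        rw [show D.latt.comp (f + f').1 = D.latt.comp f.1 + D.latt.comp f'.1 from
          AddMonoidHom.ext fun y => map_add D.latt _ _, map_add, AddMonoidHom.comp_add])
    (by
      rintro _ ⟨E, rfl⟩
      show (coordFp 1).comp (modPHom hN (D.latt.comp (E.1.comp (Rel G N).subtype))) = 0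
      rw [← AddMonoidHom.comp_assoc, modPHom_restrict, AddMonoidHom.comp_zero])

theorem obstruction_ker (hN : ∀ m : N, p • m = 0) :
    (D.obstruction (N := N) hN).ker ≤ (Ext1.map (N := N) D.inclA D.inclA_mem).range := by
  intro c hc
  induction c using Ext1.induction with
  | _ f =>
    have h0 : ∀ m, coordFp 1 (modPHom hN (D.latt.comp f.1) m) = 0 :=
      DFunLike.congr_fun (show (coordFp 1).comp (modPHom hN (D.latt.comp f.1)) = 0 from hc)
    have hf : modPHom hN (D.latt.comp f.1) = 0 := AddMonoidHom.ext fun m => coordFp_ext fun x => by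
      have h1 := DFunLike.congr_fun (modPHom_hconj hN x⁻¹ (D.latt.comp f.1)) (x⁻¹ • m)
      rw [hconj_eq_self (comp_mem_eqHom D.latt_mem f.2), hconj_apply, inv_inv, smul_inv_smul] at h1
      have h2 := h0 (x⁻¹ • m)
      rw [h1, coordFp_smul, inv_inv, mul_one] at h2
      rw [h2, AddMonoidHom.zero_apply, map_zero]
    obtain ⟨E, hE⟩ := exists_extend_of_modPHom hN _ hf
    obtain ⟨f', hf'⟩ := D.exists_sub_restrict hN f E hE
    exact ⟨_, hf'⟩

variable {P : Subgroup G} [Fintype P]

theorem finite_ext1_classes [Finite N] (hW : IsCT p P D.cover) (hN : ∀ m : N, p • m = 0) :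
    Finite (Ext1 G N D.classes) :=
  haveI := hW.finite_ext1 (N := N) hN
  Finite.of_injective _ (D.map_inclA_injective hN)

/-- The comparison of `Hom` and `Ext¹` for the classes. -/
theorem card_eqHom_le_card_ext1 [Finite N] (hW : IsCT p P D.cover) (hN : ∀ m : N, p • m = 0)
    (hloc : LocalEuler (G := G) p D.cover N) :
    Nat.card (eqHom G N D.classes) ≤ Nat.card (Ext1 G N D.classes) := by
  haveI := hW.finite_hom (M := N) hN
  haveI := hW.finite_ext1 (N := N) hN
  haveI := D.finite_ext1_classes hW hN (N := N)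
  have hhom : Nat.card (eqHom G N D.cover) = Nat.card (eqHom G N D.classes) := by
    refine (Nat.card_congr (Equiv.ofBijective
      (fun f : eqHom G N D.classes => (⟨D.inclA.comp f.1, comp_mem_eqHom D.inclA_mem f.2⟩ :
        eqHom G N D.cover)) ⟨fun f f' h => Subtype.ext (AddMonoidHom.ext fun x =>
          D.inclA_injective (DFunLike.congr_fun (congrArg Subtype.val h) x)), fun f => ?_⟩)).symm
    choose a ha using fun x : N => D.exists_inclA_of_torsion (w := f.1 x)
      (by rw [← map_nsmul, hN, map_zero])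
    exact ⟨⟨AddMonoidHom.mk' a fun x y => D.inclA_injective (by
      rw [map_add, ha, ha, ha, map_add]), fun g x => D.inclA_injective (by
      show D.inclA (a (g • x)) = D.inclA (g • a x)
      rw [ha, f.2, D.inclA_mem, ha])⟩, Subtype.ext (AddMonoidHom.ext ha)⟩
  have hchi := chi_eq_one hW hN hloc
  unfold chi at hchi
  rw [div_eq_one_iff_eq (Nat.cast_ne_zero.mpr Nat.card_pos.ne'), Nat.cast_inj, hhom] at hchi
  haveI : Finite (N →+ ZMod p) := Finite.of_injective _ DFunLike.coe_injective
  have h1 : Nat.card (Ext1 G N D.cover) ≤ Nat.card N * Nat.card (Ext1 G N D.classes) := by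
    rw [card_eq_range_mul_ker (D.obstruction (N := N) hN)]
    refine Nat.mul_le_mul ((Nat.card_le_card_of_injective _ Subtype.val_injective).trans
      (card_dual hN).le) ?_
    refine (AddSubgroup.card_le_of_le (D.obstruction_ker hN)).trans ?_
    exact Nat.card_le_card_of_surjective (fun c => ⟨_, c, rfl⟩) fun ⟨_, c, hc⟩ => ⟨c, Subtype.ext hc⟩
  rw [← hchi, mul_comm (Nat.card N)] at h1
  exact Nat.le_of_mul_le_mul_right h1 Nat.card_pos

/-- If `H¹(G, N) = 0` every class of the classes is a trace. -/
theorem exists_trace_classes [Finite N] (hW : IsCT p P D.cover) (hN : ∀ m : N, p • m = 0)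
    (h1 : H1Zero G N) (c : Ext1 G N D.classes) :
    ∃ g : Rel G N →+ D.classes, c = Ext1.mk ⟨htrace G g, htrace_mem g⟩ := by
  classical
  obtain ⟨g, hg⟩ := Ext1.exists_trace P hW.isPGroup hW.coprime hW.h1 hW.h0 hN
    (Ext1.map D.inclA D.inclA_mem c)
  -- the coordinates of the lattice part
  let red : (Rel G N →+ D.cover) → G → (N →+ ZMod p) := fun k x =>
    (coordFp x).comp (modPHom hN (D.latt.comp k))
  have red_add : ∀ k k' x, red (k + k') x = red k x + red k' x := fun k k' x => by
    show (coordFp x).comp (modPHom hN (D.latt.comp (k + k'))) = _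
    rw [AddMonoidHom.comp_add, map_add, AddMonoidHom.comp_add]
  have red_neg : ∀ k x, red (-k) x = -red k x := fun k x => by
    show (coordFp x).comp (modPHom hN (D.latt.comp (-k))) = _
    rw [AddMonoidHom.comp_neg, map_neg, AddMonoidHom.comp_neg]
  have red_hconj : ∀ σ k, red (hconj σ k) = dualShift σ (red k) := fun σ k => funext fun x =>
    AddMonoidHom.ext fun m => by
      show coordFp x (modPHom hN (D.latt.comp (hconj σ k)) m) =
        coordFp (σ⁻¹ * x) (modPHom hN (D.latt.comp k) (σ⁻¹ • m))
      rw [show D.latt.comp (hconj σ k) = hconj σ (D.latt.comp k) from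
        AddMonoidHom.ext fun y => D.latt_mem σ _, modPHom_hconj, hconj_apply, coordFp_smul]
  have red_sum : ∀ k, ∑ x : G, red k x = 0 := fun k => AddMonoidHom.ext fun m => by
    obtain ⟨y, rfl⟩ := proj_surjective (G := G) m
    rw [AddMonoidHom.finsetSum_apply, AddMonoidHom.zero_apply]
    show (∑ x : G, coordFp x (modPHom hN (D.latt.comp k) (proj G N y)) : ZMod p) = 0
    rw [← augP_eq_sum, modPHom_apply]
    show ((aug (D.latt (k _)) : ℤ) : ZMod p) = 0
    rw [show aug (D.latt (k _)) = 0 from (k _).2.1, Int.cast_zero]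
  have htr : ∀ m : N, ∑ σ : G, red g σ (σ • m) = 0 := fun m => by
    have h0 : red (htrace G g) 1 = 0 := by
      obtain ⟨f, hf⟩ := Ext1.mk_surjective c
      rw [← hf, Ext1.map_mk, ← sub_eq_zero, ← map_sub, Ext1.mk_eq_zero_iff] at hg
      obtain ⟨E, hE⟩ := hg
      have : D.latt.comp (htrace G g) = -((D.latt.comp E.1).comp (Rel G N).subtype) :=
        AddMonoidHom.ext fun y => by
          show D.latt (htrace G g y) = -D.latt (E.1 y)
          rw [hE y]
          show _ = -D.latt (D.inclA (f.1 y) - htrace G g y)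
          rw [map_sub, show D.latt (D.inclA (f.1 y)) = 0 from rfl, zero_sub, neg_neg]
      show (coordFp 1).comp (modPHom hN (D.latt.comp (htrace G g))) = 0
      rw [this, map_neg, modPHom_restrict, neg_zero, AddMonoidHom.comp_zero]
    have e : red (htrace G g) 1 = ∑ σ : G, red (hconj σ g) 1 := by
      rw [htrace_apply]
      exact map_sum (AddMonoidHom.mk' (fun k => red k 1) fun k k' => red_add k k' 1) _ _
    have := DFunLike.congr_fun (e.symm.trans h0) m
    rw [AddMonoidHom.finsetSum_apply, AddMonoidHom.zero_apply] at this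
    refine Eq.trans ?_ this
    refine (Fintype.sum_equiv (Equiv.inv G) _ _ fun σ => ?_).symm
    rw [red_hconj]
    show red g (σ⁻¹ * 1) (σ⁻¹ • m) = red g σ⁻¹ (σ⁻¹ • m)
    rw [mul_one]
  have hmem := mem_dualBd_of_trace hN h1 (red g) (red_sum g) htr
  have hlift : ∀ ψ ∈ dualBd G p N, ∃ k, htrace G k = 0 ∧ red k = ψ := by
    intro ψ hψ
    induction hψ using AddSubgroup.closure_induction with
    | mem ψ hψ =>
      obtain ⟨σ, u, hu, rfl⟩ := hψ
      choose z hz using fun m : N => exists_coordFp (p := p) fun x => u x m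
      have hzI : ∀ m, z m ∈ (augIdeal G p).sub := fun m => by
        show augP (z m) = 0
        rw [augP_eq_sum]
        simp only [hz]
        rw [← AddMonoidHom.finsetSum_apply, hu]; rfl
      let Z : N →+ (augIdeal G p).sub := AddMonoidHom.mk' (fun m => ⟨z m, hzI m⟩) fun m m' =>
        Subtype.ext (coordFp_ext fun x => by simp [hz])
      obtain ⟨Z', hZ'⟩ := exists_lift_hom hN (fun b => nsmul_modP b) D.lattP D.lattP_surjective Z
      obtain ⟨k, hk⟩ := modPHom_surjective (G := G) hN Z'
      have hku : red k = u := funext fun x => AddMonoidHom.ext fun m => by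
        rw [← hz m x]
        show coordFp x (modPHom hN (D.latt.comp k) m) = _
        refine congrArg (coordFp x) ?_
        have h2 := congrArg Subtype.val (DFunLike.congr_fun hZ' m)
        change ((D.lattP (Z' m)) : ModP p (TrivMod G)) = z m at h2
        rw [← hk] at h2
        exact h2
      refine ⟨hconj σ k - k, ?_, funext fun x => ?_⟩
      · rw [map_sub (htrace G), sub_eq_zero, htrace_apply, htrace_apply]
        simp only [← hconj_mul]
        exact Fintype.sum_equiv (Equiv.mulRight σ) _ _ fun _ => rfl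
      · rw [sub_eq_add_neg, red_add, red_neg, red_hconj, hku]
        exact (sub_eq_add_neg _ _).symm
    | zero => exact ⟨0, map_zero _, funext fun x => by simp [red]⟩
    | add ψ ψ' _ _ h h' =>
      obtain ⟨k, hk, rfl⟩ := h; obtain ⟨k', hk', rfl⟩ := h'
      exact ⟨k + k', by rw [map_add, hk, hk', add_zero], funext fun x => red_add k k' x⟩
    | neg ψ _ h =>
      obtain ⟨k, hk, rfl⟩ := h
      exact ⟨-k, by rw [map_neg, hk, neg_zero], funext fun x => red_neg k x⟩
  obtain ⟨k, hk, hkg⟩ := hlift _ hmem
  have hred : modPHom hN (D.latt.comp (g - k)) = 0 := AddMonoidHom.ext fun m => coordFp_ext fun x => by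
    show red (g - k) x m = coordFp x 0
    rw [sub_eq_add_neg, red_add, red_neg, hkg, add_neg_cancel, AddMonoidHom.zero_apply, map_zero]
  obtain ⟨E₁, hE₁⟩ := exists_extend_of_modPHom hN _ hred
  have haug : ∀ x, aug (E₁ x) = 0 := fun x => by
    have h2 : p • aug (E₁ x) = 0 := by
      rw [← map_nsmul, ← map_nsmul]
      exact (congrArg aug (hE₁ (pRel G p hN x))).trans ((g - k) _).2.1
    simpa [(Fact.out : p.Prime).ne_zero] using h2
  choose l hl using fun gm : G × N => D.exists_lift (E₁ (Free.of gm.1 gm.2)) (haug _)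
  let F : Free G N →+ D.cover := Free.lift fun s m => ⟨_, hl (s, m)⟩
  have hF : ∀ x, D.latt (F x) = E₁ x := fun x =>
    DFunLike.congr_fun (Free.hom_ext (f := D.latt.comp F) (f' := E₁) fun s m => by
      rw [AddMonoidHom.comp_apply, Free.lift_of]; rfl) x
  choose a ha using fun y : Rel G N => D.exists_inclA_of_latt (w := (g - k) y - F y) (by
    rw [map_sub, hF, hE₁]; exact sub_self _)
  let g₂ : Rel G N →+ D.classes := AddMonoidHom.mk' a fun y y' => D.inclA_injective (by
    rw [map_add, ha, ha, ha, map_add, AddSubgroup.coe_add, map_add]; abel)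
  refine ⟨g₂, D.map_inclA_injective hN ?_⟩
  rw [hg, Ext1.map_mk, ← sub_eq_zero, ← map_sub, Ext1.mk_eq_zero_iff]
  refine ⟨⟨htrace G F, htrace_mem F⟩, fun y => ?_⟩
  have e : D.inclA.comp (htrace G g₂) = htrace G g - (htrace G F).comp (Rel G N).subtype := by
    rw [← htrace_comp_left D.inclA_mem,
      show D.inclA.comp g₂ = (g - k) - F.comp (Rel G N).subtype from AddMonoidHom.ext ha,
      map_sub, map_sub, hk, sub_zero, htrace_comp_right F subtype_mem_eqHom]
  show htrace G F y = htrace G g y - D.inclA.comp (htrace G g₂) y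
  rw [e]
  show _ = htrace G g y - (htrace G g y - htrace G F y)
  abel

end CoverData

end FLTAgent.TW.Coh
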