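import Fermat.Agent.TW.Coh.Artin

/-!
# The cohomologically trivial extension of the class module by the augmentation ideal

Abstract form of the argument: `B` plays the role of the classes of `KE`, `τ` generates
`Gal(KE/K)`, `A = B^τ` are the classes of `K`, and `a = N b` is a class whose cyclotomic symbol
generates. `h1Zero_cover` and `traceSurj_cover` show that the extension `D.cover` has trivial
cohomology over a Sylow subgroup.
-/

set_option autoImplicit false
set_option linter.unusedSectionVars false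
set_option linter.style.haveILetI false

noncomputable section

namespace FLTAgent.TW.Coh

variable {G : Type} [Group G] [Fintype G]

/-! ### The regular lattice -/

/-- A basis vector of the regular lattice. -/
def delta1 (g : G) : TrivMod G :=
  haveI := Classical.decEq G
  (Pi.single g 1 : G → ℤ)

theorem smul_delta1 (g h : G) : g • (delta1 h : TrivMod G) = delta1 (g * h) := by
  classical
  refine funext fun x => ?_
  show (Pi.single h 1 : G → ℤ) (g⁻¹ • x) = (Pi.single (g * h) 1 : G → ℤ) x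
  simp only [Pi.single_apply, smul_eq_mul, inv_mul_eq_iff_eq_mul]

/-- The augmentation. -/
def aug : TrivMod G →+ ℤ := AddMonoidHom.mk' (fun z => ∑ x : G, z x) fun _ _ =>
  Finset.sum_add_distrib

theorem aug_apply (z : TrivMod G) : aug z = ∑ x : G, z x := rfl

theorem aug_smul (g : G) (z : TrivMod G) : aug (g • z) = aug z :=
  Fintype.sum_equiv (Equiv.mulLeft g⁻¹) _ _ fun _ => rfl

theorem aug_delta1 (g : G) : aug (delta1 g) = 1 := by
  classical
  show ∑ x : G, (Pi.single g 1 : G → ℤ) x = 1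
  simp

/-- Evaluation of the regular lattice at an element. -/
def evalAt {B : Type} [AddCommGroup B] [DistribMulAction G B] (b : B) : TrivMod G →+ B :=
  AddMonoidHom.mk' (fun z => ∑ x : G, z x • (x • b)) fun z w => by
    rw [← Finset.sum_add_distrib]
    exact Finset.sum_congr rfl fun x _ => add_smul (z x) (w x) _

theorem evalAt_smul {B : Type} [AddCommGroup B] [DistribMulAction G B] (b : B) (g : G)
    (z : TrivMod G) : evalAt b (g • z) = g • evalAt b z := by
  show ∑ x : G, z (g⁻¹ • x) • (x • b) = g • ∑ x : G, z x • (x • b)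
  rw [Finset.smul_sum]
  refine Fintype.sum_equiv (Equiv.mulLeft g⁻¹) _ _ fun x => ?_
  show _ = g • z (g⁻¹ * x) • (g⁻¹ * x) • b
  rw [smul_comm g (z (g⁻¹ * x)), ← mul_smul g, mul_inv_cancel_left]
  rfl

theorem evalAt_delta1 {B : Type} [AddCommGroup B] [DistribMulAction G B] (b : B) (g : G) :
    evalAt b (delta1 g) = g • b := by
  classical
  show ∑ x : G, (Pi.single g 1 : G → ℤ) x • (x • b) = g • b
  simp [Pi.single_apply, ite_smul]

/-- The restriction of the regular lattice to a subgroup satisfies Higman's criterion. -/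
theorem exists_theta_trivMod (Q : Subgroup G) [Fintype Q] :
    ∃ θ : TrivMod G →+ TrivMod G, ∀ z : TrivMod G, ∑ k : Q, k • θ (k⁻¹ • z) = z := by
  classical
  let rep : G → G := fun x =>
    (Quotient.out (Quotient.mk (MulAction.orbitRel Q G) x) : G)
  let θ : TrivMod G →+ TrivMod G :=
    AddMonoidHom.mk' (fun z x => if x = rep x then z x else 0) fun z w => funext fun x => by
      show (if x = rep x then z x + w x else 0) =
        (if x = rep x then z x else 0) + if x = rep x then w x else 0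
      split_ifs <;> simp
  refine ⟨θ, fun z => funext fun x => ?_⟩
  have hrep : ∀ x : G, ∃ k : Q, (k : G) * rep x = x := fun x => by
    obtain ⟨k, hk⟩ := (MulAction.orbitRel_apply.mp (Quotient.mk_out (s := MulAction.orbitRel Q G) x))
    exact ⟨k⁻¹, by
      show ((k⁻¹ : Q) : G) * rep x = x
      have : ((k : G) * x) = rep x := hk
      rw [← this, InvMemClass.coe_inv, inv_mul_cancel_left]⟩
  have hrep' : ∀ (k : Q) (x : G), rep ((k : G) * x) = rep x := fun k x => by
    show (Quotient.out _ : G) = Quotient.out _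
    congr 1
    exact Quotient.sound (MulAction.orbitRel_apply.mpr ⟨k, rfl⟩)
  obtain ⟨k₀, hk₀⟩ := hrep x
  show (∑ k : Q, k • θ (k⁻¹ • z) : TrivMod G) x = z x
  rw [show (∑ k : Q, k • θ (k⁻¹ • z) : TrivMod G) x = ∑ k : Q, (k • θ (k⁻¹ • z)) x from
    Finset.sum_apply x _ _, Finset.sum_eq_single k₀]
  · show (if (k₀ : G)⁻¹ * x = rep ((k₀ : G)⁻¹ * x) then z (((k₀⁻¹ : Q) : G)⁻¹ * ((k₀ : G)⁻¹ * x))
      else 0) = z x
    rw [← InvMemClass.coe_inv, hrep', if_pos (by
      conv_lhs => rw [← hk₀]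
      rw [InvMemClass.coe_inv, inv_mul_cancel_left])]
    simp
  · intro k _ hk
    show (if (k : G)⁻¹ * x = rep ((k : G)⁻¹ * x) then _ else (0 : ℤ)) = 0
    rw [← InvMemClass.coe_inv, hrep', if_neg]
    intro h
    refine hk (Subtype.ext ?_)
    have h' : (k : G) * rep x = x := by
      rw [← h, InvMemClass.coe_inv, mul_inv_cancel_left]
    exact mul_right_cancel (h'.trans hk₀.symm)
  · exact fun h => absurd (Finset.mem_univ k₀) h

/-! ### The data -/

/-- The abstract class field theoretic input. -/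
structure CoverData (G : Type) [Group G] [Fintype G] (p n : ℕ) (B : Type) [AddCommGroup B]
    [DistribMulAction G B] where
  /-- The generator of the cyclic layer. -/
  τ : B →+ B
  /-- The class with generating symbol. -/
  a : B
  /-- A class of norm `a`. -/
  b : B
  comm : ∀ (g : G) x, τ (g • x) = g • τ x
  pow_eq : ∀ x, addPow τ n x = x
  fix_a : ∀ g : G, g • a = a
  fix_a' : τ a = a
  norm_b : ∑ i ∈ Finset.range n, addPow τ i b = a
  h1 : ∀ Q : Subgroup G, IsPGroup p Q → H1Zero Q B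
  h1τ : ∀ Q : Subgroup G, IsPGroup p Q → ∀ x : B, (∀ h ∈ Q, h • x = x) →
    ∑ i ∈ Finset.range n, addPow τ i x = 0 →
      ∃ y : B, (∀ h ∈ Q, h • y = y) ∧ x = τ y - y
  norm_eq : ∀ Q : Subgroup G, IsPGroup p Q → ∀ (d : B), (∀ h ∈ Q, h • d = d) → ∀ k : ℤ,
    ∑ i ∈ Finset.range n, addPow τ i d = k • a → (n : ℤ) ∣ k * Q.index
  index_le : ∀ Q₁ Q : Subgroup G, IsPGroup p Q → Q₁ ≤ Q → Q₁.relIndex Q = p →
    ∀ g ∈ Q, g ∉ Q₁ → ∀ x y : B, (∀ h ∈ Q, h • x = x) → τ x = x → (∀ h ∈ Q, h • y = y) →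
      τ y = y →
      (¬ ∃ u, (∀ h ∈ Q₁, h • u = u) ∧ τ u = u ∧ ∑ i ∈ Finset.range p, g ^ i • u = y) →
      ∃ (m : ℕ) (u : B), (∀ h ∈ Q₁, h • u = u) ∧ τ u = u ∧
        x = m • y + ∑ i ∈ Finset.range p, g ^ i • u

variable {p n : ℕ} {B : Type} [AddCommGroup B] [DistribMulAction G B] (D : CoverData G p n B)

namespace CoverData

/-- The `τ`-invariants. -/
def classes : AddSubgroup B where
  carrier := {x | D.τ x = x}
  zero_mem' := map_zero D.τ
  add_mem' {x y} hx hy := by
    show D.τ (x + y) = x + y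
    rw [map_add, (hx : D.τ x = x), (hy : D.τ y = y)]
  neg_mem' {x} hx := by
    show D.τ (-x) = -x
    rw [map_neg, (hx : D.τ x = x)]

theorem mem_classes {x : B} : x ∈ D.classes ↔ D.τ x = x := Iff.rfl

instance : DistribMulAction G D.classes where
  smul g x := ⟨g • x.1, by rw [mem_classes, D.comm, D.mem_classes.mp x.2]⟩
  one_smul x := Subtype.ext (one_smul G x.1)
  mul_smul g h x := Subtype.ext (mul_smul g h x.1)
  smul_zero g := Subtype.ext (smul_zero g)
  smul_add g x y := Subtype.ext (smul_add g x.1 y.1)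

/-- The extension. -/
def cover : AddSubgroup (B × TrivMod G) where
  carrier := {w | aug w.2 = 0 ∧ D.τ w.1 - w.1 = evalAt D.b w.2}
  zero_mem' := ⟨map_zero aug, by simp⟩
  add_mem' {v w} hv hw := ⟨by rw [Prod.snd_add, map_add, hv.1, hw.1, add_zero], by
    rw [Prod.snd_add, Prod.fst_add, map_add, map_add, ← hv.2, ← hw.2]; abel⟩
  neg_mem' {w} hw := ⟨by rw [Prod.snd_neg, map_neg, hw.1, neg_zero], by
    rw [Prod.snd_neg, Prod.fst_neg, map_neg, map_neg, ← hw.2]; abel⟩

theorem mem_cover {w : B × TrivMod G} :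
    w ∈ D.cover ↔ aug w.2 = 0 ∧ D.τ w.1 - w.1 = evalAt D.b w.2 := Iff.rfl

instance : DistribMulAction G D.cover where
  smul g w := ⟨(g • w.1.1, g • w.1.2), by
    rw [mem_cover, aug_smul, evalAt_smul, D.comm, ← smul_sub]
    exact ⟨w.2.1, congrArg (g • ·) w.2.2⟩⟩
  one_smul w := Subtype.ext (Prod.ext (one_smul G w.1.1) (one_smul G w.1.2))
  mul_smul g h w := Subtype.ext (Prod.ext (mul_smul g h w.1.1) (mul_smul g h w.1.2))
  smul_zero g := Subtype.ext (Prod.ext (smul_zero g) (smul_zero g))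
  smul_add g v w := Subtype.ext (Prod.ext (smul_add g v.1.1 w.1.1) (smul_add g v.1.2 w.1.2))

theorem coe_smul_cover (g : G) (w : D.cover) :
    ((g • w : D.cover) : B × TrivMod G) = (g • w.1.1, g • w.1.2) := rfl

theorem sum_addPow_sub (x : B) : ∑ i ∈ Finset.range n, addPow D.τ i (D.τ x - x) = 0 := by
  have h : ∀ i, addPow D.τ i (D.τ x) = addPow D.τ (i + 1) x := fun i => by
    induction i with
    | zero => rfl
    | succ i ih => rw [addPow_succ_apply, ih, ← addPow_succ_apply]
  simp only [map_sub, h]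
  rw [Finset.sum_range_sub (fun i => addPow D.τ i x), D.pow_eq]
  show x - x = 0
  rw [sub_self]

theorem addPow_smul (g : G) (i : ℕ) (x : B) : addPow D.τ i (g • x) = g • addPow D.τ i x := by
  induction i with
  | zero => rfl
  | succ i ih => rw [addPow_succ_apply, ih, D.comm, addPow_succ_apply]

theorem sum_addPow_evalAt (z : TrivMod G) :
    ∑ i ∈ Finset.range n, addPow D.τ i (evalAt D.b z) = aug z • D.a := by
  show ∑ i ∈ Finset.range n, addPow D.τ i (∑ x : G, z x • (x • D.b)) = _
  simp only [map_sum, map_zsmul, D.addPow_smul]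
  rw [Finset.sum_comm]
  refine Eq.trans (Finset.sum_congr rfl fun x _ => ?_)
    (Finset.sum_smul (s := Finset.univ) (f := fun x : G => z x) (x := D.a)).symm
  rw [← Finset.smul_sum, ← Finset.smul_sum, D.norm_b, D.fix_a]

theorem exists_lift (z : TrivMod G) (hz : aug z = 0) : ∃ c, (c, z) ∈ D.cover := by
  obtain ⟨y, -, hy⟩ := D.h1τ ⊥ IsPGroup.of_bot (evalAt D.b z)
    (fun h hh => by rw [Subgroup.mem_bot.mp hh, one_smul])
    (by rw [D.sum_addPow_evalAt, hz, zero_smul])
  exact ⟨y, hz, hy.symm⟩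

variable [Fact p.Prime] {P : Subgroup G} [Fintype P]

/-- `H¹` of the extension vanishes. -/
theorem h1Zero_cover (hP : IsPGroup p P) (hcard : Fintype.card P = n) (hidx : P.index.Coprime n) :
    H1Zero P D.cover := by
  classical
  intro w hw
  obtain ⟨θ, hθ⟩ := exists_theta_trivMod (G := G) P
  obtain ⟨l, hl⟩ := eq_coboundary_of_theta θ hθ (a := fun g => (w g).1.2)
    fun g h => congrArg (fun v => v.1.2) (hw g h)
  -- lift the augmentation-zero part of `l`
  obtain ⟨c₁, hc₁⟩ := D.exists_lift (l - aug l • delta1 1) (by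
    rw [map_sub, map_zsmul, aug_delta1]; simp)
  let v : P → B := fun g => (w g).1.1 - ((g : G) • c₁ - c₁)
  have hv : IsCrossed P v := fun g h => by
    have := congrArg (fun u => u.1.1) (hw g h)
    show (w (g * h)).1.1 - (((g * h : P) : G) • c₁ - c₁) =
      ((w g).1.1 - ((g : G) • c₁ - c₁)) + (g : G) • ((w h).1.1 - ((h : G) • c₁ - c₁))
    rw [this]
    show (w g).1.1 + (g : G) • (w h).1.1 - _ = _
    rw [Subgroup.coe_mul, mul_smul, smul_sub, smul_sub]
    abel
  obtain ⟨e, he⟩ := D.h1 P hP v hv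
  have hd : ∀ g : P, (g : G) • (D.τ e - e - aug l • D.b) = D.τ e - e - aug l • D.b := fun g => by
    have h1 := (w g).2.2
    have h2 : D.τ c₁ - c₁ = evalAt D.b (l - aug l • delta1 1) := hc₁.2
    rw [hl g] at h1
    have h3 : D.τ (v g) - v g = aug l • ((g : G) • D.b - D.b) := by
      show D.τ ((w g).1.1 - ((g : G) • c₁ - c₁)) - ((w g).1.1 - ((g : G) • c₁ - c₁)) = _
      have h4 : evalAt D.b ((g : G) • l - l) -
          ((g : G) • evalAt D.b (l - aug l • delta1 1) - evalAt D.b (l - aug l • delta1 1)) =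
          aug l • ((g : G) • D.b - D.b) := by
        rw [← evalAt_smul, smul_sub, map_sub, map_sub, map_sub,
          smul_comm (g : G) (aug l) (delta1 (1 : G)), map_zsmul, map_zsmul, smul_delta1, mul_one,
          evalAt_delta1, evalAt_delta1, one_smul, smul_sub]
        abel
      rw [← h4]
      rw [show evalAt D.b ((g : G) • l - l) = D.τ (w g).1.1 - (w g).1.1 from h1.symm, ← h2,
        map_sub, map_sub, D.comm, smul_sub]
      abel
    rw [he g] at h3
    change D.τ ((g : G) • e - e) - ((g : G) • e - e) = _ at h3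
    rw [smul_sub, smul_sub, smul_comm (g : G) (aug l), ← D.comm, sub_eq_sub_iff_add_eq_add,
      ← sub_eq_zero]
    rw [map_sub, smul_sub, ← sub_eq_zero] at h3
    rw [← h3]
    abel
  have hdiv : (n : ℤ) ∣ aug l := by
    have h1 := D.norm_eq P hP (D.τ e - e - aug l • D.b) (fun h hh => hd ⟨h, hh⟩) (-aug l) (by
      simp only [map_sub, map_zsmul, Finset.sum_sub_distrib]
      rw [← Finset.smul_sum, D.norm_b, ← Finset.sum_sub_distrib]
      simp only [← map_sub]
      rw [D.sum_addPow_sub, zero_sub, neg_smul])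
    rw [neg_mul, dvd_neg] at h1
    exact Int.dvd_of_dvd_mul_left_of_gcd_one h1
      (by rw [Int.gcd_natCast_natCast]; exact Nat.coprime_comm.mp hidx)
  obtain ⟨k, hk⟩ := hdiv
  -- `n • δ₁ - ∑ δ_h` has trivial augmentation
  let u : TrivMod G := (n : ℤ) • delta1 1 - ∑ h : P, delta1 (h : G)
  obtain ⟨c₂, hc₂⟩ := D.exists_lift u (by
    simp only [u, map_sub, map_zsmul, map_sum, aug_delta1, Finset.sum_const, Finset.card_univ,
      hcard]
    simp)
  have hu : ∀ g : P, (g : G) • u - u = (n : ℤ) • (delta1 (g : G) - delta1 1) := fun g => by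
    have hsum : (g : G) • (∑ h : P, delta1 (h : G) : TrivMod G) = ∑ h : P, delta1 (h : G) := by
      rw [Finset.smul_sum]
      exact Fintype.sum_equiv (Equiv.mulLeft g) _ _ fun h => by rw [smul_delta1]; rfl
    simp only [u, smul_sub, hsum, smul_comm (g : G) (n : ℤ), smul_delta1, mul_one]
    abel
  let r : P → B := fun g => v g - k • ((g : G) • c₂ - c₂)
  have hrA : ∀ g : P, D.τ (r g) = r g := fun g => by
    have h1 := (w g).2.2
    rw [hl g] at h1
    change _ = evalAt D.b ((g : G) • l - l) at h1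
    have h2 : D.τ c₁ - c₁ = evalAt D.b (l - aug l • delta1 1) := hc₁.2
    have h3 : D.τ c₂ - c₂ = evalAt D.b u := hc₂.2
    have h5 : ((g : G) • l - l) - ((g : G) • (l - aug l • delta1 1) - (l - aug l • delta1 1)) -
        k • ((g : G) • u - u) = 0 := by
      rw [hu, hk, smul_sub, smul_comm (g : G) ((n : ℤ) * k), smul_delta1, mul_one, smul_sub,
        smul_sub, smul_smul, smul_smul, mul_comm k]
      abel
    have h6 := congrArg (evalAt D.b) h5
    simp only [map_sub, map_zero, map_zsmul, evalAt_smul] at h6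
    rw [← sub_eq_zero]
    show D.τ ((w g).1.1 - ((g : G) • c₁ - c₁) - k • ((g : G) • c₂ - c₂)) -
      ((w g).1.1 - ((g : G) • c₁ - c₁) - k • ((g : G) • c₂ - c₂)) = 0
    rw [← h6]
    simp only [map_sub, map_zsmul, evalAt_smul] at h1 h2 h3 ⊢
    simp only [← h1, ← h2, ← h3, D.comm, smul_sub]
    abel
  obtain ⟨e', he'⟩ := D.h1 P hP r fun g h => by
    show v (g * h) - k • (((g * h : P) : G) • c₂ - c₂) =
      v g - k • ((g : G) • c₂ - c₂) + (g : G) • (v h - k • ((h : G) • c₂ - c₂))
    rw [hv g h, Subgroup.smul_def g (v h), Subgroup.coe_mul, mul_smul]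
    simp only [smul_sub, smul_comm (g : G) k]
    show v g + (g : G) • v h - _ = _
    abel
  obtain ⟨y, hy, hy'⟩ := D.h1τ P hP (D.τ e' - e') (fun h hh => by
    have h1 := hrA ⟨h, hh⟩
    rw [he' ⟨h, hh⟩] at h1
    change D.τ (h • e' - e') = h • e' - e' at h1
    rw [map_sub, D.comm, sub_eq_sub_iff_sub_eq_sub] at h1
    rw [smul_sub, h1]) (D.sum_addPow_sub e')
  refine ⟨⟨(c₁ + k • c₂ + (e' - y), (l - aug l • delta1 1) + k • u), ?_⟩, fun g => ?_⟩
  · have h0 : ((e' - y, (0 : TrivMod G)) : B × TrivMod G) ∈ D.cover := ⟨map_zero aug, by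
      show D.τ (e' - y) - (e' - y) = evalAt D.b 0
      rw [map_zero, map_sub, sub_sub_sub_comm, ← hy', sub_self]⟩
    have := D.cover.add_mem (D.cover.add_mem hc₁ (D.cover.zsmul_mem hc₂ k)) h0
    simpa using this
  · refine Subtype.ext (Prod.ext ?_ ?_)
    · show (w g).1.1 = (g : G) • (c₁ + k • c₂ + (e' - y)) - (c₁ + k • c₂ + (e' - y))
      have h1 := he' g
      rw [show r g = (w g).1.1 - ((g : G) • c₁ - c₁) - k • ((g : G) • c₂ - c₂) from rfl,
        sub_eq_iff_eq_add, sub_eq_iff_eq_add, Subgroup.smul_def g e'] at h1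
      rw [h1]
      simp only [smul_add, smul_sub, smul_comm (g : G) k, hy (g : G) g.2]
      show (g : G) • e' - e' + _ + _ = _
      abel
    · show (w g).1.2 = (g : G) • (l - aug l • delta1 1 + k • u) - (l - aug l • delta1 1 + k • u)
      rw [hl g, smul_add, smul_sub, smul_comm (g : G) k, smul_comm (g : G) (aug l), smul_delta1,
        mul_one, hk, add_sub_add_comm, ← smul_sub k, hu, smul_smul, mul_comm k, smul_sub]
      show (g : G) • l - l = _
      abel

/-- The classes that are traces from the extension. -/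
def traces (Q : Subgroup G) [Fintype Q] : AddSubgroup B where
  carrier := {c | ∃ w : D.cover,
    ∑ h : Q, ((h : G) • w : D.cover).1.1 = c ∧ ∑ h : Q, ((h : G) • w : D.cover).1.2 = 0}
  zero_mem' := ⟨0, by simp, by simp⟩
  add_mem' := by
    rintro _ _ ⟨v, rfl, hv⟩ ⟨w, rfl, hw⟩
    exact ⟨v + w, by simp [coe_smul_cover, smul_add, Finset.sum_add_distrib], by
      simp only [coe_smul_cover] at hv hw
      simp [coe_smul_cover, smul_add, Finset.sum_add_distrib, hv, hw]⟩
  neg_mem' := by
    rintro _ ⟨w, rfl, hw⟩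
    exact ⟨-w, by simp [coe_smul_cover], by
      simp only [coe_smul_cover] at hw
      simp [coe_smul_cover, hw]⟩

theorem mem_traces_of_fixed (hfac : n = p ^ (Fintype.card G).factorization p) :
    ∀ (m : ℕ) (Q : Subgroup G) [Fintype Q], IsPGroup p Q → Fintype.card Q = m →
      ∀ c : B, (∀ h ∈ Q, h • c = c) → D.τ c = c → c ∈ D.traces Q := by
  intro m
  induction m using Nat.strong_induction_on with
  | _ m ih =>
  intro Q _ hQ hQm c hc hcA
  classical
  haveI : Finite Q := inferInstance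
  obtain ⟨k, hk⟩ := IsPGroup.iff_card.mp hQ
  rcases k with _ | k
  · haveI : Subsingleton Q := by
      rw [← Finite.card_le_one_iff_subsingleton, hk, pow_zero]
    refine ⟨⟨(c, 0), map_zero aug, by rw [map_zero, hcA, sub_self]⟩, ?_, ?_⟩
    · rw [Fintype.sum_subsingleton _ 1]
      simp
    · simp [coe_smul_cover]
  -- a normal subgroup of index `p`
  obtain ⟨R, hR⟩ := Sylow.exists_subgroup_card_pow_prime p (G := Q) (n := k)
    (hk ▸ pow_dvd_pow p (Nat.le_succ k))
  have hRidx : R.index = p := by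
    have h1 := R.index_mul_card
    rw [hR, hk, pow_succ'] at h1
    exact Nat.eq_of_mul_eq_mul_right (pow_pos (Fact.out : p.Prime).pos k) h1
  haveI hRn : R.Normal := Subgroup.normal_of_index_eq_minFac_card (by
    rw [hRidx, hk, Nat.Prime.pow_minFac (Fact.out : p.Prime) (Nat.succ_ne_zero k)])
  let Q₁ : Subgroup G := R.map Q.subtype
  have hQ₁le : Q₁ ≤ Q := Subgroup.map_subtype_le R
  have hQ₁R : ∀ h : Q, (h : G) ∈ Q₁ ↔ h ∈ R := fun h =>
    ⟨fun ⟨x, hx, e⟩ => Subtype.ext (e : (x : G) = h) ▸ hx, fun hh => ⟨h, hh, rfl⟩⟩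
  have hrel : Q₁.relIndex Q = p := by
    show (Q₁.subgroupOf Q).index = p
    rw [show Q₁.subgroupOf Q = R from Subgroup.ext fun h => hQ₁R h, hRidx]
  have hQ₁p : IsPGroup p Q₁ := hQ.to_le hQ₁le
  obtain ⟨g, hg⟩ : ∃ g : Q, g ∉ R := by
    by_contra h
    push Not at h
    rw [(Subgroup.eq_top_iff' R).mpr h, Subgroup.index_top] at hRidx
    exact (Fact.out : p.Prime).ne_one hRidx.symm
  have hgQ₁ : (g : G) ∉ Q₁ := fun h => hg ((hQ₁R g).mp h)
  -- the cosets are the powers of `g`
  have hpR : Nat.card (Q ⧸ R) = p := hRidx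
  have hgen : ∀ x : Q ⧸ R, x ∈ Subgroup.zpowers (g : Q ⧸ R) := fun x => by
    rw [zpowers_eq_top_of_prime_card hpR (g := (g : Q ⧸ R)) fun h =>
      hg ((QuotientGroup.eq_one_iff g).mp h)]
    exact Subgroup.mem_top x
  have hordg : orderOf (g : Q ⧸ R) = p := by
    rw [← Nat.card_zpowers, (Subgroup.eq_top_iff' _).mpr hgen]
    rw [Nat.card_congr Subgroup.topEquiv.toEquiv, hpR]
  have hbij : Function.Bijective (fun x : Fin p × R => g ^ (x.1 : ℕ) * (x.2 : Q)) := by
    refine (Nat.bijective_iff_injective_and_card _).mpr ⟨fun x y h => ?_, ?_⟩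
    · have h1 : (g : Q ⧸ R) ^ (x.1 : ℕ) = (g : Q ⧸ R) ^ (y.1 : ℕ) := by
        have := congrArg (fun z : Q => (z : Q ⧸ R)) h
        simpa [QuotientGroup.mk_mul_of_mem] using this
      have h2 : x.1 = y.1 := Fin.ext (pow_injOn_Iio_orderOf
        (by rw [hordg]; exact x.1.2) (by rw [hordg]; exact y.1.2) h1)
      exact Prod.ext h2 (Subtype.ext (by simpa [h2] using h))
    · rw [Nat.card_prod, Nat.card_fin, hR, hk, pow_succ']
  have hsplit : ∀ {M : Type} [AddCommGroup M] (F : Q → M),
      ∑ h : Q, F h = ∑ i ∈ Finset.range p, ∑ r : R, F (g ^ i * (r : Q)) := fun F => by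
    rw [← Fin.sum_univ_eq_sum_range (fun i => ∑ r : R, F (g ^ i * (r : Q))) p,
      ← Fintype.sum_prod_type']
    exact (Fintype.sum_bijective _ hbij _ _ fun _ => rfl).symm
  have hRQ₁ : ∀ {M : Type} [AddCommGroup M] (F : G → M),
      ∑ r : R, F ((r : Q) : G) = ∑ h : Q₁, F h := fun F =>
    Fintype.sum_bijective (fun r : R => (⟨((r : Q) : G), (hQ₁R _).mpr r.2⟩ : Q₁))
      ⟨fun r s e => Subtype.ext (Subtype.ext (Subtype.mk.inj e)),
        fun h => ⟨⟨⟨h, hQ₁le h.2⟩, (hQ₁R _).mp h.2⟩, rfl⟩⟩ _ _ fun _ => rfl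
  have hlt : Fintype.card Q₁ < m := by
    rw [← hQm, ← Nat.card_eq_fintype_card, ← Nat.card_eq_fintype_card, hk,
      ← Nat.card_congr (Equiv.ofBijective
        (fun r : R => (⟨((r : Q) : G), (hQ₁R _).mpr r.2⟩ : Q₁))
        ⟨fun r s e => Subtype.ext (Subtype.ext (Subtype.mk.inj e)),
          fun h => ⟨⟨⟨h, hQ₁le h.2⟩, (hQ₁R _).mp h.2⟩, rfl⟩⟩), hR]
    exact Nat.pow_lt_pow_right (Fact.out : p.Prime).one_lt (Nat.lt_succ_self k)
  -- norms of traces are traces
  have hnorm : ∀ u : B, (∀ h ∈ Q₁, h • u = u) → D.τ u = u →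
      ∑ i ∈ Finset.range p, (g : G) ^ i • u ∈ D.traces Q := fun u hu huA => by
    obtain ⟨w, hw, hw0⟩ := ih _ hlt Q₁ hQ₁p rfl u hu huA
    refine ⟨w, ?_, ?_⟩
    · rw [hsplit]
      refine Finset.sum_congr rfl fun i _ => ?_
      simp only [Subgroup.coe_mul, SubmonoidClass.coe_pow]
      rw [← hw, Finset.smul_sum, hRQ₁ (fun x => (((g : G) ^ i * x) • w : D.cover).1.1)]
      · refine Finset.sum_congr rfl fun h _ => ?_
        simp [coe_smul_cover, mul_smul]
    · rw [hsplit]
      refine Finset.sum_eq_zero fun i _ => ?_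
      simp only [Subgroup.coe_mul, SubmonoidClass.coe_pow]
      rw [hRQ₁ (fun x => (((g : G) ^ i * x) • w : D.cover).1.2)]
      have : ((g : G) ^ i) • (∑ h : Q₁, ((h : G) • w : D.cover).1.2 : TrivMod G) = 0 := by
        rw [hw0, smul_zero]
      rw [Finset.smul_sum] at this
      rw [← this]
      exact Finset.sum_congr rfl fun h _ => by simp [coe_smul_cover, mul_smul]
  -- the class `η`
  obtain ⟨e, he⟩ := D.exists_lift (delta1 (g : G) - delta1 1) (by
    rw [map_sub, aug_delta1, aug_delta1, sub_self])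
  let η : B := ∑ h : Q, (h : G) • e
  have hη0 : ∑ h : Q, (h : G) • (delta1 (g : G) - delta1 1 : TrivMod G) = 0 := by
    simp only [smul_sub, smul_delta1, mul_one, Finset.sum_sub_distrib]
    rw [sub_eq_zero]
    exact Fintype.sum_equiv (Equiv.mulRight g) _ _ fun h => rfl
  have hηmem : η ∈ D.traces Q := ⟨⟨(e, delta1 (g : G) - delta1 1), he⟩, rfl, hη0⟩
  have hηQ : ∀ h ∈ Q, h • η = η := fun h hh => by
    show h • (∑ x : Q, (x : G) • e) = _
    rw [Finset.smul_sum]
    exact Fintype.sum_equiv (Equiv.mulLeft (⟨h, hh⟩ : Q)) _ _ fun x => by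
      simp only [Equiv.coe_mulLeft, Subgroup.coe_mul, mul_smul]
  have he2 : D.τ e - e = (g : G) • D.b - D.b := by
    rw [he.2, map_sub, evalAt_delta1, evalAt_delta1, one_smul]
  have hηA : D.τ η = η := by
    rw [← sub_eq_zero]
    show D.τ (∑ x : Q, (x : G) • e) - ∑ x : Q, (x : G) • e = 0
    rw [map_sum, ← Finset.sum_sub_distrib, Finset.sum_congr rfl fun (x : Q) _ =>
      show D.τ ((x : G) • e) - (x : G) • e = ((x : G) * g) • D.b - (x : G) • D.b by
        rw [D.comm, ← smul_sub, he2, smul_sub, mul_smul], Finset.sum_sub_distrib]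
    rw [sub_eq_zero]
    exact Fintype.sum_equiv (Equiv.mulRight g) _ _ fun h => by
      simp only [Equiv.coe_mulRight, Subgroup.coe_mul]
  have hnot : ¬ ∃ u, (∀ h ∈ Q₁, h • u = u) ∧ D.τ u = u ∧
      ∑ i ∈ Finset.range p, (g : G) ^ i • u = η := by
    rintro ⟨x, hxQ, hxA, hx⟩
    let s : B := ∑ r : R, ((r : Q) : G) • e
    have hsQ : ∀ h ∈ Q₁, h • s = s := fun h hh => by
      show h • (∑ r : R, ((r : Q) : G) • e) = _
      rw [Finset.smul_sum]
      exact Fintype.sum_equiv (Equiv.mulLeft (⟨⟨h, hQ₁le hh⟩, (hQ₁R _).mp hh⟩ : R)) _ _ fun r => by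
        simp only [Equiv.coe_mulLeft, Subgroup.coe_mul, mul_smul]
    have hηs : η = ∑ i ∈ Finset.range p, (g : G) ^ i • s := by
      show ∑ h : Q, (h : G) • e = _
      rw [hsplit]
      refine Finset.sum_congr rfl fun i _ => ?_
      rw [Finset.smul_sum]
      exact Finset.sum_congr rfl fun r _ => by simp [mul_smul]
    let s' := s - x
    have hs'Q : ∀ h ∈ Q₁, h • s' = s' := fun h hh => by rw [smul_sub, hsQ h hh, hxQ h hh]
    have hs'0 : ∑ i ∈ Finset.range p, (g : G) ^ i • s' = 0 := by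
      simp only [s', smul_sub, Finset.sum_sub_distrib, ← hηs, hx, sub_self]
    -- the crossed homomorphism of the cyclic quotient
    have hpow : ∀ i : ℕ, ∀ h ∈ Q₁, h • ((g : G) ^ i • s') = (g : G) ^ i • s' := fun i h hh => by
      have hm : (g ^ i : Q)⁻¹ * ⟨h, hQ₁le hh⟩ * g ^ i ∈ R := by
        have := hRn.conj_mem _ ((hQ₁R ⟨h, hQ₁le hh⟩).mp hh) (g ^ i)⁻¹
        rwa [inv_inv] at this
      have h1 := hs'Q _ ((hQ₁R _).mpr hm)
      simp only [Subgroup.coe_mul, InvMemClass.coe_inv, SubmonoidClass.coe_pow, mul_smul,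
        inv_smul_eq_iff] at h1
      exact h1
    let S : ℕ → B := fun i => ∑ j ∈ Finset.range i, (g : G) ^ j • s'
    have hSadd : ∀ i j, S (i + j) = S i + (g : G) ^ i • S j := fun i j => by
      show ∑ _ ∈ Finset.range (i + j), _ = _
      rw [Finset.sum_range_add, Finset.smul_sum]
      congr 1
      exact Finset.sum_congr rfl fun j _ => by rw [pow_add, mul_smul]
    have hSp : ∀ i, S (i % p) = S i := fun i => by
      conv_rhs => rw [← Nat.mod_add_div i p]
      rw [hSadd]
      have h0 : ∀ q, S (p * q) = 0 := fun q => by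
        induction q with
        | zero => simp [S]
        | succ q ihq => rw [Nat.mul_succ, hSadd, ihq, show S p = 0 from hs'0, smul_zero, add_zero]
      rw [h0, smul_zero, add_zero]
    have hexp : ∀ h : Q, ∃ ir : Fin p × R, g ^ (ir.1 : ℕ) * (ir.2 : Q) = h := fun h => hbij.2 h
    choose ex hex using hexp
    let a : Q → B := fun h => S (ex h).1
    have hfixS : ∀ (i : ℕ) (r : R), ((r : Q) : G) • S i = S i := fun i r => by
      show ((r : Q) : G) • (∑ j ∈ Finset.range i, (g : G) ^ j • s') = _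
      rw [Finset.smul_sum]
      exact Finset.sum_congr rfl fun j _ => hpow j _ ((hQ₁R _).mpr r.2)
    have hcr : IsCrossed Q a := fun h h' => by
      show S (ex (h * h')).1 = S (ex h).1 + (h : G) • S (ex h').1
      have hmod : ((ex (h * h')).1 : ℕ) = ((ex h).1 + (ex h').1 : ℕ) % p := by
        have h1 : (g : Q ⧸ R) ^ ((ex (h * h')).1 : ℕ) =
            (g : Q ⧸ R) ^ (((ex h).1 : ℕ) + (ex h').1) := by
          have e1 : ∀ h : Q, (h : Q ⧸ R) = (g : Q ⧸ R) ^ ((ex h).1 : ℕ) := fun h => by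
            conv_lhs => rw [← hex h]
            simp [QuotientGroup.mk_mul_of_mem]
          rw [← e1, QuotientGroup.mk_mul, e1 h, e1 h', pow_add]
        rw [pow_eq_pow_iff_modEq, hordg] at h1
        unfold Nat.ModEq at h1
        rwa [Nat.mod_eq_of_lt (ex (h * h')).1.2] at h1
      rw [hmod, hSp, hSadd]
      congr 1
      have he3 : (h : G) = (g : G) ^ ((ex h).1 : ℕ) * (((ex h).2 : Q) : G) := by
        rw [← SubmonoidClass.coe_pow, ← Subgroup.coe_mul, hex h]
      rw [he3, mul_smul, hfixS]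
    obtain ⟨v, hv⟩ := D.h1 Q hQ a hcr
    have hvR : ∀ r : R, ((r : Q) : G) • v = v := fun r => by
      have h1 := hv (r : Q)
      have h2 : ex (r : Q) = (⟨0, (Fact.out : p.Prime).pos⟩, r) :=
        hbij.1 (by simp [hex])
      rw [show a (r : Q) = 0 by simp [a, h2, S]] at h1
      exact sub_eq_zero.mp h1.symm
    have hvg : (g : G) • v - v = s' := by
      have h2 : ex g = (⟨1, (Fact.out : p.Prime).one_lt⟩, 1) := hbij.1 (by simp [hex])
      have h1 := hv g
      rw [show a g = s' by simp [a, h2, S]] at h1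
      exact h1.symm
    let d : B := ∑ r : R, ((r : Q) : G) • D.b
    have hτs : D.τ s - s = (g : G) • d - d := by
      show D.τ (∑ r : R, ((r : Q) : G) • e) - ∑ r : R, ((r : Q) : G) • e = _
      rw [map_sum, ← Finset.sum_sub_distrib]
      rw [Finset.sum_congr rfl fun (r : R) _ =>
        show D.τ (((r : Q) : G) • e) - ((r : Q) : G) • e =
          (((r : Q) : G) * g) • D.b - ((r : Q) : G) • D.b by
          rw [D.comm, ← smul_sub, he2, smul_sub, mul_smul], Finset.sum_sub_distrib]
      simp only [d, Finset.smul_sum, ← mul_smul]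
      congr 1
      refine Fintype.sum_bijective (fun r : R => (⟨g⁻¹ * (r : Q) * g, by
        simpa using hRn.conj_mem _ r.2 g⁻¹⟩ : R)) ?_ _ _ fun r => ?_
      · exact ⟨fun r t e => Subtype.ext (mul_left_cancel (mul_right_cancel (congrArg Subtype.val e))),
          fun r => ⟨⟨g * (r : Q) * g⁻¹, hRn.conj_mem _ r.2 g⟩, Subtype.ext (by group)⟩⟩
      · simp [mul_assoc]
    let u : B := D.τ v - v - d
    have huR : ∀ r : R, ((r : Q) : G) • u = u := fun r => by
      show ((r : Q) : G) • (D.τ v - v - d) = _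
      rw [smul_sub, smul_sub, ← D.comm, hvR]
      congr 1
      show ((r : Q) : G) • (∑ t : R, ((t : Q) : G) • D.b) = _
      rw [Finset.smul_sum]
      exact Fintype.sum_equiv (Equiv.mulLeft r) _ _ fun t =>
        (mul_smul ((r : Q) : G) ((t : Q) : G) D.b).symm
    have hug : (g : G) • u = u := by
      rw [← sub_eq_zero]
      show (g : G) • (D.τ v - v - d) - (D.τ v - v - d) = 0
      rw [smul_sub, smul_sub, ← D.comm]
      have h1 : D.τ s' - s' = (g : G) • d - d := by
        show D.τ (s - x) - (s - x) = _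
        rw [map_sub, hxA, ← hτs]; abel
      rw [← hvg, map_sub, ← sub_eq_zero] at h1
      rw [← h1]; abel
    have huQ : ∀ h ∈ Q, h • u = u := fun h hh => by
      obtain ⟨⟨i, r⟩, hir⟩ := hbij.2 ⟨h, hh⟩
      rw [show h = (g : G) ^ (i : ℕ) * ((r : Q) : G) by
        rw [← SubmonoidClass.coe_pow, ← Subgroup.coe_mul]; exact (congrArg Subtype.val hir).symm,
        mul_smul, huR]
      exact smul_iterate_eq_self hug i
    have hdvd := D.norm_eq Q hQ u huQ (-(Fintype.card R : ℤ)) (by
      show ∑ i ∈ Finset.range n, addPow D.τ i (D.τ v - v - d) = _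
      simp only [map_sub, Finset.sum_sub_distrib]
      rw [← Finset.sum_sub_distrib]
      simp only [← map_sub]
      rw [D.sum_addPow_sub, zero_sub, neg_smul, neg_inj]
      simp only [d, map_sum, D.addPow_smul]
      rw [Finset.sum_comm]
      simp only [← Finset.smul_sum, D.norm_b, D.fix_a, Finset.sum_const, Finset.card_univ,
        natCast_zsmul])
    rw [neg_mul, dvd_neg, hfac, show (Fintype.card R) = p ^ k from
      (Nat.card_eq_fintype_card (α := R)).symm.trans hR, ← Nat.cast_mul,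
      Int.natCast_dvd_natCast] at hdvd
    have hG : p ^ (k + 1) * Q.index = Fintype.card G := by
      rw [← Nat.card_eq_fintype_card, ← hk]; exact Q.card_mul_index
    have hGne : (Fintype.card G).factorization p + 1 ≤ (Fintype.card G).factorization p := by
      refine ((Fact.out : p.Prime).pow_dvd_iff_le_factorization Fintype.card_ne_zero).mp ?_
      conv_rhs => rw [← hG]
      rw [pow_succ' p k, mul_assoc, pow_succ']
      exact mul_dvd_mul_left p hdvd
    omega
  obtain ⟨j, u, huQ, huA, hcu⟩ := D.index_le Q₁ Q hQ hQ₁le hrel g g.2 hgQ₁ c η hc hcA hηQ hηA hnot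
  rw [hcu]
  exact add_mem ((D.traces Q).nsmul_mem hηmem j) (hnorm u huQ huA)
where
  /-- Iterates fix fixed points. -/
  smul_iterate_eq_self {g : G} {u : B} (h : g • u = u) (i : ℕ) : g ^ i • u = u := by
    induction i with
    | zero => simp
    | succ i ih => rw [pow_succ', mul_smul, ih, h]

/-- Invariants of the extension are traces. -/
theorem traceSurj_cover (hP : IsPGroup p P) (hcard : Fintype.card P = n)
    (hfac : n = p ^ (Fintype.card G).factorization p) : TraceSurj P D.cover := by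
  intro w hw
  obtain ⟨θ, hθ⟩ := exists_theta_trivMod (G := G) P
  have hz : ∀ h : P, (h : G) • w.1.2 = w.1.2 := fun h => congrArg (fun v => v.1.2) (hw h)
  have h1 : ∑ h : P, h • θ w.1.2 = w.1.2 := by
    conv_rhs => rw [← hθ w.1.2]
    refine Finset.sum_congr rfl fun h _ => ?_
    congr 2
    exact (hz h⁻¹).symm
  have haug : aug (θ w.1.2) = 0 := by
    have h2 : (n : ℤ) * aug (θ w.1.2) = 0 := by
      rw [← w.2.1]
      conv_rhs => rw [← h1]
      rw [map_sum, Finset.sum_congr rfl fun (h : P) _ =>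
        show aug (h • θ w.1.2) = aug (θ w.1.2) from aug_smul (h : G) (θ w.1.2),
        Finset.sum_const, Finset.card_univ, hcard, nsmul_eq_mul]
    rcases mul_eq_zero.mp h2 with h | h
    · exact absurd h (by rw [hfac]; exact_mod_cast pow_ne_zero _ (Fact.out : p.Prime).ne_zero)
    · exact h
  obtain ⟨c, hc⟩ := D.exists_lift _ haug
  let w' : D.cover := ⟨(c, θ w.1.2), hc⟩
  let c' : B := w.1.1 - ∑ h : P, (h : G) • c
  have hsum : (∑ h : P, h • w' : D.cover).1 = (∑ h : P, (h : G) • c, w.1.2) := by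
    rw [AddSubgroup.val_finsetSum]
    refine Prod.ext ?_ ?_
    · rw [Prod.fst_sum]; rfl
    · rw [Prod.snd_sum]; exact h1
  have hc'A : D.τ c' = c' := by
    have h2 := (w - ∑ h : P, h • w').2.2
    rw [AddSubgroup.coe_sub, hsum, Prod.snd_sub, Prod.fst_sub, sub_self, map_zero, sub_eq_zero]
      at h2
    exact h2
  have hc'P : ∀ h ∈ P, h • c' = c' := fun h hh => by
    show h • (w.1.1 - ∑ x : P, (x : G) • c) = _
    rw [smul_sub, Finset.smul_sum, show h • w.1.1 = w.1.1 from
      congrArg (fun v => v.1.1) (hw ⟨h, hh⟩)]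
    congr 1
    exact Fintype.sum_equiv (Equiv.mulLeft (⟨h, hh⟩ : P)) _ _ fun x => by
      simp only [Equiv.coe_mulLeft, Subgroup.coe_mul, mul_smul]
  obtain ⟨v, hv, hv0⟩ := D.mem_traces_of_fixed hfac _ P hP rfl c' hc'P hc'A
  refine ⟨v + w', Subtype.ext ?_⟩
  simp only [smul_add, Finset.sum_add_distrib, AddSubgroup.coe_add]
  rw [hsum, AddSubgroup.val_finsetSum]
  refine Prod.ext ?_ ?_
  · rw [Prod.fst_add, Prod.fst_sum]
    show (∑ h : P, ((h : G) • v : D.cover).1.1) + _ = _
    rw [hv]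
    show w.1.1 - _ + _ = _
    rw [sub_add_cancel]
  · rw [Prod.snd_add, Prod.snd_sum]
    show (∑ h : P, ((h : G) • v : D.cover).1.2) + _ = _
    rw [hv0, zero_add]

end CoverData

end FLTAgent.TW.Coh
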