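import Mathlib

/-!
# Rational representations with equal characters are isomorphic

`exists_equiv_of_character_eq`, by Maschke's theorem and induction on the dimension; and the
character of a permutation representation counts fixed points (`character_permRep`).
-/

set_option autoImplicit false
set_option linter.unusedSectionVars false
set_option linter.style.haveILetI false

noncomputable section

namespace FLTAgent.TW.Coh

open Module Representation

variable {G : Type} [Group G] [Fintype G]

theorem exists_stable_isCompl {V : Type} [AddCommGroup V] [Module ℚ V]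
    (ρ : Representation ℚ G V) (U : Submodule ℚ V) (hU : ∀ g, ∀ v ∈ U, ρ g v ∈ U) :
    ∃ U' : Submodule ℚ V, IsCompl U U' ∧ ∀ g, ∀ v ∈ U', ρ g v ∈ U' := by
  obtain ⟨Q, hQ⟩ := Submodule.exists_isCompl U
  let π := U.projection Q hQ
  let π' : V →ₗ[ℚ] V := (Fintype.card G : ℚ)⁻¹ • ∑ g : G, (ρ g).comp (π.comp (ρ g⁻¹))
  have hmem : ∀ v, π' v ∈ U := fun v => by
    simp only [π', LinearMap.smul_apply, LinearMap.sum_apply, LinearMap.comp_apply]
    exact U.smul_mem _ (U.sum_mem fun g _ => hU g _ (Submodule.projection_apply_mem hQ _))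
  have hid : ∀ v ∈ U, π' v = v := fun v hv => by
    have h1 : ∀ g : G, ρ g (π (ρ g⁻¹ v)) = v := fun g => by
      rw [show π (ρ g⁻¹ v) = ρ g⁻¹ v from
        Submodule.projection_apply_left hQ ⟨_, hU g⁻¹ v hv⟩, self_inv_apply]
    simp only [π', LinearMap.smul_apply, LinearMap.sum_apply, LinearMap.comp_apply, h1,
      Finset.sum_const, Finset.card_univ, ← Nat.cast_smul_eq_nsmul ℚ, smul_smul]
    rw [inv_mul_cancel₀ (Nat.cast_ne_zero.mpr Fintype.card_ne_zero), one_smul]
  have hcomm : ∀ (h : G) v, π' (ρ h v) = ρ h (π' v) := fun h v => by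
    simp only [π', LinearMap.smul_apply, LinearMap.sum_apply, LinearMap.comp_apply, map_smul,
      map_sum]
    congr 1
    refine Fintype.sum_equiv (Equiv.mulLeft h⁻¹) _ _ fun g => ?_
    simp only [Equiv.coe_mulLeft, mul_inv_rev, inv_inv, map_mul, Module.End.mul_apply,
      self_inv_apply]
  refine ⟨LinearMap.ker π', LinearMap.IsProj.isCompl (f := π') ⟨hmem, hid⟩, fun g v hv => ?_⟩
  rw [LinearMap.mem_ker] at hv ⊢
  rw [hcomm, hv, map_zero]

/-- The restriction of a representation to a stable subspace. -/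
def restrictRep {V : Type} [AddCommGroup V] [Module ℚ V] (ρ : Representation ℚ G V)
    (U : Submodule ℚ V) (hU : ∀ g, ∀ v ∈ U, ρ g v ∈ U) : Representation ℚ G U :=
  (⟨U, fun g _ hv => hU g _ hv⟩ : Subrepresentation ρ).toRepresentation

theorem restrictRep_apply {V : Type} [AddCommGroup V] [Module ℚ V] (ρ : Representation ℚ G V)
    (U : Submodule ℚ V) (hU : ∀ g, ∀ v ∈ U, ρ g v ∈ U) (g : G) (u : U) :
    (restrictRep ρ U hU g u : V) = ρ g u := rfl

theorem character_add {V : Type} [AddCommGroup V] [Module ℚ V] [FiniteDimensional ℚ V]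
    (ρ : Representation ℚ G V) {U U' : Submodule ℚ V} (h : IsCompl U U')
    (hU : ∀ g, ∀ v ∈ U, ρ g v ∈ U) (hU' : ∀ g, ∀ v ∈ U', ρ g v ∈ U') (g : G) :
    ρ.character g = (restrictRep ρ U hU).character g + (restrictRep ρ U' hU').character g := by
  let e := U.prodEquivOfIsCompl U' h
  have he : e.conj ((restrictRep ρ U hU g).prodMap (restrictRep ρ U' hU' g)) = ρ g :=
    LinearMap.ext fun v => by
      obtain ⟨⟨a, b⟩, rfl⟩ := e.surjective v
      simp [LinearEquiv.conj_apply, e, restrictRep_apply, map_add]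
  show LinearMap.trace ℚ V (ρ g) = _
  rw [← he, LinearMap.trace_conj', LinearMap.trace_prodMap']
  rfl

/-- Equal characters give isomorphic representations. -/
theorem exists_equiv_of_character_eq {V W : Type} [AddCommGroup V] [Module ℚ V]
    [FiniteDimensional ℚ V] [AddCommGroup W] [Module ℚ W] [FiniteDimensional ℚ W]
    (ρ : Representation ℚ G V) (σ : Representation ℚ G W)
    (h : ∀ g, ρ.character g = σ.character g) :
    ∃ φ : V ≃ₗ[ℚ] W, ∀ g v, φ (ρ g v) = σ g (φ v) := by
  induction hn : finrank ℚ V using Nat.strong_induction_on generalizing V W with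
  | _ n ih =>
    have hdim : finrank ℚ V = finrank ℚ W := by
      have h1 := h 1
      rw [char_one, char_one] at h1
      exact_mod_cast h1
    rcases Nat.eq_zero_or_pos n with rfl | hpos
    · haveI : Subsingleton V := Module.finrank_zero_iff.mp hn
      haveI : Subsingleton W := Module.finrank_zero_iff.mp (hdim ▸ hn)
      exact ⟨0, fun g v => Subsingleton.elim _ _⟩
    haveI : Invertible (Nat.card G : ℚ) := invertibleOfNonzero (by simp)
    haveI : Nontrivial V := Module.finrank_pos_iff.mp (hn ▸ hpos)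
    have hρρ : 0 < finrank ℚ (IntertwiningMap ρ ρ) := by
      rw [← (invariantsEquivIntertwiningMap ρ ρ).finrank_eq, Module.finrank_pos_iff]
      refine nontrivial_of_ne ⟨LinearMap.id, fun g => LinearMap.ext fun v => ?_⟩ 0 fun h0 => ?_
      · simp
      · obtain ⟨v, hv⟩ := exists_ne (0 : V)
        exact hv (LinearMap.congr_fun (congrArg Subtype.val h0) v)
    have hρσ : 0 < finrank ℚ (IntertwiningMap ρ σ) := by
      have e1 := card_inv_mul_sum_char_mul_char_eq_finrank ρ ρ
      have e2 := card_inv_mul_sum_char_mul_char_eq_finrank ρ σ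
      have e3 : (finrank ℚ (IntertwiningMap ρ σ) : ℚ) = finrank ℚ (IntertwiningMap ρ ρ) := by
        rw [← e1, ← e2]; simp only [h]
      rwa [Nat.cast_inj.mp e3]
    rw [← (invariantsEquivIntertwiningMap ρ σ).finrank_eq, Module.finrank_pos_iff] at hρσ
    obtain ⟨f₀, hf₀⟩ := exists_ne (0 : (linHom ρ σ).invariants)
    let f : V →ₗ[ℚ] W := f₀.1
    have hf : ∀ g v, f (ρ g v) = σ g (f v) := fun g v =>
      ((mem_linHom_invariants_iff_isIntertwining f₀.1).mp f₀.2).isIntertwining g v
    have hk : ∀ g, ∀ v ∈ LinearMap.ker f, ρ g v ∈ LinearMap.ker f := fun g v hv => by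
      rw [LinearMap.mem_ker] at hv ⊢; rw [hf, hv, map_zero]
    have hr : ∀ g, ∀ w ∈ LinearMap.range f, σ g w ∈ LinearMap.range f := fun g w hw => by
      obtain ⟨v, rfl⟩ := hw; exact ⟨ρ g v, hf g v⟩
    obtain ⟨V₁, hV₁, hV₁'⟩ := exists_stable_isCompl ρ _ hk
    obtain ⟨W₁, hW₁, hW₁'⟩ := exists_stable_isCompl σ _ hr
    let f₁ : V₁ →ₗ[ℚ] LinearMap.range f := (f.rangeRestrict).comp V₁.subtype
    have hf₁ : Function.Bijective f₁ := by
      refine ⟨(injective_iff_map_eq_zero f₁).mpr fun v hv => Subtype.ext ?_, fun w => ?_⟩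
      · have h1 : v.1 ∈ LinearMap.ker f := congrArg Subtype.val hv
        exact (Submodule.mem_bot ℚ).mp (hV₁.inf_eq_bot ▸ ⟨h1, v.2⟩)
      · obtain ⟨v, hv⟩ := w.2
        obtain ⟨⟨a, b⟩, rfl⟩ := ((LinearMap.ker f).prodEquivOfIsCompl V₁ hV₁).surjective v
        refine ⟨b, Subtype.ext ?_⟩
        rw [Submodule.coe_prodEquivOfIsCompl', map_add, LinearMap.mem_ker.mp a.2, zero_add] at hv
        exact hv
    let ψ := LinearEquiv.ofBijective f₁ hf₁
    have hψ : ∀ g v, ψ (restrictRep ρ V₁ hV₁' g v) = restrictRep σ _ hr g (ψ v) :=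
      fun g v => Subtype.ext (hf g v.1)
    have hchar : ∀ g, (restrictRep ρ _ hk).character g = (restrictRep σ W₁ hW₁').character g := by
      intro g
      have e1 := character_add ρ hV₁ hk hV₁' g
      have e2 := character_add σ hW₁ hr hW₁' g
      have e3 : (restrictRep ρ V₁ hV₁').character g = (restrictRep σ _ hr).character g := by
        show LinearMap.trace ℚ _ _ = LinearMap.trace ℚ _ _
        rw [show restrictRep σ _ hr g = ψ.conj (restrictRep ρ V₁ hV₁' g) from
          LinearMap.ext fun w => by simp [LinearEquiv.conj_apply, hψ], LinearMap.trace_conj']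
      linarith [h g]
    have hlt : finrank ℚ (LinearMap.ker f) < n := by
      rw [← hn]
      refine Submodule.finrank_lt fun htop => hf₀ (Subtype.ext (LinearMap.ext fun v => ?_))
      have : v ∈ LinearMap.ker f := htop ▸ Submodule.mem_top
      exact this
    obtain ⟨φ, hφ⟩ := ih _ hlt _ _ hchar rfl
    let e := (((LinearMap.ker f).prodEquivOfIsCompl V₁ hV₁).symm.trans
      ((φ.prodCongr ψ).trans (LinearEquiv.prodComm ℚ W₁ (LinearMap.range f)))).trans
      ((LinearMap.range f).prodEquivOfIsCompl W₁ hW₁)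
    refine ⟨e, fun g v => ?_⟩
    obtain ⟨⟨a, b⟩, rfl⟩ := ((LinearMap.ker f).prodEquivOfIsCompl V₁ hV₁).surjective v
    have hg : ρ g ((LinearMap.ker f).prodEquivOfIsCompl V₁ hV₁ (a, b)) =
        (LinearMap.ker f).prodEquivOfIsCompl V₁ hV₁
          (restrictRep ρ _ hk g a, restrictRep ρ V₁ hV₁' g b) := by
      simp [restrictRep_apply]
    have he : ∀ (a : LinearMap.ker f) (b : V₁),
        e ((LinearMap.ker f).prodEquivOfIsCompl V₁ hV₁ (a, b)) = (ψ b : W) + (φ a : W) := by
      intro a b
      show ((LinearMap.range f).prodEquivOfIsCompl W₁ hW₁) (LinearEquiv.prodComm ℚ W₁ _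
        ((φ.prodCongr ψ) (((LinearMap.ker f).prodEquivOfIsCompl V₁ hV₁).symm
          ((LinearMap.ker f).prodEquivOfIsCompl V₁ hV₁ (a, b))))) = _
      rw [LinearEquiv.symm_apply_apply]
      simp only [LinearEquiv.prodCongr_apply, LinearEquiv.prodComm_apply, Prod.swap_prod_mk,
        Submodule.coe_prodEquivOfIsCompl']
    rw [hg, he, he, hφ, hψ, restrictRep_apply, restrictRep_apply, ← map_add]

/-- The permutation representation. -/
def permRep (X : Type) [MulAction G X] : Representation ℚ G (X → ℚ) where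
  toFun g := LinearMap.funLeft ℚ ℚ fun x : X => g⁻¹ • x
  map_one' := LinearMap.ext fun f => funext fun x => by simp [LinearMap.funLeft_apply]
  map_mul' g h := LinearMap.ext fun f => funext fun x => by
    simp [LinearMap.funLeft_apply, mul_smul]

theorem permRep_apply {X : Type} [MulAction G X] (g : G) (f : X → ℚ) (x : X) :
    permRep X g f x = f (g⁻¹ • x) := rfl

open Classical in
theorem character_permRep {X : Type} [MulAction G X] [Fintype X] (g : G) :
    (permRep X).character g = ((Finset.univ.filter fun x : X => g • x = x).card : ℚ) := by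
  show LinearMap.trace ℚ (X → ℚ) _ = _
  rw [LinearMap.trace_eq_matrix_trace ℚ (Pi.basisFun ℚ X)]
  simp only [Matrix.trace, Matrix.diag_apply, LinearMap.toMatrix_apply, Pi.basisFun_apply,
    Pi.basisFun_repr, permRep_apply, Pi.single_apply]
  rw [Finset.sum_boole, Finset.filter_congr fun x _ => inv_smul_eq_iff.trans eq_comm]

end FLTAgent.TW.Coh
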