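import Fermat.Agent.TW.Coh.Perm
import Fermat.Agent.TW.Coh.RatRep

/-!
# The Euler characteristic is `1`

Artin's induction theorem for permutation characters, an integral comparison of permutation
lattices, and the conclusion that `chi W N = 1` as soon as the local identity holds at the
subgroups of order prime to `p` (`chi_eq_one`).
-/

set_option autoImplicit false
set_option linter.unusedSectionVars false
set_option linter.style.haveILetI false

noncomputable section

namespace FLTAgent.TW.Coh

variable {G : Type} [Group G] [Fintype G] {p : ℕ} [Fact p.Prime] {P : Subgroup G} [Fintype P]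
  {W : Type} [AddCommGroup W] [DistribMulAction G W]
variable {N : Type} [AddCommGroup N] [DistribMulAction G N] [Finite N]

/-! ### Lattices -/

/-- The permutation lattice. -/
def TrivMod (X : Type) : Type := X → ℤ

instance (X : Type) : AddCommGroup (TrivMod X) := inferInstanceAs (AddCommGroup (X → ℤ))

instance (X : Type) [Finite X] : Module.Free ℤ (TrivMod X) :=
  Module.Free.of_equiv (AddEquiv.refl (X → ℤ) : (X → ℤ) ≃+ TrivMod X).toIntLinearEquiv

instance (X : Type) [Finite X] : Module.Finite ℤ (TrivMod X) :=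
  Module.Finite.equiv (AddEquiv.refl (X → ℤ) : (X → ℤ) ≃+ TrivMod X).toIntLinearEquiv

instance {X : Type} [MulAction G X] : DistribMulAction G (TrivMod X) where
  smul g f := fun x => f (g⁻¹ • x)
  one_smul f := funext fun x => by
    show f ((1 : G)⁻¹ • x) = f x
    simp
  mul_smul g h f := funext fun x => by
    show f ((g * h)⁻¹ • x) = f (h⁻¹ • g⁻¹ • x)
    simp [mul_smul]
  smul_zero _ := rfl
  smul_add _ _ _ := rfl

theorem TrivMod.smul_apply {X : Type} [MulAction G X] (g : G) (f : TrivMod X) (x : X) :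
    (g • f) x = f (g⁻¹ • x) := rfl

/-- A stable subgroup. -/
structure StableSub (G : Type) [Group G] (L : Type) [AddCommGroup L] [DistribMulAction G L] where
  /-- The subgroup. -/
  sub : AddSubgroup L
  smul_mem : ∀ (g : G), ∀ x ∈ sub, g • x ∈ sub

variable {L : Type} [AddCommGroup L] [DistribMulAction G L]

instance (U : StableSub G L) : DistribMulAction G U.sub where
  smul g x := ⟨g • x.1, U.smul_mem g x.1 x.2⟩
  one_smul x := Subtype.ext (one_smul G x.1)
  mul_smul g h x := Subtype.ext (mul_smul g h x.1)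
  smul_zero g := Subtype.ext (smul_zero g)
  smul_add g x y := Subtype.ext (smul_add g x.1 y.1)

/-- Homomorphisms with the conjugation action. -/
def HomMod (U N : Type) [AddCommGroup U] [AddCommGroup N] : Type := U →+ N

instance {U N : Type} [AddCommGroup U] [AddCommGroup N] : AddCommGroup (HomMod U N) :=
  inferInstanceAs (AddCommGroup (U →+ N))

instance {U N : Type} [AddCommGroup U] [AddCommGroup N] [DistribMulAction G U]
    [DistribMulAction G N] : DistribMulAction G (HomMod U N) where
  smul g f := hconj (A := U) (B := N) g f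
  one_smul f := hconj_one f
  mul_smul g h f := hconj_mul g h f
  smul_zero g := map_zero (hconj g)
  smul_add g := map_add (hconj g)

/-- The underlying homomorphism. -/
def HomMod.hom {U N : Type} [AddCommGroup U] [AddCommGroup N] (f : HomMod U N) : U →+ N := f

theorem finite_homMod {U N : Type} [AddCommGroup U] [AddCommGroup N] [Finite N]
    [Module.Free ℤ U] [Module.Finite ℤ U] : Finite (HomMod U N) := by
  let b := Module.finBasis ℤ U
  refine Finite.of_injective (fun f : HomMod U N => fun i => f.hom (b i)) fun f g h => ?_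
  have h' : f.hom.toIntLinearMap = g.hom.toIntLinearMap :=
    b.ext fun i => congrFun h i
  exact AddMonoidHom.ext fun x => LinearMap.congr_fun h' x

theorem HomMod.nsmul_eq_zero {U N : Type} [AddCommGroup U] [AddCommGroup N]
    (hN : ∀ n : N, p • n = 0) (f : HomMod U N) : p • f = 0 :=
  AddMonoidHom.ext fun x => hN (f.hom x)

omit [Finite N] in
theorem exists_extend {A : Type} [AddCommGroup A] (B : AddSubgroup A) (_hN : ∀ n : N, p • n = 0)
    (f : B →+ N) (hf : ∀ b : B, (∃ a, p • a = (b : A)) → f b = 0) :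
    ∃ F : A →+ N, ∀ b : B, F b = f b := by
  let U : AddSubgroup (ModP p A) := B.map toModP
  obtain ⟨π, hπ, hπ'⟩ := exists_retraction (V := ModP p A) nsmul_modP U
  have key : ∀ b b' : B, (toModP (b : A) : ModP p A) = toModP (b' : A) → f b = f b' :=
    fun b b' h => by
      rw [← sub_eq_zero, ← map_sub] at h ⊢
      exact hf _ (toModP_eq_zero_iff.mp h)
  have hlift : ∀ x : A, ∃ b : B, (toModP (b : A) : ModP p A) = π (toModP x) := fun x => by
    obtain ⟨y, hy, e⟩ := hπ (toModP x)
    exact ⟨⟨y, hy⟩, e⟩
  choose l hl using hlift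
  refine ⟨AddMonoidHom.mk' (fun x => f (l x)) fun x x' => ?_, fun b => ?_⟩
  · rw [← map_add f]
    refine key _ _ ?_
    rw [AddSubgroup.coe_add, map_add toModP, hl, hl, hl, map_add toModP, map_add π]
  · exact key _ _ (by rw [hl]; exact hπ' _ ⟨b.1, b.2, rfl⟩)

variable (hW : IsCT p P W) (hN : ∀ n : N, p • n = 0)
  [Module.Free ℤ L] [Module.Finite ℤ L]

omit [Finite N] in
theorem finite_sub (U : StableSub G L) : Module.Free ℤ U.sub ∧ Module.Finite ℤ U.sub := by
  refine ⟨free_addSubgroup _, ?_⟩
  haveI : Module.Finite ℤ (AddSubgroup.toIntSubmodule U.sub) := Module.IsNoetherian.finite ℤ _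
  exact Module.Finite.equiv (M := AddSubgroup.toIntSubmodule U.sub) (N := U.sub)
    (AddEquiv.refl U.sub : (AddSubgroup.toIntSubmodule U.sub) ≃+ U.sub).toIntLinearEquiv

include hW hN in
theorem chi_homMod_step (U U' : StableSub G L) (hle : U'.sub ≤ U.sub)
    (hpU : ∀ x ∈ U.sub, p • x ∈ U'.sub) :
    chi (G := G) W (HomMod U.sub N) = chi (G := G) W (HomMod U'.sub N) := by
  haveI := (finite_sub U).1; haveI := (finite_sub U).2
  haveI := (finite_sub U').1; haveI := (finite_sub U').2
  haveI : Finite (HomMod U.sub N) := finite_homMod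
  haveI : Finite (HomMod U'.sub N) := finite_homMod
  let incl : U'.sub →+ U.sub := AddSubgroup.inclusion hle
  let mulp : U.sub →+ U'.sub := AddMonoidHom.mk' (fun x => ⟨p • x.1, hpU x.1 x.2⟩) fun x y =>
    Subtype.ext (nsmul_add x.1 y.1 p)
  let r : HomMod U.sub N →+ HomMod U'.sub N :=
    AddMonoidHom.mk' (fun f => f.hom.comp incl) fun _ _ => rfl
  let s : HomMod U'.sub N →+ HomMod U.sub N :=
    AddMonoidHom.mk' (fun f => f.hom.comp mulp) fun _ _ => rfl
  refine chi_eq_of_hexagon hW (HomMod.nsmul_eq_zero hN) (HomMod.nsmul_eq_zero hN) r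
    (fun g f => AddMonoidHom.ext fun x => rfl) s (fun g f => AddMonoidHom.ext fun x => ?_) ?_ ?_
  · show g • f.hom (g⁻¹ • mulp x) = g • f.hom (mulp (g⁻¹ • x))
    congr 2
    exact Subtype.ext (smul_comm g⁻¹ p x.1)
  · refine AddSubgroup.ext fun f => ⟨fun hf => ?_, ?_⟩
    · have hf' : ∀ y : U'.sub, f.hom (incl y) = 0 := fun y =>
        DFunLike.congr_fun (congrArg HomMod.hom (hf : r f = 0)) y
      have hinj : ∀ x y : U.sub, mulp x = mulp y → x = y := fun x y h => by
        have h' : p • x.1 = p • y.1 := congrArg Subtype.val h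
        rw [← natCast_zsmul, ← natCast_zsmul] at h'
        exact Subtype.ext (smul_right_injective L
          (Nat.cast_ne_zero.mpr (Fact.out : p.Prime).ne_zero : (p : ℤ) ≠ 0) h')
      have hinv : ∀ b : mulp.range, ∃ x, mulp x = b.1 := fun b => b.2
      choose inv hinv using hinv
      obtain ⟨F, hF⟩ := exists_extend mulp.range hN
        (AddMonoidHom.mk' (fun b => f.hom (inv b)) fun b b' => by
          rw [← map_add]
          exact congrArg _ (hinj _ _ (by rw [map_add, hinv, hinv, hinv]; rfl)))
        fun b ⟨a, ha⟩ => by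
          show f.hom (inv b) = 0
          rw [hinj (inv b) (incl a) (by rw [hinv, ← ha]; rfl), hf']
      refine ⟨F, AddMonoidHom.ext fun x => ?_⟩
      show F (mulp x) = f.hom x
      refine (hF ⟨mulp x, x, rfl⟩).trans ?_
      show f.hom (inv _) = _
      exact congrArg _ (hinj _ _ (hinv _))
    · rintro ⟨h, rfl⟩
      refine AddMonoidHom.ext fun y => ?_
      show h.hom (mulp (incl y)) = 0
      rw [show mulp (incl y) = p • y from Subtype.ext rfl, map_nsmul, hN]
  · refine AddSubgroup.ext fun f => ⟨fun hf => ?_, ?_⟩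
    · have hf' : ∀ x : U.sub, f.hom (mulp x) = 0 := fun y =>
        DFunLike.congr_fun (congrArg HomMod.hom (hf : s f = 0)) y
      let B : AddSubgroup U.sub := U'.sub.comap U.sub.subtype
      obtain ⟨F, hF⟩ := exists_extend B hN
        (AddMonoidHom.mk' (fun b : B => f.hom ⟨b.1.1, b.2⟩) fun b b' => by
          rw [← map_add]; rfl)
        fun b ⟨a, ha⟩ => by
          show f.hom ⟨b.1.1, b.2⟩ = 0
          rw [← hf' a]
          exact congrArg _ (Subtype.ext (congrArg Subtype.val ha).symm)
      refine ⟨F, AddMonoidHom.ext fun y => ?_⟩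
      exact hF ⟨incl y, y.2⟩
    · rintro ⟨h, rfl⟩
      refine AddMonoidHom.ext fun y => ?_
      show h.hom (incl (mulp y)) = 0
      rw [show incl (mulp y) = p • y from Subtype.ext rfl, map_nsmul, hN]

include hW hN in
theorem chi_homMod_coprime (U U' : StableSub G L) (hle : U'.sub ≤ U.sub) (m : ℕ)
    (hm : m.Coprime p) (hmU : ∀ x ∈ U.sub, m • x ∈ U'.sub) :
    chi (G := G) W (HomMod U.sub N) = chi (G := G) W (HomMod U'.sub N) := by
  haveI := (finite_sub U).1; haveI := (finite_sub U).2
  haveI := (finite_sub U').1; haveI := (finite_sub U').2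
  haveI : Finite (HomMod U.sub N) := finite_homMod
  haveI : Finite (HomMod U'.sub N) := finite_homMod
  obtain ⟨v, -, hv⟩ := Nat.exists_mul_mod_eq_one_of_coprime hm (Fact.out : p.Prime).one_lt
  have hvN : ∀ n : N, (m * v) • n = n := fun n => by
    rw [← Nat.mod_add_div (m * v) p, hv, add_nsmul, one_nsmul, mul_nsmul, hN, nsmul_zero, add_zero]
  let incl : U'.sub →+ U.sub := AddSubgroup.inclusion hle
  let mm : U.sub →+ U'.sub := AddMonoidHom.mk' (fun x => ⟨m • x.1, hmU x.1 x.2⟩) fun x y =>
    Subtype.ext (nsmul_add x.1 y.1 m)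
  refine chi_congr hW (HomMod.nsmul_eq_zero hN)
    { toFun := fun f => f.hom.comp incl
      invFun := fun h => v • (h.hom.comp mm)
      left_inv := fun f => AddMonoidHom.ext fun x => ?_
      right_inv := fun h => AddMonoidHom.ext fun y => ?_
      map_add' := fun _ _ => rfl } fun g f => AddMonoidHom.ext fun x => rfl
  · show v • f.hom (incl (mm x)) = f.hom x
    rw [show incl (mm x) = m • x from Subtype.ext rfl, map_nsmul, ← mul_nsmul, hvN]
  · show v • h.hom (mm (incl y)) = h.hom y
    rw [show mm (incl y) = m • y from Subtype.ext rfl, map_nsmul, ← mul_nsmul, hvN]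

variable {X Y : Type} [MulAction G X] [MulAction G Y] [Fintype X] [Fintype Y]

omit [Finite N] in
theorem trivMod_decomp [DecidableEq X] (f : TrivMod X) :
    f = ∑ x, f x • (Pi.single x 1 : X → ℤ) := by
  refine funext fun z => ?_
  show f z = (∑ x, f x • (Pi.single x 1 : X → ℤ)) z
  rw [Finset.sum_apply, Finset.sum_eq_single z (fun x _ hx => by simp [hx.symm])
    fun h => absurd (Finset.mem_univ z) h]
  simp

include hW hN in
theorem chi_permMod_eq_homMod (X : Type) [MulAction G X] [Fintype X] :
    chi (G := G) W (PermMod X N) = chi (G := G) W (HomMod (TrivMod X) N) := by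
  classical
  haveI : Finite (HomMod (TrivMod X) N) := finite_homMod
  refine (chi_congr (G := G) (M := HomMod (TrivMod X) N) (M' := PermMod X N) hW
    (HomMod.nsmul_eq_zero hN)
    { toFun := fun f => fun x => f.hom (Pi.single x 1 : X → ℤ)
      invFun := fun h => AddMonoidHom.mk' (fun φ : TrivMod X => ∑ x, φ x • h x) fun φ ψ => by
        rw [← Finset.sum_add_distrib]
        exact Finset.sum_congr rfl fun x _ => add_smul (φ x) (ψ x) (h x)
      left_inv := fun f => AddMonoidHom.ext fun φ => ?_
      right_inv := fun h => PermMod.ext fun x => ?_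
      map_add' := fun _ _ => rfl } fun g f => PermMod.ext fun x => ?_).symm
  · show ∑ x, φ x • f.hom (Pi.single x 1 : X → ℤ) = f.hom φ
    conv_rhs => rw [trivMod_decomp φ]
    exact ((map_sum f.hom _ _).trans
      (Finset.sum_congr rfl fun x _ => map_zsmul f.hom _ _)).symm
  · show ∑ z, (Pi.single x 1 : X → ℤ) z • h z = h x
    rw [Finset.sum_eq_single x (fun z _ hz => by simp [hz]) fun h => absurd (Finset.mem_univ x) h]
    simp
  · show g • f.hom (g⁻¹ • (show TrivMod X from (Pi.single x 1 : X → ℤ))) =
      g • f.hom (Pi.single (g⁻¹ • x) 1 : X → ℤ)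
    congr 2
    refine funext fun z => ?_
    show (Pi.single x 1 : X → ℤ) ((g⁻¹)⁻¹ • z) = _
    simp only [inv_inv, Pi.single_apply, eq_inv_smul_iff]

include hW hN in
/-- Permutation modules with the same fixed point counts have the same characteristic. -/
theorem chi_permMod_eq_of_fix
    (h : ∀ g : G, Nat.card {x : X // g • x = x} = Nat.card {y : Y // g • y = y}) :
    chi (G := G) W (PermMod X N) = chi (G := G) W (PermMod Y N) := by
  classical
  obtain ⟨φ, hφ⟩ := exists_equiv_of_character_eq (permRep (G := G) X) (permRep (G := G) Y)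
    fun g => by
      rw [character_permRep, character_permRep]
      exact_mod_cast by simpa [Nat.card_eq_fintype_card, Fintype.card_subtype] using h g
  -- integral matrices
  obtain ⟨⟨d, hd⟩, hdi⟩ := IsLocalization.exist_integer_multiples_of_finite (nonZeroDivisors ℤ)
    (fun xy : X × Y => φ (Pi.single xy.1 1) xy.2)
  obtain ⟨⟨e, he⟩, hei⟩ := IsLocalization.exist_integer_multiples_of_finite (nonZeroDivisors ℤ)
    (fun yx : Y × X => φ.symm (Pi.single yx.1 1) yx.2)
  choose a ha using hdi
  choose b hb using hei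
  have hd0 : (d : ℚ) ≠ 0 := Int.cast_ne_zero.mpr (nonZeroDivisors.ne_zero hd)
  let cX : TrivMod X → (X → ℚ) := fun f x => (f x : ℚ)
  let cY : TrivMod Y → (Y → ℚ) := fun f y => (f y : ℚ)
  have hdec : ∀ {Z : Type} [Fintype Z] [DecidableEq Z] (F : Z → ℚ),
      F = ∑ z, F z • (Pi.single z 1 : Z → ℚ) := fun F => pi_eq_sum_univ' F
  let A : TrivMod X →+ TrivMod Y := AddMonoidHom.mk' (fun f y => ∑ x, f x * a (x, y)) fun f g =>
    funext fun y => by
      show ∑ x, (f x + g x) * a (x, y) = ∑ x, f x * a (x, y) + ∑ x, g x * a (x, y)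
      rw [← Finset.sum_add_distrib]
      exact Finset.sum_congr rfl fun x _ => add_mul _ _ _
  let B : TrivMod Y →+ TrivMod X := AddMonoidHom.mk' (fun f x => ∑ y, f y * b (y, x)) fun f g =>
    funext fun x => by
      show ∑ y, (f y + g y) * b (y, x) = ∑ y, f y * b (y, x) + ∑ y, g y * b (y, x)
      rw [← Finset.sum_add_distrib]
      exact Finset.sum_congr rfl fun y _ => add_mul _ _ _
  have hA : ∀ f, cY (A f) = (d : ℚ) • φ (cX f) := fun f => funext fun y => by
    conv_rhs => rw [hdec (cX f)]
    rw [map_sum, Pi.smul_apply, Finset.sum_apply, Finset.smul_sum]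
    show ((∑ x, f x * a (x, y) : ℤ) : ℚ) = _
    push_cast
    refine Finset.sum_congr rfl fun x _ => ?_
    have := ha (x, y)
    simp only [Algebra.smul_def, eq_intCast,
      algebraMap_int_eq] at this
    rw [map_smul, Pi.smul_apply, this]
    simp [cX, smul_eq_mul]; ring
  have hB : ∀ f, cX (B f) = (e : ℚ) • φ.symm (cY f) := fun f => funext fun x => by
    conv_rhs => rw [hdec (cY f)]
    rw [map_sum, Pi.smul_apply, Finset.sum_apply, Finset.smul_sum]
    show ((∑ y, f y * b (y, x) : ℤ) : ℚ) = _
    push_cast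
    refine Finset.sum_congr rfl fun y _ => ?_
    have := hb (y, x)
    simp only [Algebra.smul_def, eq_intCast,
      algebraMap_int_eq] at this
    rw [map_smul, Pi.smul_apply, this]
    simp [cY, smul_eq_mul]; ring
  have cYinj : Function.Injective cY := fun f g h => funext fun y => by
    exact Int.cast_inj.mp (congrFun h y)
  have hAinj : Function.Injective A := fun f g h => funext fun x => by
    have h1 := congrArg cY h
    rw [hA, hA] at h1
    exact Int.cast_inj.mp (congrFun (φ.injective (smul_right_injective _ hd0 h1)) x)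
  have hAeq : A ∈ eqHom G (TrivMod X) (TrivMod Y) := fun g f => cYinj (by
    rw [hA, show cX (g • f) = permRep X g (cX f) from rfl, hφ,
      show cY (g • A f) = permRep Y g (cY (A f)) from rfl, hA, map_smul])
  have hAB : ∀ f, A (B f) = (d * e) • f := fun f => cYinj (by
    rw [hA, hB, map_smul, LinearEquiv.apply_symm_apply, smul_smul]
    funext y
    simp [cY, show ∀ (k : ℤ) (F : TrivMod Y), (k • F) y = k * F y from fun k F => rfl])
  have hm0 : (d * e).natAbs ≠ 0 := by
    simpa using mul_ne_zero (nonZeroDivisors.ne_zero hd) (nonZeroDivisors.ne_zero he)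
  have hrange : ∀ f : TrivMod Y, (d * e).natAbs • f ∈ A.range := fun f => by
    rcases Int.natAbs_eq (d * e) with h' | h'
    · exact ⟨B f, by rw [hAB]; conv_lhs => rw [h', natCast_zsmul]⟩
    · refine ⟨-(B f), ?_⟩
      rw [map_neg, hAB]
      conv_lhs => rw [h', neg_zsmul, neg_neg, natCast_zsmul]
  obtain ⟨k, m', hm', hkm⟩ := Nat.exists_eq_pow_mul_and_not_dvd hm0 p (Fact.out : p.Prime).ne_one
  -- the chain `range A + pʲ L`
  obtain ⟨Lj, hLj⟩ : ∃ Lj : ℕ → StableSub G (TrivMod Y),
      ∀ j, (Lj j).sub = A.range ⊔ (nsmulAddMonoidHom (p ^ j)).range :=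
    ⟨fun j =>
    { sub := A.range ⊔ (nsmulAddMonoidHom (p ^ j)).range
      smul_mem := fun g x hx => by
        obtain ⟨_, ⟨f, rfl⟩, _, ⟨z, rfl⟩, rfl⟩ := AddSubgroup.mem_sup.mp hx
        rw [smul_add]
        exact AddSubgroup.add_mem_sup ⟨g • f, hAeq g f⟩ ⟨g • z, (smul_comm g (p ^ j) z).symm⟩ },
      fun _ => rfl⟩
  have hle : ∀ j, (Lj (j + 1)).sub ≤ (Lj j).sub := fun j => by
    rw [hLj, hLj]
    refine sup_le_sup_left (by
      rintro _ ⟨z, rfl⟩
      exact ⟨p • z, by simp [pow_succ, mul_nsmul']⟩) _
  have hp : ∀ j, ∀ x ∈ (Lj j).sub, p • x ∈ (Lj (j + 1)).sub := fun j x hx => by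
    rw [hLj] at hx ⊢
    obtain ⟨u, hu, _, ⟨z, rfl⟩, rfl⟩ := AddSubgroup.mem_sup.mp hx
    rw [nsmul_add]
    refine AddSubgroup.add_mem_sup (AddSubgroup.nsmul_mem _ hu p) ⟨z, ?_⟩
    simp [pow_succ', mul_nsmul']
  have hchain : ∀ j, chi (G := G) W (HomMod (Lj 0).sub N) =
      chi (G := G) W (HomMod (Lj j).sub N) := fun j => by
    induction j with
    | zero => rfl
    | succ j ih => rw [ih, chi_homMod_step hW hN _ _ (hle j) (hp j)]
  obtain ⟨R, hR⟩ : ∃ R : StableSub G (TrivMod Y), R.sub = A.range :=
    ⟨{ sub := A.range, smul_mem := fun g x ⟨f, hf⟩ => ⟨g • f, by rw [hAeq g f, hf]⟩ }, rfl⟩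
  have hlast : chi (G := G) W (HomMod (Lj k).sub N) = chi (G := G) W (HomMod R.sub N) := by
    refine chi_homMod_coprime hW hN _ _ ((hR.trans_le le_sup_left).trans_eq (hLj k).symm) m'
      (Nat.Coprime.symm ((Fact.out : p.Prime).coprime_iff_not_dvd.mpr hm')) fun x hx => ?_
    rw [hLj] at hx
    rw [hR]
    obtain ⟨u, hu, _, ⟨z, rfl⟩, rfl⟩ := AddSubgroup.mem_sup.mp hx
    rw [nsmul_add]
    refine A.range.add_mem (A.range.nsmul_mem hu m') ?_
    rw [nsmulAddMonoidHom_apply, ← mul_nsmul, ← hkm]
    exact hrange z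
  haveI := (finite_sub (Lj 0)).1; haveI := (finite_sub (Lj 0)).2
  haveI := (finite_sub R).1; haveI := (finite_sub R).2
  haveI : Finite (HomMod (TrivMod X) N) := finite_homMod
  haveI : Finite (HomMod (TrivMod Y) N) := finite_homMod
  haveI : Finite (HomMod (Lj 0).sub N) := finite_homMod
  haveI : Finite (HomMod R.sub N) := finite_homMod
  have h0 : chi (G := G) W (HomMod (TrivMod Y) N) = chi (G := G) W (HomMod (Lj 0).sub N) := by
    have htop : ∀ y : TrivMod Y, y ∈ (Lj 0).sub := fun y =>
      hLj 0 ▸ AddSubgroup.mem_sup_right ⟨y, by simp⟩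
    exact chi_congr hW (HomMod.nsmul_eq_zero hN)
      { toFun := fun f => f.hom.comp (Lj 0).sub.subtype
        invFun := fun f => f.hom.comp
          (AddMonoidHom.mk' (fun y => (⟨y, htop y⟩ : (Lj 0).sub)) fun _ _ => rfl)
        left_inv := fun f => AddMonoidHom.ext fun _ => rfl
        right_inv := fun f => AddMonoidHom.ext fun _ => rfl
        map_add' := fun _ _ => rfl } fun g f => AddMonoidHom.ext fun y => rfl
  have h1 : chi (G := G) W (HomMod R.sub N) = chi (G := G) W (HomMod (TrivMod X) N) := by
    let eA : TrivMod X ≃+ R.sub :=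
      (AddMonoidHom.ofInjective hAinj).trans (AddEquiv.addSubgroupCongr hR.symm)
    exact chi_congr hW (HomMod.nsmul_eq_zero hN)
      { toFun := fun f => f.hom.comp eA.toAddMonoidHom
        invFun := fun f => f.hom.comp eA.symm.toAddMonoidHom
        left_inv := fun f => AddMonoidHom.ext fun y =>
          congrArg f.hom (eA.apply_symm_apply y)
        right_inv := fun f => AddMonoidHom.ext fun y =>
          congrArg f.hom (eA.symm_apply_apply y)
        map_add' := fun _ _ => rfl } fun g f => AddMonoidHom.ext fun y => by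
          show g • f.hom (g⁻¹ • eA y) = g • f.hom (eA (g⁻¹ • y))
          congr 2
          exact Subtype.ext (hAeq g⁻¹ y).symm
  rw [chi_permMod_eq_homMod hW hN X, chi_permMod_eq_homMod hW hN Y, h0, hchain k, hlast, h1]

/-! ### Artin's identity -/

section Identity

omit [Finite N]

/-- The permutation character of `G ⧸ C`. -/
def fixCount (C : Subgroup G) : G → ℤ := fun g => (Nat.card {x : G ⧸ C // g • x = x} : ℤ)

/-- The number of conjugators carrying `g` to a generator of `C`. -/
def genCount (C : Subgroup G) : G → ℤ := fun g =>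
  (Nat.card {x : G // Subgroup.zpowers (x⁻¹ * g * x) = C} : ℤ)

theorem card_mul_fixCount (C : Subgroup G) (g : G) :
    (Nat.card C : ℤ) * fixCount C g = Nat.card {x : G // x⁻¹ * g * x ∈ C} := by
  classical
  have hiff : ∀ x : G, g • (x : G ⧸ C) = (x : G ⧸ C) ↔ x⁻¹ * g * x ∈ C := fun x => by
    rw [eq_comm, MulAction.Quotient.smul_mk, QuotientGroup.eq, smul_eq_mul, mul_assoc]
  have e : {x : G // x⁻¹ * g * x ∈ C} ≃ {q : G ⧸ C // g • q = q} × C :=
    { toFun := fun x => (⟨(x.1 : G ⧸ C), (hiff x.1).mpr x.2⟩,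
        ⟨(Quotient.out (x.1 : G ⧸ C) : G)⁻¹ * x.1,
          QuotientGroup.eq.mp (QuotientGroup.out_eq' _)⟩)
      invFun := fun qc => ⟨(Quotient.out qc.1.1 : G) * qc.2, by
        rw [← hiff]
        have : (((Quotient.out qc.1.1 : G) * qc.2 : G) : G ⧸ C) = qc.1.1 := by
          rw [QuotientGroup.mk_mul_of_mem _ qc.2.2, QuotientGroup.out_eq']
        rw [this]; exact qc.1.2⟩
      left_inv := fun x => Subtype.ext (mul_inv_cancel_left _ _)
      right_inv := fun qc => by
        have : (((Quotient.out qc.1.1 : G) * qc.2 : G) : G ⧸ C) = qc.1.1 := by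
          rw [QuotientGroup.mk_mul_of_mem _ qc.2.2, QuotientGroup.out_eq']
        refine Prod.ext (Subtype.ext this) (Subtype.ext ?_)
        show (Quotient.out _ : G)⁻¹ * ((Quotient.out qc.1.1 : G) * qc.2) = qc.2
        rw [this, inv_mul_cancel_left] }
  rw [Nat.card_congr e, Nat.card_prod, fixCount]
  push_cast; ring

open Classical in
theorem card_eq_sum_genCount (g : G) (Q : Subgroup G → Prop) :
    (Nat.card {x : G // Q (Subgroup.zpowers (x⁻¹ * g * x))} : ℤ) =
      ∑ C ∈ Finset.univ.filter (fun C : Subgroup G => IsCyclic C ∧ Q C), genCount C g := by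
  simp only [genCount, Nat.card_eq_fintype_card, Fintype.card_subtype]
  rw [Finset.card_eq_sum_card_fiberwise (f := fun x : G => Subgroup.zpowers (x⁻¹ * g * x))
    (t := Finset.univ.filter fun C : Subgroup G => IsCyclic C ∧ Q C) (fun x hx => ?_)]
  · push_cast
    refine Finset.sum_congr rfl fun C hC => ?_
    rw [Finset.filter_filter]
    congr 1
    refine congrArg Finset.card (Finset.filter_congr fun x _ => and_iff_right_of_imp fun h => ?_)
    rw [h]; exact (Finset.mem_filter.mp hC).2.2
  · simp only [Finset.coe_filter, Set.mem_ofPred_eq, Finset.mem_univ, true_and] at hx ⊢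
    exact ⟨inferInstance, hx⟩

/-- The span of the cyclic permutation characters. -/
def cycSpan : AddSubgroup (G → ℤ) :=
  AddSubgroup.closure (fixCount '' {C : Subgroup G | IsCyclic C})

theorem genCount_mem (C : Subgroup G) (hC : IsCyclic C) : genCount C ∈ cycSpan (G := G) := by
  classical
  induction hn : Nat.card C using Nat.strong_induction_on generalizing C with
  | _ n ih =>
    let S := (Finset.univ.filter fun D : Subgroup G => IsCyclic D ∧ D ≤ C).erase C
    have e : genCount C = (Nat.card C : ℤ) • fixCount C - ∑ D ∈ S, genCount D := funext fun g => by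
      rw [Pi.sub_apply, Pi.smul_apply, smul_eq_mul, card_mul_fixCount, Finset.sum_apply]
      have h1 := card_eq_sum_genCount g (fun D : Subgroup G => D ≤ C)
      simp only [Subgroup.zpowers_le] at h1
      rw [h1, ← Finset.sum_erase_add _ _ (Finset.mem_filter.mpr
        ⟨Finset.mem_univ C, hC, le_refl C⟩)]
      ring
    rw [e]
    refine cycSpan.sub_mem (cycSpan.zsmul_mem (AddSubgroup.subset_closure ⟨C, hC, rfl⟩) _)
      (cycSpan.sum_mem fun D hD => ?_)
    obtain ⟨hne, hD1, hD2⟩ := by simpa [S] using hD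
    exact ih _ (hn ▸ Nat.lt_of_le_of_ne (Subgroup.card_le_of_le hD2) fun h =>
      hne (Subgroup.eq_of_le_of_card_ge hD2 h.ge)) D hD1 rfl

theorem const_card_mem : (fun _ : G => (Nat.card G : ℤ)) ∈ cycSpan (G := G) := by
  classical
  have e : (fun _ : G => (Nat.card G : ℤ)) =
      ∑ C ∈ Finset.univ.filter (fun C : Subgroup G => IsCyclic C ∧ True), genCount C :=
    funext fun g => by
      rw [Finset.sum_apply]
      refine Eq.trans ?_ (by convert card_eq_sum_genCount g fun _ => True)
      exact_mod_cast (Nat.card_congr (Equiv.subtypeUnivEquiv fun _ => trivial)).symm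
  rw [e]
  exact cycSpan.sum_mem fun C hC => genCount_mem C (Finset.mem_filter.mp hC).2.1

theorem exists_lists {h : G → ℤ} (hh : h ∈ cycSpan (G := G)) :
    ∃ l₁ l₂ : List (Subgroup G), (∀ C ∈ l₁, IsCyclic C) ∧ (∀ C ∈ l₂, IsCyclic C) ∧
      h = (l₁.map fixCount).sum - (l₂.map fixCount).sum := by
  induction hh using AddSubgroup.closure_induction with
  | mem f hf =>
    obtain ⟨C, hC, rfl⟩ := hf
    exact ⟨[C], [], fun D hD => by simp at hD; exact hD ▸ hC, by simp, by simp⟩
  | zero => exact ⟨[], [], by simp, by simp, by simp⟩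
  | add f f' _ _ ih ih' =>
    obtain ⟨a, b, ha, hb, rfl⟩ := ih
    obtain ⟨a', b', ha', hb', rfl⟩ := ih'
    refine ⟨a ++ a', b ++ b', fun C hC => (List.mem_append.mp hC).elim (ha C) (ha' C),
      fun C hC => (List.mem_append.mp hC).elim (hb C) (hb' C), ?_⟩
    simp only [List.map_append, List.sum_append]; abel
  | neg f _ ih =>
    obtain ⟨a, b, ha, hb, rfl⟩ := ih
    exact ⟨b, a, hb, ha, by abel⟩

end Identity

/-! ### Conclusion -/

include hW hN in
theorem chi_coset_cyclic (hloc : LocalEuler (G := G) p W N) (C : Subgroup G) (hC : IsCyclic C) :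
    chi (G := G) W (PermMod (G ⧸ C) N) = 1 := by
  induction hn : Nat.card C using Nat.strong_induction_on generalizing C with
  | _ n ih =>
    by_cases hco : (Nat.card C).Coprime p
    · exact chi_coset_eq_one hW hN hloc C hco
    obtain ⟨⟨t, ht⟩, hgen⟩ := hC.exists_generator
    have hzC : Subgroup.zpowers t = C := le_antisymm (Subgroup.zpowers_le.mpr ht) fun c hc => by
      obtain ⟨i, hi⟩ := Subgroup.mem_zpowers_iff.mp (hgen ⟨c, hc⟩)
      exact Subgroup.mem_zpowers_iff.mpr ⟨i, by simpa using congrArg Subtype.val hi⟩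
    have hpt : p ∣ orderOf t := by
      rw [← Nat.card_zpowers, hzC]
      by_contra h
      exact hco ((Fact.out : p.Prime).coprime_iff_not_dvd.mpr h).symm
    have hcomm : ∀ c ∈ Subgroup.zpowers (t ^ p), t * c * t⁻¹ = c ∧ t⁻¹ * c * t = c := fun c hc => by
      obtain ⟨i, rfl⟩ := Subgroup.mem_zpowers_iff.mp hc
      have h : Commute t ((t ^ p) ^ i) := ((Commute.refl t).pow_right p).zpow_right i
      exact ⟨by rw [h.eq, mul_inv_cancel_right], by rw [mul_assoc, ← h.eq, inv_mul_cancel_left]⟩
    have hpp : 0 < p := (Fact.out : p.Prime).pos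
    have key := chi_coset_pow hW hN (Subgroup.zpowers (t ^ p)) C t
      (Subgroup.zpowers_le.mpr (C.pow_mem ht p)) ht
      (fun c => ⟨fun hc => ((hcomm c hc).2).symm ▸ hc, fun hc => by
        have h := (hcomm _ hc).1
        rw [show t * (t⁻¹ * c * t) * t⁻¹ = c by group] at h
        exact h.symm ▸ hc⟩)
      (fun c hc => by
        obtain ⟨i, rfl⟩ := Subgroup.mem_zpowers_iff.mp (hzC.symm ▸ hc : c ∈ Subgroup.zpowers t)
        refine ⟨(i % p).toNat, ?_, Subgroup.mem_zpowers_iff.mpr ⟨-(i / p), ?_⟩⟩
        · have := Int.emod_lt_of_pos i (Int.natCast_pos.mpr hpp); omega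
        · rw [← zpow_natCast t p, ← zpow_mul, ← zpow_natCast t, Int.toNat_of_nonneg
            (Int.emod_nonneg _ (by omega)), ← zpow_neg, ← zpow_add]
          congr 1
          linarith [Int.emod_def i p])
      (fun i hi h => by
        obtain ⟨j, hj⟩ := Subgroup.mem_zpowers_iff.mp h
        rw [← zpow_natCast t p, ← zpow_mul, ← zpow_natCast t i] at hj
        have h1 := (orderOf_dvd_iff_zpow_eq_one (x := t) (i := (p : ℤ) * j - i)).mpr (by
          rw [zpow_sub, hj, mul_inv_cancel])
        have h2 : (p : ℤ) ∣ (i : ℤ) := by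
          have h3 := (Int.natCast_dvd_natCast.mpr hpt).trans h1
          simpa using (dvd_sub (dvd_mul_right (p : ℤ) j) h3)
        exact Nat.eq_zero_of_dvd_of_lt (Int.natCast_dvd_natCast.mp h2) hi)
      (Subgroup.mem_zpowers _)
    have hlt : Nat.card (Subgroup.zpowers (t ^ p)) < n := by
      rw [← hn, ← hzC, Nat.card_zpowers, Nat.card_zpowers,
        orderOf_pow' t hpp.ne', Nat.gcd_eq_right hpt]
      exact Nat.div_lt_self (orderOf_pos t) (Fact.out : p.Prime).one_lt
    rw [ih _ hlt _ (Subgroup.isCyclic_zpowers _) rfl] at key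
    exact (pow_eq_one_iff_of_nonneg (hW.chi_pos (PermMod.nsmul_eq_zero hN)).le
      (Fact.out : p.Prime).ne_zero).mp key.symm

/-- The disjoint union of coset spaces. -/
def CosetUnion : List (Subgroup G) → Type
  | [] => Empty
  | C :: l => (G ⧸ C) ⊕ CosetUnion l

instance cosetUnionAction : ∀ l : List (Subgroup G), MulAction G (CosetUnion l)
  | [] =>
    { smul := fun _ x => x
      one_smul := fun x => x.elim
      mul_smul := fun _ _ x => x.elim }
  | C :: l =>
    haveI := cosetUnionAction l
    { smul := fun g x => Sum.map (g • ·) (g • ·) x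
      one_smul := fun x => by
        cases x with
        | inl a => exact congrArg Sum.inl (one_smul G a)
        | inr a => exact congrArg Sum.inr (one_smul G a)
      mul_smul := fun g h x => by
        cases x with
        | inl a => exact congrArg Sum.inl (mul_smul g h a)
        | inr a => exact congrArg Sum.inr (mul_smul g h a) }

instance cosetUnionFintype : ∀ l : List (Subgroup G), Fintype (CosetUnion l)
  | [] => inferInstanceAs (Fintype Empty)
  | C :: l =>
    haveI := cosetUnionFintype l
    haveI : Fintype (G ⧸ C) := Fintype.ofFinite _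
    inferInstanceAs (Fintype ((G ⧸ C) ⊕ CosetUnion l))

omit [Finite N] in
theorem card_fix_cosetUnion (g : G) : ∀ l : List (Subgroup G),
    (Nat.card {x : CosetUnion l // g • x = x} : ℤ) = (l.map fixCount).sum g
  | [] => by
    haveI : IsEmpty {x : CosetUnion ([] : List (Subgroup G)) // g • x = x} :=
      ⟨fun x => x.1.elim⟩
    simp
  | C :: l => by
    have e : {x : CosetUnion (C :: l) // g • x = x} ≃
        {x : G ⧸ C // g • x = x} ⊕ {x : CosetUnion l // g • x = x} :=
      { toFun := fun x => match x with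
          | ⟨Sum.inl a, h⟩ => Sum.inl ⟨a, Sum.inl.inj h⟩
          | ⟨Sum.inr a, h⟩ => Sum.inr ⟨a, Sum.inr.inj h⟩
        invFun := fun x => match x with
          | Sum.inl a => ⟨Sum.inl a.1, congrArg Sum.inl a.2⟩
          | Sum.inr a => ⟨Sum.inr a.1, congrArg Sum.inr a.2⟩
        left_inv := by rintro ⟨a | a, h⟩ <;> rfl
        right_inv := by rintro (a | a) <;> rfl }
    rw [Nat.card_congr e, Nat.card_sum, List.map_cons, List.sum_cons, Pi.add_apply,
      ← card_fix_cosetUnion g l]
    push_cast
    rfl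

include hW hN in
theorem chi_cosetUnion : ∀ l : List (Subgroup G),
    chi (G := G) W (PermMod (CosetUnion l) N) =
      (l.map fun C => chi (G := G) W (PermMod (G ⧸ C) N)).prod
  | [] => by
    haveI : Subsingleton (PermMod (CosetUnion ([] : List (Subgroup G))) N) :=
      inferInstanceAs (Subsingleton (Empty → N))
    rw [chi_subsingleton hW]; simp
  | C :: l => by
    have e := chi_permMod_congr hW hN (X := CosetUnion (C :: l)) (Y := (G ⧸ C) ⊕ CosetUnion l)
      (Equiv.refl _) fun g x => by cases x <;> rfl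
    rw [e, chi_permMod_sum hW hN, chi_cosetUnion l, List.map_cons, List.prod_cons]

include hW hN in
/-- **The Euler characteristic is one.** -/
theorem chi_eq_one (hloc : LocalEuler (G := G) p W N) : chi (G := G) W N = 1 := by
  obtain ⟨l₁, l₂, h₁, h₂, h⟩ := exists_lists (const_card_mem (G := G))
  let lT : List (Subgroup G) := List.replicate (Nat.card G) ⊤ ++ l₂
  have htop : fixCount (⊤ : Subgroup G) = fun _ => 1 := funext fun g => by
    haveI : Subsingleton (G ⧸ (⊤ : Subgroup G)) :=
      QuotientGroup.subsingleton_quotient_top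
    haveI : Unique {x : G ⧸ (⊤ : Subgroup G) // g • x = x} :=
      ⟨⟨⟨((1 : G) : G ⧸ (⊤ : Subgroup G)), Subsingleton.elim _ _⟩⟩, fun x => Subsingleton.elim _ _⟩
    simp [fixCount]
  have hfix : ∀ g : G, Nat.card {x : CosetUnion lT // g • x = x} =
      Nat.card {x : CosetUnion l₁ // g • x = x} := fun g => by
    have h' := congrFun h g
    rw [Pi.sub_apply, eq_sub_iff_add_eq] at h'
    zify
    rw [card_fix_cosetUnion, card_fix_cosetUnion, ← h']
    simp [lT, List.map_replicate, List.sum_replicate, htop]
  have h1 := chi_permMod_eq_of_fix hW hN hfix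
  rw [chi_cosetUnion hW hN, chi_cosetUnion hW hN] at h1
  have hone : ∀ l : List (Subgroup G), (∀ C ∈ l, IsCyclic C) →
      (l.map fun C => chi (G := G) W (PermMod (G ⧸ C) N)).prod = 1 := fun l hl =>
    List.prod_eq_one fun x hx => by
      obtain ⟨C, hC, rfl⟩ := List.mem_map.mp hx
      exact chi_coset_cyclic hW hN hloc C (hl C hC)
  rw [hone l₁ h₁, List.map_append, List.prod_append, hone l₂ h₂, mul_one, List.map_replicate,
    List.prod_replicate] at h1
  have htop' : chi (G := G) W (PermMod (G ⧸ (⊤ : Subgroup G)) N) = chi (G := G) W N := by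
    haveI : Subsingleton (G ⧸ (⊤ : Subgroup G)) :=
      QuotientGroup.subsingleton_quotient_top
    refine (chi_congr hW hN
      { toFun := fun n => PermMod.mk fun _ => n
        invFun := fun f => f ((1 : G) : G ⧸ (⊤ : Subgroup G))
        left_inv := fun n => rfl
        right_inv := fun f => PermMod.ext fun x => congrArg f (Subsingleton.elim _ _)
        map_add' := fun _ _ => rfl } fun g n => rfl).symm
  rw [← htop']
  exact (pow_eq_one_iff_of_nonneg (hW.chi_pos (PermMod.nsmul_eq_zero hN)).le
    Nat.card_pos.ne').mp h1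

end FLTAgent.TW.Coh
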