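import Fermat.Agent.TW.Coh.PGroup

/-!
# Traces from a Sylow subgroup, functoriality of `Ext1`, Higman's criterion

Over a group whose Sylow subgroup has trivial cohomology on `W`: every class is the class of a
trace (`Ext1.exists_trace`) and pullback to a submodule is surjective (`Ext1.comap_surjective`).
If the identity of `N` is a trace, `Ext1_G(N, W)` is `Hom_G(N, W / p)` (`card_ext1_of_theta`).
-/

set_option autoImplicit false
set_option linter.unusedSectionVars false
set_option linter.style.haveILetI false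

noncomputable section

namespace FLTAgent.TW.Coh

variable {G : Type} [Group G] [Fintype G]
variable {N N' N'' : Type} [AddCommGroup N] [DistribMulAction G N] [AddCommGroup N']
  [DistribMulAction G N'] [AddCommGroup N''] [DistribMulAction G N'']
variable {A W : Type} [AddCommGroup A] [DistribMulAction G A] [AddCommGroup W]
  [DistribMulAction G W]

instance [Finite N] : Module.Finite ℤ (Free G N) :=
  haveI : Module.Finite ℤ ((G × N) →₀ ℤ) := Module.Finite.of_basis Finsupp.basisSingleOne
  Module.Finite.equiv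
    (AddEquiv.refl ((G × N) →₀ ℤ) : ((G × N) →₀ ℤ) ≃+ Free G N).toIntLinearEquiv

instance : Module.Free ℤ (Free G N) :=
  haveI : Module.Free ℤ ((G × N) →₀ ℤ) := Module.Free.of_basis Finsupp.basisSingleOne
  Module.Free.of_equiv
    (AddEquiv.refl ((G × N) →₀ ℤ) : ((G × N) →₀ ℤ) ≃+ Free G N).toIntLinearEquiv

theorem free_addSubgroup {M : Type} [AddCommGroup M] [Module.Free ℤ M] [Module.Finite ℤ M]
    (U : AddSubgroup M) : Module.Free ℤ U := by
  let b := Module.finBasis ℤ M
  haveI : Module.Free ℤ (AddSubgroup.toIntSubmodule U) :=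
    Module.Free.of_basis (Submodule.basisOfPid b (AddSubgroup.toIntSubmodule U)).2
  exact Module.Free.of_equiv (M := AddSubgroup.toIntSubmodule U) (M' := U)
    (AddEquiv.refl U : (AddSubgroup.toIntSubmodule U) ≃+ U).toIntLinearEquiv

/-! ### Traces -/

section Trace

variable {p : ℕ} [Fact p.Prime] (P : Subgroup G)

theorem htrace_eq_index_nsmul {f f' : N →+ W} (hf : f ∈ eqHom G N W)
    [Fintype P] (h : htrace P f' = f) : htrace G f' = P.index • f := by
  classical
  have e : htrace G f' = ∑ c : G ⧸ P, hconj (Quotient.out c) (htrace P f') := by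
    simp only [htrace_apply, map_sum]
    rw [← Fintype.sum_prod_type']
    symm
    refine Fintype.sum_bijective (fun x : (G ⧸ P) × P => Quotient.out x.1 * (x.2 : G)) ?_ _ _
      fun x => (hconj_mul _ _ _).symm.trans (DFunLike.congr_fun rfl _)
    refine (Fintype.bijective_iff_injective_and_card _).mpr ⟨fun x y h => ?_, ?_⟩
    · have h1 : x.1 = y.1 := by
        have h2 := congrArg (fun z : G => (z : G ⧸ P)) h
        simpa [QuotientGroup.mk_mul_of_mem] using h2
      refine Prod.ext h1 (Subtype.ext ?_)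
      simpa [h1] using h
    · rw [Fintype.card_prod, ← Nat.card_eq_fintype_card, ← Nat.card_eq_fintype_card,
        ← Nat.card_eq_fintype_card]
      exact (Subgroup.card_eq_card_quotient_mul_card_subgroup P).symm
  rw [e, h]
  simp only [hconj_eq_self hf, Finset.sum_const, Finset.card_univ]
  rw [Subgroup.index, Nat.card_eq_fintype_card]

/-- Every class in `Ext1` of a `p`-torsion module is the class of a trace. -/
theorem Ext1.exists_trace [Finite N] [Fintype P] (hP : IsPGroup p P) (hidx : P.index.Coprime p)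
    (hW1 : H1Zero P W) (hW0 : TraceSurj P W) (hN : ∀ n : N, p • n = 0) (c : Ext1 G N W) :
    ∃ g : Rel G N →+ W, c = Ext1.mk ⟨htrace G g, htrace_mem g⟩ := by
  induction c using Ext1.induction with
  | _ f =>
    haveI : Module.Free ℤ (Rel G N) := free_addSubgroup _
    obtain ⟨g, hg⟩ := exists_trace_eq (Y := Rel G N) hP hW1 hW0 (f := f.1) fun g y => f.2 g y
    have hg' := htrace_eq_index_nsmul P f.2 hg
    obtain ⟨u, -, hu⟩ := Nat.exists_mul_mod_eq_one_of_coprime hidx (Fact.out : p.Prime).one_lt
    refine ⟨u • g, ?_⟩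
    have h2 : (⟨htrace G (u • g), htrace_mem _⟩ : eqHom G (Rel G N) W) = (P.index * u) • f :=
      Subtype.ext (by
        show htrace G (u • g) = (P.index * u) • f.1
        rw [map_nsmul, hg', ← mul_nsmul])
    rw [h2, map_nsmul, ← Nat.mod_add_div (P.index * u) p, hu, add_nsmul, one_nsmul, mul_nsmul,
      Ext1.nsmul_eq_zero hN, nsmul_zero, add_zero]

end Trace

/-! ### Functoriality in the first variable -/

/-- The map of free modules induced by a map of bases. -/
def Free.map (α : N' → N) : Free G N' →+ Free G N := Free.eqLift fun n => Free.of 1 (α n)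

@[simp] theorem Free.map_of (α : N' → N) (g : G) (n : N') :
    Free.map α (Free.of g n : Free G N') = Free.of g (α n) := by
  simp [Free.map, Free.eqLift_of]

theorem Free.map_mem (α : N' → N) : Free.map α ∈ eqHom G (Free G N') (Free G N) :=
  Free.eqLift_mem _

theorem Free.map_map (α : N' → N) (β : N'' → N') (x : Free G N'') :
    Free.map α (Free.map β x) = Free.map (α ∘ β) x :=
  DFunLike.congr_fun (Free.hom_ext (f := (Free.map α).comp (Free.map β))
    (f' := Free.map (α ∘ β)) fun g n => by simp) x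

theorem Free.map_id (x : Free G N) : Free.map (id : N → N) x = x :=
  DFunLike.congr_fun (Free.hom_ext (f := Free.map (id : N → N)) (f' := AddMonoidHom.id _)
    fun g n => by simp) x

theorem proj_map (α : N' →+ N) (hα : α ∈ eqHom G N' N) (x : Free G N') :
    proj G N (Free.map α x) = α (proj G N' x) :=
  DFunLike.congr_fun (Free.hom_ext (f := (proj G N).comp (Free.map α))
    (f' := α.comp (proj G N')) fun g n => by simp [hα g n]) x

/-- The map of relation modules. -/
def Rel.map (α : N' →+ N) (hα : α ∈ eqHom G N' N) : Rel G N' →+ Rel G N :=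
  ((Free.map α).comp (Rel G N').subtype).codRestrict _ fun y => by
    rw [mem_rel_iff, AddMonoidHom.comp_apply, AddSubgroup.subtype_apply, proj_map α hα,
      mem_rel_iff.mp y.2, map_zero]

@[simp] theorem Rel.coe_map (α : N' →+ N) (hα : α ∈ eqHom G N' N) (y : Rel G N') :
    (Rel.map α hα y : Free G N) = Free.map α (y : Free G N') := rfl

theorem Rel.map_mem (α : N' →+ N) (hα : α ∈ eqHom G N' N) :
    Rel.map α hα ∈ eqHom G (Rel G N') (Rel G N) :=
  fun g y => Subtype.ext (Free.map_mem α g y.1)

/-- Pull back of equivariant maps. -/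
def homComap (α : N' →+ N) (hα : α ∈ eqHom G N' N) : eqHom G N A →+ eqHom G N' A where
  toFun f := ⟨f.1.comp α, comp_mem_eqHom f.2 hα⟩
  map_zero' := rfl
  map_add' _ _ := rfl

/-- Pull back of classes. -/
def Ext1.comap (α : N' →+ N) (hα : α ∈ eqHom G N' N) : Ext1 G N A →+ Ext1 G N' A :=
  QuotientAddGroup.map _ _ (homComap (Rel.map α hα) (Rel.map_mem α hα)) (by
    rintro _ ⟨D, rfl⟩
    exact ⟨⟨D.1.comp (Free.map α), comp_mem_eqHom D.2 (Free.map_mem _)⟩, rfl⟩)

theorem Ext1.comap_mk (α : N' →+ N) (hα : α ∈ eqHom G N' N) (f : eqHom G (Rel G N) A) :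
    Ext1.comap α hα (Ext1.mk f) =
      Ext1.mk ⟨f.1.comp (Rel.map α hα), comp_mem_eqHom f.2 (Rel.map_mem α hα)⟩ := rfl

/-- `Ext1` is surjective onto the one of a submodule. -/
theorem Ext1.comap_surjective [Finite N] [Finite N'] {p : ℕ} [Fact p.Prime] (P : Subgroup G) [Fintype P]
    (hP : IsPGroup p P) (hidx : P.index.Coprime p) (hW1 : H1Zero P W) (hW0 : TraceSurj P W)
    (ι : N' →+ N) (hι : ι ∈ eqHom G N' N) (hinj : Function.Injective ι)
    (hN' : ∀ n : N', p • n = 0) :
    Function.Surjective (Ext1.comap ι hι : Ext1 G N W →+ Ext1 G N' W) := fun c => by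
  classical
  obtain ⟨g, rfl⟩ := Ext1.exists_trace P hP hidx hW1 hW0 hN' c
  let ρ : Free G N →+ Free G N' :=
    Free.lift fun g n => if h : ∃ n', ι n' = n then Free.of g h.choose else 0
  have hρ : ∀ x, ρ (Free.map ι x) = x := fun x =>
    DFunLike.congr_fun (Free.hom_ext (f := ρ.comp (Free.map ι)) (f' := AddMonoidHom.id _)
      fun g n => by
        have h : ∃ n', ι n' = ι n := ⟨n, rfl⟩
        simp only [ρ, AddMonoidHom.comp_apply, Free.map_of, Free.lift_of, AddMonoidHom.id_apply,
          dif_pos h]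
        rw [hinj h.choose_spec]) x
  let κ : Rel G N →+ Free G N :=
    (AddMonoidHom.id (Free G N) - (Free.map ι).comp ρ).comp (Rel G N).subtype
  haveI : Module.Free ℤ κ.range := free_addSubgroup _
  obtain ⟨σ, hσ⟩ := exists_lift (Y := κ.range) κ.rangeRestrict κ.rangeRestrict_surjective
    (AddMonoidHom.id _)
  have hσ' : ∀ y, κ (σ (κ.rangeRestrict y)) = κ y := fun y =>
    congrArg Subtype.val (DFunLike.congr_fun hσ (κ.rangeRestrict y))
  let d : Rel G N →+ Rel G N := AddMonoidHom.id _ - σ.comp κ.rangeRestrict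
  have hd : ∀ y, (d y : Free G N) = Free.map ι (ρ (d y)) := fun y => by
    have h1 : κ (d y) = 0 := by
      show κ (y - σ (κ.rangeRestrict y)) = 0
      rw [map_sub, hσ', sub_self]
    exact sub_eq_zero.mp h1
  let r : Rel G N →+ Rel G N' := (ρ.comp ((Rel G N).subtype.comp d)).codRestrict _ fun y => by
    rw [mem_rel_iff]
    apply hinj
    rw [map_zero, ← proj_map ι hι]
    show proj G N (Free.map ι (ρ (d y))) = 0
    rw [← hd, mem_rel_iff.mp (d y).2]
  have hr : ∀ y', r (Rel.map ι hι y') = y' := fun y' => by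
    have h0 : κ.rangeRestrict (Rel.map ι hι y') = 0 := Subtype.ext (by
      show (Free.map ι) y'.1 - Free.map ι (ρ (Free.map ι y'.1)) = 0
      rw [hρ, sub_self])
    refine Subtype.ext ?_
    show ρ ((Rel.map ι hι y' - σ (κ.rangeRestrict (Rel.map ι hι y')) : Rel G N) : Free G N) = _
    rw [h0, map_zero, sub_zero, Rel.coe_map, hρ]
  refine ⟨Ext1.mk ⟨htrace G (g.comp r), htrace_mem _⟩, ?_⟩
  rw [Ext1.comap_mk]
  congr 1
  refine Subtype.ext ?_
  show (htrace G (g.comp r)).comp (Rel.map ι hι) = htrace G g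
  rw [← htrace_comp_right _ (Rel.map_mem ι hι)]
  congr 1
  exact AddMonoidHom.ext fun y' => congrArg g (hr y')

/-! ### Higman's criterion -/

section Higman

variable (p : ℕ)

variable (G) in
/-- `[1, n]` times `p`, as a relation. -/
def pRel (hN : ∀ n : N, p • n = 0) (x : Free G N) : Rel G N :=
  ⟨p • x, by rw [mem_rel_iff, map_nsmul, hN]⟩

variable {p}

theorem pRel_smul (hN : ∀ n : N, p • n = 0) (g : G) (x : Free G N) :
    pRel G p hN (g • x) = g • pRel G p hN x :=
  Subtype.ext (smul_comm g p x).symm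

theorem pRel_add (hN : ∀ n : N, p • n = 0) (x y : Free G N) :
    pRel G p hN (x + y) = pRel G p hN x + pRel G p hN y :=
  Subtype.ext (nsmul_add x y p)

theorem toModP_pRel_eq (hN : ∀ n : N, p • n = 0) (f : Rel G N →+ W) {x y : Free G N}
    (h : proj G N x = proj G N y) :
    (toModP (f (pRel G p hN x)) : ModP p W) = toModP (f (pRel G p hN y)) := by
  rw [← sub_eq_zero, ← map_sub, toModP_eq_zero_iff]
  refine ⟨f ⟨x - y, by rw [mem_rel_iff, map_sub, h, sub_self]⟩, ?_⟩
  rw [← map_nsmul]
  exact (congrArg f (Subtype.ext (nsmul_sub x y p) :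
    p • (⟨x - y, _⟩ : Rel G N) = pRel G p hN x - pRel G p hN y)).trans (map_sub f _ _)

/-- `f ↦ (n ↦ f (p [1, n]) mod p)`. -/
def modPHom (hN : ∀ n : N, p • n = 0) : (Rel G N →+ W) →+ (N →+ ModP p W) where
  toFun f := AddMonoidHom.mk' (fun n => toModP (f (pRel G p hN (Free.of 1 n)))) fun n m => by
    rw [← map_add, ← map_add, ← pRel_add]
    exact toModP_pRel_eq hN f (by simp)
  map_zero' := AddMonoidHom.ext fun n => map_zero toModP
  map_add' f f' := AddMonoidHom.ext fun n => map_add toModP _ _

theorem modPHom_apply (hN : ∀ n : N, p • n = 0) (f : Rel G N →+ W) (x : Free G N) :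
    modPHom hN f (proj G N x) = toModP (f (pRel G p hN x)) :=
  toModP_pRel_eq hN f (by simp)

theorem modPHom_hconj (hN : ∀ n : N, p • n = 0) (g : G) (f : Rel G N →+ W) :
    modPHom hN (hconj g f) = hconj g (modPHom hN f) := AddMonoidHom.ext fun n => by
  obtain ⟨x, rfl⟩ := proj_surjective (G := G) n
  rw [modPHom_apply, hconj_apply, hconj_apply, ← proj_smul, modPHom_apply, smul_toModP, pRel_smul]

theorem modPHom_restrict (hN : ∀ n : N, p • n = 0) (D : Free G N →+ W) :
    modPHom hN (D.comp (Rel G N).subtype) = 0 := AddMonoidHom.ext fun n => by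
  show toModP (D (p • Free.of 1 n)) = 0
  rw [toModP_eq_zero_iff]
  exact ⟨_, (map_nsmul D p _).symm⟩

/-- The kernel of `modPHom` consists of the maps extending to the free module. -/
theorem exists_extend_of_modPHom [Fact p.Prime] (hN : ∀ n : N, p • n = 0) (f : Rel G N →+ W)
    (hf : modPHom hN f = 0) : ∃ D : Free G N →+ W, ∀ y : Rel G N, D y = f y := by
  have h0 : ∀ x : G × N, ∃ c : W, p • c = f (pRel G p hN (Free.of x.1 x.2)) := fun x => by
    rw [← toModP_eq_zero_iff, ← modPHom_apply, hf, AddMonoidHom.zero_apply]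
  choose c hc using h0
  let D₀ : Free G N →+ W := Free.lift fun g n => c (g, n)
  have hD₀ : ∀ x : Free G N, p • D₀ x = f (pRel G p hN x) := fun x => by
    have := Free.hom_ext (f := (p • D₀ : Free G N →+ W))
      (f' := f.comp (AddMonoidHom.mk' (pRel G p hN) (pRel_add hN))) fun g n => by
        simp [D₀, hc (g, n)]
    exact DFunLike.congr_fun this x
  -- what is left factors through a subspace of the free module modulo `p`
  let f₁ : Rel G N →+ W := f - D₀.comp (Rel G N).subtype
  have hf₁ : ∀ y, p • f₁ y = 0 := fun y => by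
    show p • (f y - D₀ y) = 0
    rw [nsmul_sub, hD₀, ← map_nsmul, sub_eq_zero]
    exact congrArg f (Subtype.ext rfl)
  let U : AddSubgroup (ModP p (Free G N)) := (Rel G N).map toModP
  obtain ⟨π, hπ, hπ'⟩ := exists_retraction (V := ModP p (Free G N)) nsmul_modP U
  have key : ∀ y y' : Rel G N, (toModP y.1 : ModP p (Free G N)) = toModP y'.1 →
      f₁ y = f₁ y' := fun y y' h => by
    rw [← sub_eq_zero, ← map_sub, toModP_eq_zero_iff] at h
    obtain ⟨z, hz⟩ := h
    rw [← sub_eq_zero, ← map_sub]
    have e : y - y' = pRel G p hN z := Subtype.ext hz.symm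
    rw [e]
    show f (pRel G p hN z) - D₀ (p • z) = 0
    rw [map_nsmul, hD₀, sub_self]
  have hlift : ∀ x : Free G N, ∃ y : Rel G N, (toModP y.1 : ModP p (Free G N)) = π (toModP x) :=
    fun x => by
      obtain ⟨y, hy, e⟩ := hπ (toModP x)
      exact ⟨⟨y, hy⟩, e⟩
  choose l hl using hlift
  let E : Free G N →+ W := AddMonoidHom.mk' (fun x => f₁ (l x)) fun x x' => by
    rw [← map_add f₁]
    exact key _ _ (by
      rw [hl, map_add toModP, map_add π, ← hl x, ← hl x', ← map_add toModP]
      rfl)
  refine ⟨D₀ + E, fun y => ?_⟩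
  show D₀ y + f₁ (l y) = f y
  rw [key (l y) y (by rw [hl]; exact hπ' _ ⟨y.1, y.2, rfl⟩)]
  show D₀ y + (f y - D₀ y) = f y
  abel

/-- Every homomorphism to `W/p` comes from the relation module. -/
theorem modPHom_surjective [Fact p.Prime] (hN : ∀ n : N, p • n = 0) (ψ : N →+ ModP p W) :
    ∃ f : Rel G N →+ W, modPHom hN f = ψ := by
  -- lift the multiplication-by-`p` inverse on a basis
  letI := AddCommGroup.zmodModule (n := p) hN
  obtain ⟨⟨ι, b⟩⟩ := Module.Free.exists_basis (ZMod p) N
  choose w hw using fun i => toModP_surjective (p := p) (ψ (b i))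
  let coef : Free G N →+ (ι →₀ ℤ) :=
    Free.lift fun g n => (b.repr (g • n)).mapRange (fun a : ZMod p => (a.val : ℤ)) (by simp)
  let red : (ι →₀ ℤ) →+ N := Finsupp.liftAddHom fun i => zmultiplesHom N (b i)
  have hred : ∀ x, red (coef x) = proj G N x := by
    intro x
    refine DFunLike.congr_fun (Free.hom_ext (f := red.comp coef) (f' := proj G N) fun g n => ?_) x
    simp only [red, coef, AddMonoidHom.comp_apply, Free.lift_of, proj_of,
      Finsupp.liftAddHom_apply]
    rw [Finsupp.sum_mapRange_index (by simp)]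
    conv_rhs => rw [← b.linearCombination_repr (g • n), Finsupp.linearCombination_apply]
    refine Finsupp.sum_congr fun i _ => ?_
    rw [zmultiplesHom_apply, natCast_zsmul, ← Nat.cast_smul_eq_nsmul (ZMod p),
      ZMod.natCast_zmod_val]
  have hdiv : ∀ y : Rel G N, ∀ i, (p : ℤ) ∣ coef y i := fun y i => by
    have h1 : red (coef y) = 0 := (hred y).trans (mem_rel_iff.mp y.2)
    have h2 : Finsupp.linearCombination (ZMod p) b
        ((coef y).mapRange (fun a : ℤ => (a : ZMod p)) (by simp)) = 0 := by
      rw [← h1, Finsupp.linearCombination_apply, Finsupp.sum_mapRange_index (by simp)]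
      simp only [red, Finsupp.liftAddHom_apply, Int.cast_smul_eq_zsmul]
      rfl
    have h3 := congrArg (fun v => b.repr v i) h2
    simp only [b.repr_linearCombination, map_zero, Finsupp.coe_zero, Pi.zero_apply,
      Finsupp.mapRange_apply] at h3
    exact (ZMod.intCast_zmod_eq_zero_iff_dvd _ _).mp h3
  have hp0 : (p : ℤ) ≠ 0 := by exact_mod_cast (Fact.out : p.Prime).ne_zero
  let ev : (ι →₀ ℤ) →+ W := Finsupp.liftAddHom fun i => zmultiplesHom W (w i)
  let half : Rel G N → (ι →₀ ℤ) := fun y => (coef y).mapRange (fun a : ℤ => a / p) (by simp)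
  refine ⟨AddMonoidHom.mk' (fun y => ev (half y)) fun y y' => ?_, AddMonoidHom.ext fun n => ?_⟩
  · rw [← map_add]
    congr 1
    ext i
    simp [half, Int.add_ediv_of_dvd_left (hdiv y i)]
  · show toModP (ev (half (pRel G p hN (Free.of 1 n)))) = ψ n
    have h1 : half (pRel G p hN (Free.of 1 n)) = coef (Free.of 1 n) := by
      ext i
      simp [half, pRel, Int.mul_ediv_cancel_left _ hp0]
    have h2 : ∀ x, toModP (ev x) = ψ (red x) := fun x => by
      refine DFunLike.congr_fun
        (Finsupp.addHom_ext' (f := (toModP (p := p)).comp ev) (g := ψ.comp red)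
          fun i => AddMonoidHom.ext_int ?_) x
      simp [ev, red, hw]
    rw [h1, h2, hred, proj_of, one_smul]

/-- Higman: if a trace of endomorphisms is the identity then `Ext1` is `Hom(N, W/p)`. -/
theorem card_ext1_of_theta [Fact p.Prime] (hN : ∀ n : N, p • n = 0) (θ : N →+ N)
    (hθ : htrace G θ = AddMonoidHom.id N) :
    Nat.card (Ext1 G N W) = Nat.card (eqHom G N (ModP p W)) := by
  let Φ : eqHom G (Rel G N) W →+ eqHom G N (ModP p W) :=
    { toFun := fun f => ⟨modPHom hN f.1, mem_eqHom_of_hconj fun g => by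
        rw [← modPHom_hconj, hconj_eq_self f.2]⟩
      map_zero' := Subtype.ext (map_zero _)
      map_add' := fun f f' => Subtype.ext (map_add _ _ _) }
  -- the lift of `θ` to the free module
  let Θ : Free G N →+ Free G N := Free.lift fun g n => Free.of 1 (θ (g • n))
  have hΘ : ∀ x, proj G N (Θ x) = θ (proj G N x) := fun x =>
    DFunLike.congr_fun (Free.hom_ext (f := (proj G N).comp Θ) (f' := θ.comp (proj G N))
      fun g n => by simp [Θ]) x
  let ΘR : Rel G N →+ Rel G N := (Θ.comp (Rel G N).subtype).codRestrict _ fun y => by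
    rw [mem_rel_iff, AddMonoidHom.comp_apply, hΘ, AddSubgroup.subtype_apply,
      mem_rel_iff.mp y.2, map_zero]
  let Δ : Free G N →+ Free G N := htrace G Θ - AddMonoidHom.id _
  have hΔ : ∀ x, proj G N (Δ x) = 0 := fun x => by
    have h1 := DFunLike.congr_fun hθ (proj G N x)
    simp only [htrace_apply, AddMonoidHom.finsetSum_apply, hconj_apply, AddMonoidHom.id_apply]
      at h1
    simp [Δ, htrace_apply, AddMonoidHom.finsetSum_apply, map_sum, proj_smul, hΘ, h1]
  let ΔR : Free G N →+ Rel G N := Δ.codRestrict _ fun x => mem_rel_iff.mpr (hΔ x)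
  have hΔR : ΔR ∈ eqHom G (Free G N) (Rel G N) := fun g x => Subtype.ext (by
    show Δ (g • x) = g • Δ x
    simp [Δ, htrace_mem Θ g x, smul_sub])
  have hΔy : ∀ y : Rel G N, htrace G ΘR y = y + ΔR y := fun y => Subtype.ext (by
    show _ = (y : Free G N) + (htrace G Θ y - y)
    rw [add_sub_cancel, htrace_apply, htrace_apply, AddMonoidHom.finsetSum_apply,
      AddMonoidHom.finsetSum_apply, AddSubgroup.val_finsetSum]
    exact Finset.sum_congr rfl fun g _ => rfl)
  have hker : ∀ f : eqHom G (Rel G N) W, Φ f = 0 ↔ Ext1.mk f = 0 := fun f => by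
    constructor
    · intro h
      obtain ⟨D, hD⟩ := exists_extend_of_modPHom hN f.1 (congrArg Subtype.val h)
      refine Ext1.mk_eq_zero_iff.mpr ⟨⟨htrace G (D.comp Θ) - f.1.comp ΔR,
        sub_mem (htrace_mem _) (comp_mem_eqHom f.2 hΔR)⟩, fun y => ?_⟩
      have h1 : htrace G (D.comp Θ) y = f.1 (htrace G ΘR y) := by
        simp only [htrace_apply, AddMonoidHom.finsetSum_apply, map_sum]
        refine Finset.sum_congr rfl fun g _ => ?_
        rw [hconj_apply, hconj_apply, f.2]
        exact congrArg (g • ·) (hD (ΘR (g⁻¹ • y)))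
      show htrace G (D.comp Θ) y - f.1 (ΔR y) = f.1 y
      rw [h1, hΔy, map_add, add_sub_cancel_right]
    · intro h
      obtain ⟨D, hD⟩ := Ext1.mk_eq_zero_iff.mp h
      refine Subtype.ext ?_
      show modPHom hN f.1 = 0
      rw [← modPHom_restrict hN D.1]
      exact congrArg _ (AddMonoidHom.ext fun y => (hD y).symm)
  have hsurj : Function.Surjective Φ := fun ψ => by
    obtain ⟨f₀, hf₀⟩ := modPHom_surjective (G := G) hN ψ.1
    refine ⟨⟨htrace G (f₀.comp ΘR), htrace_mem (f₀.comp ΘR)⟩, Subtype.ext ?_⟩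
    show modPHom hN (htrace G (f₀.comp ΘR)) = ψ.1
    have h1 : modPHom hN (f₀.comp ΘR) = ψ.1.comp θ := AddMonoidHom.ext fun n => by
      rw [AddMonoidHom.comp_apply, ← hf₀, ← one_smul G n, ← proj_of, modPHom_apply, ← hΘ,
        modPHom_apply]
      exact congrArg (fun z => toModP (f₀ z)) (Subtype.ext (map_nsmul Θ p _))
    rw [htrace_apply, map_sum]
    simp only [modPHom_hconj, h1]
    rw [← htrace_apply, htrace_comp_left ψ.2, hθ, AddMonoidHom.comp_id]
  have e : Φ.ker = (restrictRel G N W).range := AddSubgroup.ext fun f => by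
    rw [AddMonoidHom.mem_ker, hker]
    exact QuotientAddGroup.eq_zero_iff f
  refine (Nat.card_congr ?_).trans (Nat.card_congr
    (QuotientAddGroup.quotientKerEquivOfSurjective Φ hsurj).toEquiv)
  exact (QuotientAddGroup.quotientAddEquivOfEq e.symm).toEquiv

end Higman

end FLTAgent.TW.Coh
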