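import Fermat.Agent.TW.Coh.Basic

/-!
# Modules with trivial cohomology over a `p`-group

If `H¹(P, W) = 0` and `Ĥ⁰(P, W) = 0` for a finite `p`-group `P`, then for every `P`-lattice `Y`
every equivariant map `Y → W` is a trace (`exists_trace_eq`).
-/

set_option autoImplicit false
set_option linter.unusedSectionVars false
set_option linter.style.haveILetI false

noncomputable section

namespace FLTAgent.TW.Coh

variable {P : Type} [Group P] [Fintype P]

/-! ### Modules with an averaging operator -/

section Average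

variable {A : Type} [AddCommGroup A] [DistribMulAction P A]

theorem sum_smul_theta (θ : A →+ A) (g : P) (x : A) :
    g • (∑ k : P, k • θ (k⁻¹ • x)) = ∑ k : P, k • θ (k⁻¹ • (g • x)) := by
  rw [Finset.smul_sum]
  exact Fintype.sum_equiv (Equiv.mulLeft g) _ _ fun k => by simp [mul_smul]

theorem eq_coboundary_of_theta (θ : A →+ A) (hθ : ∀ x : A, ∑ k : P, k • θ (k⁻¹ • x) = x)
    {a : P → A} (ha : IsCrossed P a) : ∃ w : A, ∀ g : P, a g = g • w - w := by
  refine ⟨-∑ k : P, k • θ (k⁻¹ • a k), fun g => ?_⟩
  have h1 : g • (∑ k : P, k • θ (k⁻¹ • a k)) = ∑ k : P, k • θ (k⁻¹ • (a k - a g)) := by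
    rw [Finset.smul_sum]
    refine Fintype.sum_equiv (Equiv.mulLeft g) _ _ fun k => ?_
    simp only [Equiv.coe_mulLeft, ha g k, add_sub_cancel_left, mul_inv_rev, mul_smul,
      inv_smul_smul]
  simp only [smul_sub, map_sub, Finset.sum_sub_distrib, hθ] at h1
  rw [smul_neg, h1]
  abel

theorem exists_two_cochain_of_theta (θ : A →+ A) (hθ : ∀ x : A, ∑ k : P, k • θ (k⁻¹ • x) = x)
    (b : P → P → A) (hb : ∀ g h k, g • b h k - b (g * h) k + b g (h * k) - b g h = 0) :
    ∃ X : P → A, ∀ g h, g • X h + X g - X (g * h) = b g h := by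
  refine ⟨fun g => ∑ k : P, k • θ (k⁻¹ • b g (g⁻¹ * k)), fun g h => ?_⟩
  have h1 : g • (∑ k : P, k • θ (k⁻¹ • b h (h⁻¹ * k))) =
      ∑ k : P, k • θ (k⁻¹ • g • b h (h⁻¹ * (g⁻¹ * k))) := by
    rw [Finset.smul_sum]
    refine Fintype.sum_equiv (Equiv.mulLeft g) _ _ fun k => ?_
    simp [mul_smul]
  dsimp only
  rw [h1, ← Finset.sum_add_distrib, ← Finset.sum_sub_distrib]
  conv_rhs => rw [← hθ (b g h)]
  refine Finset.sum_congr rfl fun k _ => ?_
  rw [← smul_add, ← map_add, ← smul_add, ← smul_sub, ← map_sub, ← smul_sub]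
  congr 3
  have := hb g h ((g * h)⁻¹ * k)
  rw [mul_inv_rev, mul_assoc, mul_inv_cancel_left] at this
  rw [mul_inv_rev, mul_assoc]
  rw [sub_eq_zero] at this
  rw [← this]
  abel

end Average

/-! ### Quotient by multiplication by `p` -/

section ModP

variable (p : ℕ) (A : Type) [AddCommGroup A]

/-- `A / p A`. -/
def ModP : Type := A ⧸ (nsmulAddMonoidHom (α := A) p).range

instance : AddCommGroup (ModP p A) :=
  inferInstanceAs (AddCommGroup (A ⧸ (nsmulAddMonoidHom (α := A) p).range))

variable {p A}

/-- The projection to `A / p A`. -/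
def toModP : A →+ ModP p A := QuotientAddGroup.mk' _

theorem toModP_surjective : Function.Surjective (toModP : A → ModP p A) :=
  QuotientAddGroup.mk'_surjective _

theorem toModP_eq_zero_iff {x : A} : (toModP x : ModP p A) = 0 ↔ ∃ y, p • y = x :=
  (QuotientAddGroup.eq_zero_iff x).trans Iff.rfl

theorem nsmul_modP (x : ModP p A) : p • x = 0 := by
  obtain ⟨a, rfl⟩ := toModP_surjective x
  rw [← map_nsmul, toModP_eq_zero_iff]; exact ⟨a, rfl⟩

variable {G : Type} [Group G] [DistribMulAction G A]

instance : DistribMulAction G (ModP p A) where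
  smul g := QuotientAddGroup.map _ _ (DistribSMul.toAddMonoidHom A g) (by
    rintro _ ⟨x, rfl⟩
    exact ⟨g • x, (smul_comm g p x).symm⟩)
  one_smul x := by
    obtain ⟨a, rfl⟩ := toModP_surjective x
    exact congrArg toModP (one_smul G a)
  mul_smul g h x := by
    obtain ⟨a, rfl⟩ := toModP_surjective x
    exact congrArg toModP (mul_smul g h a)
  smul_zero g := map_zero (QuotientAddGroup.map _ _ _ _)
  smul_add g := map_add (QuotientAddGroup.map _ _ _ _)

theorem smul_toModP (g : G) (x : A) : g • (toModP x : ModP p A) = toModP (g • x) := rfl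

theorem toModP_mem : (toModP : A →+ ModP p A) ∈ eqHom G A (ModP p A) := fun g x =>
  (smul_toModP g x).symm

end ModP

/-! ### Fixed points of `p`-groups -/

theorem exists_fixed_ne_zero {p : ℕ} [Fact p.Prime] (hP : IsPGroup p P) {T : Type} [AddCommGroup T]
    [DistribMulAction P T] (hT : ∀ x : T, p • x = 0) {v : T} (hv : v ≠ 0) :
    ∃ w : T, w ≠ 0 ∧ ∀ g : P, g • w = w := by
  let U : AddSubgroup T := AddSubgroup.closure (Set.range fun g : P => g • v)
  have hU : ∀ (g : P) (x : T), x ∈ U → g • x ∈ U := fun g x hx => by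
    induction hx using AddSubgroup.closure_induction with
    | mem y hy =>
      obtain ⟨h, rfl⟩ := hy
      exact AddSubgroup.subset_closure ⟨g * h, mul_smul g h v⟩
    | zero => rw [smul_zero]; exact U.zero_mem
    | add y z _ _ hy hz => rw [smul_add]; exact U.add_mem hy hz
    | neg y _ hy => rw [smul_neg]; exact U.neg_mem hy
  letI : MulAction P U :=
    { smul := fun g x => ⟨g • x.1, hU g x.1 x.2⟩
      one_smul := fun x => Subtype.ext (one_smul P x.1)
      mul_smul := fun g h x => Subtype.ext (mul_smul g h x.1) }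
  haveI : AddGroup.FG U :=
    (AddGroup.fg_iff_addSubgroup_fg U).mpr ⟨(Set.finite_range fun g : P => g • v).toFinset,
      by simp [U]⟩
  have htors : IsAddTorsion U := fun x =>
    isOfFinAddOrder_iff_nsmul_eq_zero.mpr ⟨p, (Fact.out : p.Prime).pos, Subtype.ext (hT x.1)⟩
  haveI : Finite U := AddCommGroup.finite_of_fg_isAddTorsion U htors
  have hvU : v ∈ U := AddSubgroup.subset_closure ⟨1, one_smul P v⟩
  have hdvd : p ∣ Nat.card U := by
    have hord : addOrderOf (⟨v, hvU⟩ : U) = p :=
      addOrderOf_eq_prime (Subtype.ext (hT v)) fun h => hv (congrArg Subtype.val h)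
    exact hord ▸ addOrderOf_dvd_natCard _
  obtain ⟨w, hw, hne⟩ := hP.exists_fixed_point_of_prime_dvd_card_of_fixed_point U hdvd
    (a := (0 : U)) (fun g => Subtype.ext (smul_zero g))
  exact ⟨w.1, fun h => hne (Subtype.ext h.symm), fun g => congrArg Subtype.val (hw g)⟩

variable {p : ℕ} [Fact p.Prime]

theorem exists_retraction {V : Type} [AddCommGroup V] (hV : ∀ x : V, p • x = 0)
    (U : AddSubgroup V) : ∃ π : V →+ V, (∀ v, π v ∈ U) ∧ ∀ u ∈ U, π u = u := by
  letI : Module (ZMod p) V := AddCommGroup.zmodModule hV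
  obtain ⟨Q, hQ⟩ := Submodule.exists_isCompl (AddSubgroup.toZModSubmodule p U)
  refine ⟨((AddSubgroup.toZModSubmodule p U).projection Q hQ).toAddMonoidHom,
    fun v => Submodule.projection_apply_mem hQ v,
    fun u hu => Submodule.projection_apply_left hQ ⟨u, hu⟩⟩

section Free

variable (hP : IsPGroup p P) {V : Type} [AddCommGroup V] [DistribMulAction P V]

/-- An `𝔽_p[P]`-module with trivial `H¹` is coinduced. -/
theorem exists_coinduced (hP : IsPGroup p P) (hV : ∀ x : V, p • x = 0) (h1 : H1Zero P V) :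
    ∃ π : V →+ V, (∀ v (g : P), g • π v = π v) ∧ (∀ v, (∀ g : P, g • v = v) → π v = v) ∧
      (∀ v, (∀ g : P, π (g • v) = 0) → v = 0) ∧
      ∀ φ : P → V, (∀ h g : P, g • φ h = φ h) → ∃ v, ∀ h, π (h • v) = φ h := by
  obtain ⟨π, hπ, hπ'⟩ := exists_retraction hV
    { carrier := {v | ∀ g : P, g • v = v}
      zero_mem' := fun g => smul_zero g
      add_mem' := fun {a b} ha hb g => by rw [smul_add, ha g, hb g]
      neg_mem' := fun {a} ha g => by rw [smul_neg, ha g] }
  have hπ1 : ∀ v (g : P), g • π v = π v := hπ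
  have hπ2 : ∀ v, (∀ g : P, g • v = v) → π v = v := hπ'
  have hinj : ∀ v, (∀ g : P, π (g • v) = 0) → v = 0 := by
    let K : AddSubgroup V :=
      { carrier := {v | ∀ g : P, π (g • v) = 0}
        zero_mem' := fun g => by rw [smul_zero, map_zero]
        add_mem' := fun {a b} ha hb g => by rw [smul_add, map_add, ha g, hb g, add_zero]
        neg_mem' := fun {a} ha g => by rw [smul_neg, map_neg, ha g, neg_zero] }
    letI : DistribMulAction P K :=
      { smul := fun g x => ⟨g • x.1, fun h => by rw [← mul_smul]; exact x.2 (h * g)⟩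
        one_smul := fun x => Subtype.ext (one_smul P x.1)
        mul_smul := fun g h x => Subtype.ext (mul_smul g h x.1)
        smul_zero := fun g => Subtype.ext (smul_zero g)
        smul_add := fun g x y => Subtype.ext (smul_add g x.1 y.1) }
    intro v hv
    by_contra hne
    obtain ⟨w, hw, hfix⟩ := exists_fixed_ne_zero hP (T := K) (fun x => Subtype.ext (hV x.1))
      (v := ⟨v, hv⟩) fun h => hne (congrArg Subtype.val h)
    have h2 : π w.1 = 0 := by simpa using w.2 1
    rw [hπ2 w.1 fun g => congrArg Subtype.val (hfix g)] at h2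
    exact hw (Subtype.ext h2)
  refine ⟨π, hπ1, hπ2, hinj, fun φ hφ => ?_⟩
  -- the target: functions with invariant values
  let C : AddSubgroup (P → V) :=
    { carrier := {φ | ∀ h g : P, g • φ h = φ h}
      zero_mem' := fun h g => smul_zero g
      add_mem' := fun {a b} ha hb h g => by simp [ha h g, hb h g]
      neg_mem' := fun {a} ha h g => by simp [ha h g] }
  let j : V →+ C :=
    { toFun := fun v => ⟨fun h => π (h • v), fun h g => hπ1 _ g⟩
      map_zero' := Subtype.ext (funext fun h => by simp)
      map_add' := fun v w => Subtype.ext (funext fun h => by simp) }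
  let tr : P → C →+ C := fun g =>
    { toFun := fun φ => ⟨fun h => φ.1 (h * g), fun h => φ.2 _⟩
      map_zero' := rfl
      map_add' := fun _ _ => rfl }
  have hjg : ∀ g v, tr g (j v) = j (g • v) := fun g v =>
    Subtype.ext (funext fun h => by simp [tr, j, mul_smul])
  letI : DistribMulAction P (C ⧸ j.range) :=
    { smul := fun g => QuotientAddGroup.map _ _ (tr g) (by
        rintro _ ⟨v, rfl⟩
        exact ⟨g • v, (hjg g v).symm⟩)
      one_smul := fun x => by
        induction x using QuotientAddGroup.induction_on with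
        | _ a => exact congrArg QuotientAddGroup.mk (Subtype.ext (funext fun h => by simp [tr]))
      mul_smul := fun g g' x => by
        induction x using QuotientAddGroup.induction_on with
        | _ a =>
          exact congrArg QuotientAddGroup.mk
            (Subtype.ext (funext fun h => by simp [tr, mul_assoc]))
      smul_zero := fun g => map_zero (QuotientAddGroup.map _ _ _ _)
      smul_add := fun g => map_add (QuotientAddGroup.map _ _ _ _) }
  suffices h : (QuotientAddGroup.mk (⟨φ, hφ⟩ : C) : C ⧸ j.range) = 0 by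
    obtain ⟨v, hv⟩ := (QuotientAddGroup.eq_zero_iff _).mp h
    exact ⟨v, fun h => congrFun (congrArg Subtype.val hv) h⟩
  by_contra hne
  obtain ⟨q, hq, hfix⟩ := exists_fixed_ne_zero hP (T := C ⧸ j.range) (fun x => by
    induction x using QuotientAddGroup.induction_on with
    | _ a =>
      rw [← QuotientAddGroup.mk_nsmul]
      exact congrArg QuotientAddGroup.mk (Subtype.ext (funext fun h => hV (a.1 h)))) hne
  induction q using QuotientAddGroup.induction_on with
  | _ ψ =>
    have h2 : ∀ g : P, ∃ v, j v = tr g ψ - ψ := fun g =>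
      ((QuotientAddGroup.eq_iff_sub_mem.mp (hfix g)) : tr g ψ - ψ ∈ j.range)
    choose a ha using h2
    have hjinj : Function.Injective j := (injective_iff_map_eq_zero j).mpr fun v hv =>
      hinj v fun g => congrFun (congrArg Subtype.val hv) g
    obtain ⟨w, hw⟩ := h1 a fun g h => hjinj (by
      rw [map_add, ← hjg, ha, ha, ha, map_sub]
      have hm : tr (g * h) ψ = tr g (tr h ψ) :=
        Subtype.ext (funext fun k => by simp [tr, mul_assoc])
      rw [hm]; abel)
    refine hq ((QuotientAddGroup.eq_zero_iff _).mpr ⟨w + (ψ - j w).1 1, ?_⟩)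
    have hconst : ∀ h, (ψ - j w).1 h = (ψ - j w).1 1 := fun h => by
      have e1 : tr h (ψ - j w) = ψ - j w := by
        rw [map_sub, hjg]
        have := ha h
        rw [hw h, map_sub] at this
        calc tr h ψ - j (h • w) = (tr h ψ - ψ) + ψ - j (h • w) := by abel
          _ = ψ - j w := by rw [← this]; abel
      simpa [tr] using congrFun (congrArg Subtype.val e1) 1
    refine Subtype.ext (funext fun h => ?_)
    have hfixv : ∀ g : P, g • (ψ - j w).1 1 = (ψ - j w).1 1 := fun g => (ψ - j w).2 1 g
    show π (h • (w + (ψ - j w).1 1)) = ψ.1 h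
    rw [smul_add, hfixv, map_add, hπ2 _ hfixv, ← hconst h]
    show π (h • w) + (ψ.1 h - π (h • w)) = ψ.1 h
    abel

/-- Crossed homomorphisms into `Hom(Y, V)` split. -/
theorem eq_coboundary_hom (hP : IsPGroup p P) (hV : ∀ x : V, p • x = 0) (h1 : H1Zero P V)
    {Y : Type} [AddCommGroup Y] [DistribMulAction P Y] (a : P → (Y →+ V))
    (ha : ∀ g h, a (g * h) = a g + hconj g (a h)) :
    ∃ z : Y →+ V, ∀ g, a g = hconj g z - z := by
  obtain ⟨π, hπ1, -, hinj, hsurj⟩ := exists_coinduced hP hV h1
  have ex : ∀ y, ∃ v, ∀ h, π (h • v) = π (a h (h • y)) :=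
    fun y => hsurj _ fun h g => hπ1 _ g
  choose z hz using ex
  have hext : ∀ v w : V, (∀ h : P, π (h • v) = π (h • w)) → v = w := fun v w h =>
    sub_eq_zero.mp (hinj _ fun g => by rw [smul_sub, map_sub, h g, sub_self])
  let zhom : Y →+ V :=
    { toFun := z
      map_zero' := hext _ _ fun h => by rw [hz]; simp
      map_add' := fun y y' => hext _ _ fun h => by
        rw [hz, smul_add h y, map_add, map_add, smul_add, map_add, hz, hz] }
  refine ⟨zhom, fun g => AddMonoidHom.ext fun y => hext _ _ fun h => ?_⟩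
  show π (h • a g y) = π (h • (g • z (g⁻¹ • y) - z y))
  rw [smul_sub, map_sub, ← mul_smul, hz, hz, ha h g]
  simp [mul_smul]

end Free

/-! ### The free cover -/

section Cover

variable (W : Type) [AddCommGroup W] [DistribMulAction P W]

open Classical in
/-- The slice at `1`. -/
def theta : Free P W →+ Free P W := Free.lift fun g w => if g = 1 then Free.of g w else 0

theorem theta_sum (x : Free P W) : ∑ k : P, k • theta W (k⁻¹ • x) = x := by
  classical
  have : (∑ k : P, hconj k (theta W)) = AddMonoidHom.id (Free P W) := Free.hom_ext fun g w => by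
    simp [theta, AddMonoidHom.finsetSum_apply, inv_mul_eq_one, smul_ite, eq_comm]
  simpa [AddMonoidHom.finsetSum_apply] using DFunLike.congr_fun this x

variable {W}

theorem free_eq_zero_of_nsmul {x : Free P W} {n : ℕ} (hn : n ≠ 0) (h : n • x = 0) : x = 0 :=
  have key : ∀ y : (P × W) →₀ ℤ, n • y = 0 → y = 0 := fun y hy => Finsupp.ext fun a => by
    simpa [hn] using DFunLike.congr_fun hy a
  key x h

theorem rel_nsmul_injective {x y : Rel P W} {n : ℕ} (hn : n ≠ 0) (h : n • x = n • y) : x = y := by
  refine sub_eq_zero.mp (Subtype.ext (free_eq_zero_of_nsmul hn ?_))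
  rw [← AddSubmonoidClass.coe_nsmul, nsmul_sub, h, sub_self]
  rfl

variable (hW1 : H1Zero P W) (hW0 : TraceSurj P W)

theorem h1Zero_rel (hW0 : TraceSurj P W) : H1Zero P (Rel P W) := by
  intro a ha
  obtain ⟨l, hl⟩ := eq_coboundary_of_theta (theta W) (theta_sum W) (a := fun g => (a g).1)
    fun g h => congrArg Subtype.val (ha g h)
  have hfix : ∀ g : P, g • proj P W l = proj P W l := fun g => by
    have h1 := congrArg (proj P W) (hl g)
    rw [mem_rel_iff.mp (a g).2, map_sub, proj_smul] at h1
    exact sub_eq_zero.mp h1.symm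
  obtain ⟨w, hw⟩ := hW0 _ hfix
  refine ⟨⟨l - ∑ k : P, k • Free.of 1 w, mem_rel_iff.mpr ?_⟩, fun g => Subtype.ext ?_⟩
  · rw [map_sub, map_sum, sub_eq_zero]
    simp [hw]
  · show (a g).1 = g • (l - ∑ k : P, k • Free.of 1 w) - (l - ∑ k : P, k • Free.of 1 w)
    have h2 : g • (∑ k : P, k • (Free.of 1 w : Free P W)) = ∑ k : P, k • Free.of 1 w := by
      rw [Finset.smul_sum]
      exact Fintype.sum_equiv (Equiv.mulLeft g) _ _ fun k => (mul_smul g k _).symm
    rw [smul_sub, h2, hl g]
    abel

theorem h1Zero_relModP (hW1 : H1Zero P W) (hW0 : TraceSurj P W) :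
    H1Zero P (ModP p (Rel P W)) := by
  intro a ha
  choose a' ha' using fun g => toModP_surjective (a g)
  have hdef : ∀ g h, ∃ b : Rel P W, p • b = a' g + g • a' h - a' (g * h) := fun g h => by
    rw [← toModP_eq_zero_iff, map_sub, map_add, ← smul_toModP, ha', ha', ha', ha g h, sub_self]
  choose b hb using hdef
  have hp : p ≠ 0 := (Fact.out : p.Prime).ne_zero
  have hcoc : ∀ g h k, g • b h k - b (g * h) k + b g (h * k) - b g h = 0 := fun g h k => by
    refine rel_nsmul_injective hp ?_
    simp only [nsmul_sub, nsmul_add, nsmul_zero, ← smul_comm g p (b h k), hb]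
    simp only [smul_sub, smul_add, mul_smul, mul_assoc]
    abel
  obtain ⟨X, hX⟩ := exists_two_cochain_of_theta (theta W) (theta_sum W) (fun g h => (b g h).1)
    fun g h k => congrArg Subtype.val (hcoc g h k)
  obtain ⟨w, hw⟩ := hW1 (fun g => proj P W (X g)) fun g h => by
    have h1 := congrArg (proj P W) (hX g h)
    rw [mem_rel_iff.mp (b g h).2, map_sub, map_add, proj_smul, sub_eq_zero] at h1
    exact h1.symm.trans (add_comm _ _)
  let x' : P → Rel P W := fun g => ⟨X g - (g • Free.of 1 w - Free.of 1 w), mem_rel_iff.mpr (by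
    rw [map_sub, map_sub, proj_smul, proj_of, one_smul, hw g, sub_self])⟩
  obtain ⟨q, hq⟩ := h1Zero_rel hW0 (fun g => a' g - p • x' g) fun g h => by
    have h2 : g • x' h + x' g - x' (g * h) = b g h := Subtype.ext (by
      show g • (X h - (h • Free.of 1 w - Free.of 1 w)) + (X g - (g • Free.of 1 w - Free.of 1 w))
        - (X (g * h) - ((g * h) • Free.of 1 w - Free.of 1 w)) = (b g h).1
      rw [← hX g h, mul_smul, smul_sub, smul_sub]
      abel)
    have h3 := hb g h
    rw [← h2, nsmul_sub, nsmul_add] at h3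
    show a' (g * h) - p • x' (g * h) = a' g - p • x' g + g • (a' h - p • x' h)
    rw [smul_sub, smul_comm g p (x' h)]
    rw [← sub_eq_zero] at h3 ⊢
    rw [← h3]
    abel
  refine ⟨toModP q, fun g => ?_⟩
  rw [← ha' g, smul_toModP, ← map_sub, ← hq g, map_sub, map_nsmul, nsmul_modP, sub_zero]

variable {Y : Type} [AddCommGroup Y] [DistribMulAction P Y] [Module.Free ℤ Y]

theorem exists_lift {A B : Type} [AddCommGroup A] [AddCommGroup B] (π : A →+ B)
    (hπ : Function.Surjective π) (f : Y →+ B) : ∃ f' : Y →+ A, π.comp f' = f := by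
  obtain ⟨f', hf'⟩ := Module.projective_lifting_property π.toIntLinearMap f.toIntLinearMap hπ
  exact ⟨f'.toAddMonoidHom, AddMonoidHom.ext fun y => LinearMap.congr_fun hf' y⟩

theorem eq_coboundary_rel (hP : IsPGroup p P) (hW1 : H1Zero P W) (hW0 : TraceSurj P W)
    (a : P → (Y →+ Rel P W)) (ha : ∀ g h, a (g * h) = a g + hconj g (a h)) :
    ∃ z : Y →+ Rel P W, ∀ g, a g = hconj g z - z := by
  have hp : p ≠ 0 := (Fact.out : p.Prime).ne_zero
  have step : ∀ (k : ℕ), ∃ (z : Y →+ Rel P W) (a' : P → (Y →+ Rel P W)),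
      (∀ g h, a' (g * h) = a' g + hconj g (a' h)) ∧
      ∀ g, a g = hconj g z - z + (p ^ k) • a' g := by
    intro k
    induction k with
    | zero => exact ⟨0, a, ha, fun g => by simp⟩
    | succ k ih =>
      obtain ⟨z, a', ha', hz⟩ := ih
      obtain ⟨zbar, hzbar⟩ := eq_coboundary_hom hP nsmul_modP (h1Zero_relModP hW1 hW0)
        (fun g => (toModP (p := p)).comp (a' g)) fun g h => by
          rw [ha' g h, AddMonoidHom.comp_add, hconj_comp, hconj_eq_self toModP_mem]
      obtain ⟨z', rfl⟩ := exists_lift toModP toModP_surjective zbar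
      have hdiv : ∀ g y, ∃ x, p • x = (a' g - (hconj g z' - z')) y := fun g y => by
        rw [← toModP_eq_zero_iff]
        have h1 := DFunLike.congr_fun (hzbar g) y
        rw [AddMonoidHom.comp_apply, AddMonoidHom.sub_apply, hconj_apply,
          AddMonoidHom.comp_apply, AddMonoidHom.comp_apply, smul_toModP] at h1
        simp [map_sub, h1]
      choose x hx using hdiv
      let a'' : P → (Y →+ Rel P W) := fun g =>
        AddMonoidHom.mk' (x g) fun y y' => rel_nsmul_injective hp (by
          rw [nsmul_add, hx, hx, hx, map_add])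
      have hpa : ∀ g, p • a'' g = a' g - (hconj g z' - z') := fun g =>
        AddMonoidHom.ext fun y => hx g y
      refine ⟨z + (p ^ k) • z', a'', fun g h => AddMonoidHom.ext fun y =>
        rel_nsmul_injective hp ?_, fun g => ?_⟩
      · have e : p • a'' (g * h) = p • (a'' g + hconj g (a'' h)) := by
          rw [nsmul_add, ← map_nsmul (hconj g), hpa, hpa, hpa, ha' g h, hconj_mul, map_sub,
            map_sub]
          abel
        exact DFunLike.congr_fun e y
      · rw [pow_succ, mul_nsmul', hpa, hz g, map_add, map_nsmul, nsmul_sub, nsmul_sub]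
        abel
  obtain ⟨n, hn⟩ := IsPGroup.iff_card.mp hP
  obtain ⟨z, a', ha', hz⟩ := step n
  refine ⟨z - ∑ h : P, a' h, fun g => ?_⟩
  have h1 : ∑ h : P, a' (g * h) = ∑ h : P, a' h :=
    Fintype.sum_equiv (Equiv.mulLeft g) _ _ fun h => rfl
  simp only [ha' g, Finset.sum_add_distrib, Finset.sum_const, Finset.card_univ, ← map_sum] at h1
  rw [hz g, ← hn, Nat.card_eq_fintype_card, map_sub]
  rw [← eq_sub_iff_add_eq] at h1
  rw [h1]
  abel

/-- For a lattice `Y`, every equivariant map into `W` is a trace. -/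
theorem exists_trace_eq (hP : IsPGroup p P) (hW1 : H1Zero P W) (hW0 : TraceSurj P W)
    {f : Y →+ W} (hf : f ∈ eqHom P Y W) : ∃ f' : Y →+ W, htrace P f' = f := by
  obtain ⟨fl, hfl⟩ := exists_lift (proj P W) proj_surjective f
  have hproj : proj P W ∈ eqHom P (Free P W) W := proj_smul
  have hmem : ∀ (g : P) (y : Y), (hconj g fl - fl) y ∈ Rel P W := fun g y => by
    rw [mem_rel_iff]
    have h1 : (proj P W).comp (hconj g fl - fl) = 0 := by
      rw [AddMonoidHom.comp_sub, hfl, ← hconj_eq_self hproj g, ← hconj_comp, hfl,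
        hconj_eq_self hf, sub_self]
    exact DFunLike.congr_fun h1 y
  obtain ⟨z, hz⟩ := eq_coboundary_rel hP hW1 hW0
    (fun g => (hconj g fl - fl).codRestrict _ (hmem g)) fun g h => by
      refine AddMonoidHom.ext fun y => Subtype.ext ?_
      simp [mul_smul, smul_sub]
  let F : Y →+ Free P W := fl - (Rel P W).subtype.comp z
  have hF : F ∈ eqHom P Y (Free P W) := mem_eqHom_of_hconj fun g => by
    refine AddMonoidHom.ext fun y => ?_
    have h1 := congrArg Subtype.val (DFunLike.congr_fun (hz g) y)
    simp only [AddMonoidHom.codRestrict_apply, AddMonoidHom.sub_apply, hconj_apply,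
      AddSubgroupClass.coe_sub, Rel.coe_smul] at h1
    simp only [F, map_sub, hconj_apply, AddMonoidHom.sub_apply, AddMonoidHom.comp_apply,
      AddSubgroup.subtype_apply]
    rw [← sub_eq_zero] at h1 ⊢
    rw [← h1]
    abel
  refine ⟨(proj P W).comp ((theta W).comp F), ?_⟩
  have h2 : htrace P ((theta W).comp F) = F := AddMonoidHom.ext fun y => by
    conv_rhs => rw [← theta_sum W (F y)]
    simp only [htrace_apply, AddMonoidHom.finsetSum_apply, hconj_apply, AddMonoidHom.comp_apply]
    exact Finset.sum_congr rfl fun k _ => by rw [hF k⁻¹ y]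
  rw [htrace_comp_left hproj, h2]
  refine AddMonoidHom.ext fun y => ?_
  show proj P W (fl y - (z y : Free P W)) = f y
  rw [map_sub, mem_rel_iff.mp (z y).2, sub_zero]
  exact DFunLike.congr_fun hfl y

end Cover

end FLTAgent.TW.Coh
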