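import Fermat.Agent.TW.Coh.Euler

/-!
# Euler characteristics of permutation modules

`chi` on `PermMod X N` is multiplicative in disjoint unions (`chi_permMod_sum`); it is `1` on
the cosets of a subgroup of order prime to `p` satisfying `LocalEuler`, by Frobenius reciprocity
(`chi_coset_eq_one`), and for a normal subgroup of index `p` it is the `p`th power
(`chi_coset_pow`).
-/

set_option autoImplicit false
set_option linter.unusedSectionVars false
set_option linter.style.haveILetI false

noncomputable section

namespace FLTAgent.TW.Coh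

theorem PermMod.sum_apply {X ι N : Type} [AddCommGroup N] (s : Finset ι) (F : ι → PermMod X N)
    (x : X) : (∑ i ∈ s, F i) x = ∑ i ∈ s, F i x :=
  Finset.sum_apply x s F

variable {G : Type} [Group G] [Fintype G] {p : ℕ} [Fact p.Prime] {P : Subgroup G} [Fintype P]
  {W : Type} [AddCommGroup W] [DistribMulAction G W]
variable {M M' : Type} [AddCommGroup M] [DistribMulAction G M] [AddCommGroup M']
  [DistribMulAction G M']
variable {N : Type} [AddCommGroup N] [DistribMulAction G N]

theorem PermMod.ext {X : Type} {f f' : PermMod X N} (h : ∀ x, f x = f' x) : f = f' := funext h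

theorem chi_subsingleton (hW : IsCT p P W) [Finite M] [Subsingleton M] :
    chi (G := G) W M = 1 := by
  have hM : ∀ m : M, p • m = 0 := fun m => Subsingleton.elim _ _
  have hs : IsSES (G := G) (AddMonoidHom.id M) (AddMonoidHom.id M) :=
    { eq_ι := fun _ _ => rfl
      injective := fun _ _ h => h
      eq_π := fun _ _ => rfl
      surjective := fun m => ⟨m, rfl⟩
      exact := AddSubgroup.ext fun x => by simp [Subsingleton.elim x 0] }
  have h := hs.chi_mul hW hM
  have hpos := hW.chi_pos (N := M) hM
  nlinarith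

theorem chi_congr (hW : IsCT p P W) [Finite M] [Finite M'] (hM : ∀ m : M, p • m = 0)
    (e : M ≃+ M') (he : ∀ (g : G) (m : M), e (g • m) = g • e m) :
    chi (G := G) W M = chi (G := G) W M' := by
  haveI : Finite (PermMod Empty M) := inferInstance
  haveI : Subsingleton (PermMod Empty M) := inferInstanceAs (Subsingleton (Empty → M))
  letI : MulAction G Empty :=
    { smul := fun _ x => x, one_smul := fun x => x.elim, mul_smul := fun _ _ x => x.elim }
  have hs : IsSES (G := G) (0 : PermMod Empty M →+ M) e.toAddMonoidHom :=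
    { eq_ι := fun g _ => by simp
      injective := fun a b _ => Subsingleton.elim a b
      eq_π := he
      surjective := e.surjective
      exact := AddSubgroup.ext fun x => ⟨fun h => ⟨0, by
        rw [map_zero]; exact (e.map_eq_zero_iff.mp h).symm⟩, fun ⟨y, hy⟩ => by
        rw [AddMonoidHom.mem_ker, ← hy]; simp⟩ }
  rw [hs.chi_mul hW hM, chi_subsingleton hW, one_mul]

/-- Two modules with maps whose kernels and ranges correspond have the same characteristic. -/
theorem chi_eq_of_hexagon (hW : IsCT p P W) [Finite M] [Finite M'] (hM : ∀ m : M, p • m = 0)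
    (hM' : ∀ m : M', p • m = 0) (r : M →+ M') (hr : r ∈ eqHom G M M') (s : M' →+ M)
    (hs : s ∈ eqHom G M' M) (h₁ : r.ker = s.range) (h₂ : s.ker = r.range) :
    chi (G := G) W M = chi (G := G) W M' := by
  let A : AddSubgroup M := r.ker
  let B : AddSubgroup M' := r.range
  letI : DistribMulAction G A :=
    { smul := fun g x => ⟨g • x.1, by
        show r (g • x.1) = 0
        rw [hr g, (x.2 : r x.1 = 0), smul_zero]⟩
      one_smul := fun x => Subtype.ext (one_smul G x.1)
      mul_smul := fun g h x => Subtype.ext (mul_smul g h x.1)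
      smul_zero := fun g => Subtype.ext (smul_zero g)
      smul_add := fun g x y => Subtype.ext (smul_add g x.1 y.1) }
  letI : DistribMulAction G B :=
    { smul := fun g x => ⟨g • x.1, by
        obtain ⟨m, hm⟩ := x.2
        exact ⟨g • m, by rw [hr g, hm]⟩⟩
      one_smul := fun x => Subtype.ext (one_smul G x.1)
      mul_smul := fun g h x => Subtype.ext (mul_smul g h x.1)
      smul_zero := fun g => Subtype.ext (smul_zero g)
      smul_add := fun g x y => Subtype.ext (smul_add g x.1 y.1) }
  have hs₁ : IsSES (G := G) A.subtype r.rangeRestrict :=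
    { eq_ι := fun _ _ => rfl
      injective := Subtype.val_injective
      eq_π := fun g m => Subtype.ext (hr g m)
      surjective := r.rangeRestrict_surjective
      exact := by rw [AddSubgroup.range_subtype, AddMonoidHom.ker_rangeRestrict] }
  have hmem : ∀ x, s x ∈ A := fun x => by
    show s x ∈ r.ker
    rw [h₁]; exact ⟨x, rfl⟩
  have hs₂ : IsSES (G := G) B.subtype (s.codRestrict A hmem) :=
    { eq_ι := fun _ _ => rfl
      injective := Subtype.val_injective
      eq_π := fun g m => Subtype.ext (hs g m)
      surjective := fun x => by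
        have hx : x.1 ∈ s.range := h₁ ▸ x.2
        obtain ⟨y, hy⟩ := hx
        exact ⟨y, Subtype.ext hy⟩
      exact := by
        rw [AddSubgroup.range_subtype]
        refine AddSubgroup.ext fun x => ?_
        rw [AddMonoidHom.mem_ker, Subtype.ext_iff]
        show s x = 0 ↔ x ∈ r.range
        rw [← h₂, AddMonoidHom.mem_ker] }
  rw [hs₁.chi_mul hW hM, hs₂.chi_mul hW hM', mul_comm]

/-- A function as an element of the permutation module. -/
def PermMod.mk {X N : Type} (f : X → N) : PermMod X N := f

theorem PermMod.mk_apply {X N : Type} (f : X → N) (x : X) : PermMod.mk f x = f x := rfl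

variable {X Y : Type} [MulAction G X] [MulAction G Y] [Finite X] [Finite Y] [Finite N]

theorem chi_permMod_congr (hW : IsCT p P W) (hN : ∀ n : N, p • n = 0) (e : X ≃ Y)
    (he : ∀ (g : G) (x : X), e (g • x) = g • e x) :
    chi (G := G) W (PermMod X N) = chi (G := G) W (PermMod Y N) := by
  have he' : ∀ (g : G) (y : Y), e.symm (g • y) = g • e.symm y := fun g y =>
    e.injective (by rw [he, Equiv.apply_symm_apply, Equiv.apply_symm_apply])
  refine chi_congr hW (PermMod.nsmul_eq_zero hN)
    { toFun := fun f y => f (e.symm y)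
      invFun := fun f x => f (e x)
      left_inv := fun f => PermMod.ext fun x => congrArg f (e.symm_apply_apply x)
      right_inv := fun f => PermMod.ext fun y => congrArg f (e.apply_symm_apply y)
      map_add' := fun f f' => rfl } fun g f => PermMod.ext fun y => ?_
  show g • f (g⁻¹ • e.symm y) = g • f (e.symm (g⁻¹ • y))
  rw [he']

theorem chi_permMod_sum (hW : IsCT p P W) (hN : ∀ n : N, p • n = 0) :
    chi (G := G) W (PermMod (X ⊕ Y) N) =
      chi (G := G) W (PermMod X N) * chi (G := G) W (PermMod Y N) := by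
  let ι : PermMod X N →+ PermMod (X ⊕ Y) N :=
    { toFun := fun f => fun z => Sum.elim f (fun _ => 0) z
      map_zero' := PermMod.ext fun z => by cases z <;> rfl
      map_add' := fun f f' => PermMod.ext fun z => by
        cases z
        · rfl
        · show (0 : N) = 0 + 0
          rw [add_zero] }
  let π : PermMod (X ⊕ Y) N →+ PermMod Y N :=
    { toFun := fun f => fun y => f (Sum.inr y)
      map_zero' := rfl
      map_add' := fun _ _ => rfl }
  refine IsSES.chi_mul (ι := ι) (π := π)
    { eq_ι := fun g f => PermMod.ext fun z => ?_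
      injective := fun f f' h => PermMod.ext fun x => congrFun h (Sum.inl x)
      eq_π := fun g f => PermMod.ext fun y => rfl
      surjective := fun f => ⟨fun z => Sum.elim (fun _ => 0) f z, rfl⟩
      exact := AddSubgroup.ext fun f => ⟨fun h => ⟨fun x => f (Sum.inl x), ?_⟩, ?_⟩ }
    hW (PermMod.nsmul_eq_zero hN)
  · cases z
    · rfl
    · exact (smul_zero g).symm
  · refine PermMod.ext fun z => ?_
    cases z
    · rfl
    · exact (congrFun h _).symm
  · rintro ⟨f, rfl⟩
    rfl

/-- The local Euler identity at the subgroups of order prime to `p`. -/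
def LocalEuler (p : ℕ) (W N : Type) [AddCommGroup W] [DistribMulAction G W] [AddCommGroup N]
    [DistribMulAction G N] : Prop :=
  ∀ C : Subgroup G, (Nat.card C).Coprime p →
    Nat.card (eqHom C N (ModP p W)) = Nat.card (eqHom C N W) * Nat.card N ^ C.index

open Classical in
/-- Frobenius reciprocity for coset modules. -/
def cosetHomEquiv (C : Subgroup G) (A : Type) [AddCommGroup A] [DistribMulAction G A] :
    eqHom G (PermMod (G ⧸ C) N) A ≃ eqHom C N A where
  toFun f := ⟨f.1.comp
    { toFun := fun n => fun x => if x = ((1 : G) : G ⧸ C) then n else 0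
      map_zero' := PermMod.ext fun x => ite_self (0 : N)
      map_add' := fun n m => PermMod.ext fun x => by
        show (if x = ((1 : G) : G ⧸ C) then n + m else 0) = (if _ then n else 0) + if _ then m else 0
        split_ifs <;> simp }, fun c n => by
      refine (congrArg f.1 (PermMod.ext fun x => ?_)).trans (f.2 (c : G) _)
      show (if x = ((1 : G) : G ⧸ C) then (c : G) • n else 0) =
        (c : G) • (if (c : G)⁻¹ • x = ((1 : G) : G ⧸ C) then n else 0)
      have hc : (c : G)⁻¹ • x = ((1 : G) : G ⧸ C) ↔ x = ((1 : G) : G ⧸ C) := by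
        rw [inv_smul_eq_iff]
        have : (c : G) • ((1 : G) : G ⧸ C) = ((1 : G) : G ⧸ C) := by
          rw [MulAction.Quotient.smul_mk, smul_eq_mul, mul_one]
          exact QuotientGroup.eq.mpr (by simp)
        rw [this]
      by_cases h : x = ((1 : G) : G ⧸ C)
      · rw [if_pos h, if_pos (hc.mpr h)]
      · rw [if_neg h, if_neg (hc.not.mpr h), smul_zero]⟩
  invFun θ := ⟨
    { toFun := fun f => ∑ᶠ x : G ⧸ C, (Quotient.out x : G) • θ.1 ((Quotient.out x : G)⁻¹ • f x)
      map_zero' := by simp [show ∀ x, (0 : PermMod (G ⧸ C) N) x = 0 from fun _ => rfl]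
      map_add' := fun f f' => by
        simp only [show ∀ x, (f + f') x = f x + f' x from fun _ => rfl, smul_add, map_add]
        exact finsum_add_distrib (Set.toFinite _) (Set.toFinite _) },
    fun g f => by
      show (∑ᶠ x : G ⧸ C, (Quotient.out x : G) • θ.1 ((Quotient.out x : G)⁻¹ • (g • f) x)) =
        g • ∑ᶠ x : G ⧸ C, (Quotient.out x : G) • θ.1 ((Quotient.out x : G)⁻¹ • f x)
      rw [finsum_eq_sum_of_fintype, finsum_eq_sum_of_fintype, Finset.smul_sum]
      refine (Fintype.sum_equiv (MulAction.toPerm g) _ _ fun x => ?_).symm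
      rw [MulAction.toPerm_apply, PermMod.smul_apply, inv_smul_smul]
      obtain ⟨c, hc⟩ := QuotientGroup.eq.mp (show (((g * Quotient.out x : G)) : G ⧸ C) =
        ((Quotient.out (g • x) : G) : G ⧸ C) from by
          conv_rhs => rw [QuotientGroup.out_eq']
          conv_rhs => rw [← QuotientGroup.out_eq' x, MulAction.Quotient.smul_mk]
          rfl) |> fun h => (⟨⟨_, h⟩, rfl⟩ : ∃ c : C, (c : G) =
            (g * Quotient.out x)⁻¹ * Quotient.out (g • x))
      have hout : (Quotient.out (g • x) : G) = g * Quotient.out x * c := by rw [hc]; group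
      rw [hout]
      simp only [mul_inv_rev, mul_smul, inv_smul_smul]
      have h := θ.2 c ((c : G)⁻¹ • (Quotient.out x : G)⁻¹ • f x)
      rw [show c • ((c : G)⁻¹ • (Quotient.out x : G)⁻¹ • f x) = (Quotient.out x : G)⁻¹ • f x from
        smul_inv_smul (c : G) _] at h
      rw [h]
      rfl⟩
  left_inv f := Subtype.ext (AddMonoidHom.ext fun φ => by
    show (∑ᶠ x : G ⧸ C, (Quotient.out x : G) • f.1 (PermMod.mk fun y =>
      if y = ((1 : G) : G ⧸ C) then (Quotient.out x : G)⁻¹ • φ x else 0)) = f.1 φ
    rw [finsum_eq_sum_of_fintype]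
    refine (Finset.sum_congr rfl fun x _ => (f.2 (Quotient.out x : G) _).symm).trans ?_
    rw [← map_sum]
    refine congrArg f.1 (PermMod.ext fun y => ?_)
    refine (PermMod.sum_apply _ _ y).trans ((Finset.sum_eq_single y ?_ ?_).trans ?_)
    rotate_left 2
    · rw [PermMod.smul_apply, PermMod.mk_apply]
      have : (Quotient.out y : G)⁻¹ • y = ((1 : G) : G ⧸ C) := by
        rw [inv_smul_eq_iff, MulAction.Quotient.smul_mk, smul_eq_mul, mul_one,
          QuotientGroup.out_eq']
      rw [if_pos this, smul_inv_smul]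
    · intro x _ hx
      rw [PermMod.smul_apply, PermMod.mk_apply, if_neg, smul_zero]
      rw [inv_smul_eq_iff, MulAction.Quotient.smul_mk, smul_eq_mul, mul_one, QuotientGroup.out_eq']
      exact fun h => hx h.symm
    · exact fun h => absurd (Finset.mem_univ y) h)
  right_inv θ := Subtype.ext (AddMonoidHom.ext fun n => by
    show (∑ᶠ x : G ⧸ C, (Quotient.out x : G) • θ.1 ((Quotient.out x : G)⁻¹ •
      (if x = ((1 : G) : G ⧸ C) then n else 0))) = θ.1 n
    rw [finsum_eq_single _ ((1 : G) : G ⧸ C) fun x hx => by rw [if_neg hx]; simp]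
    rw [if_pos rfl]
    have hc : (Quotient.out ((1 : G) : G ⧸ C) : G) ∈ C := by
      have := QuotientGroup.mk_out_eq_mul C (1 : G)
      obtain ⟨c, hc⟩ := this
      rw [hc, one_mul]; exact c.2
    have h := θ.2 ⟨_, hc⟩ ((Quotient.out ((1 : G) : G ⧸ C) : G)⁻¹ • n)
    rw [show (⟨_, hc⟩ : C) • ((Quotient.out ((1 : G) : G ⧸ C) : G)⁻¹ • n) = n from
      smul_inv_smul _ _] at h
    exact h.symm)

theorem chi_coset_eq_one (hW : IsCT p P W) (hN : ∀ n : N, p • n = 0) (hloc : LocalEuler (G := G) p W N)
    (C : Subgroup G) (hC : (Nat.card C).Coprime p) :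
    chi (G := G) W (PermMod (G ⧸ C) N) = 1 := by
  classical
  obtain ⟨u, -, hu⟩ := Nat.exists_mul_mod_eq_one_of_coprime hC (Fact.out : p.Prime).one_lt
  have huN : ∀ n : N, (Nat.card C * u) • n = n := fun n => by
    rw [← Nat.mod_add_div (Nat.card C * u) p, hu, add_nsmul, one_nsmul, mul_nsmul, hN, nsmul_zero,
      add_zero]
  let θ : PermMod (G ⧸ C) N →+ PermMod (G ⧸ C) N :=
    { toFun := fun f => fun x => if x = ((1 : G) : G ⧸ C) then u • f x else 0
      map_zero' := PermMod.ext fun x => by
        show (if x = _ then u • (0 : N) else 0) = 0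
        simp
      map_add' := fun f f' => PermMod.ext fun x => by
        show (if x = ((1 : G) : G ⧸ C) then u • (f x + f' x) else 0) =
          (if _ then u • f x else 0) + if _ then u • f' x else 0
        split_ifs <;> simp }
  have hθ : htrace G θ = AddMonoidHom.id _ := by
    refine AddMonoidHom.ext fun f => PermMod.ext fun x => ?_
    rw [htrace_apply, AddMonoidHom.finsetSum_apply, PermMod.sum_apply]
    show _ = f x
    rw [← huN (f x)]
    have e : ∀ g : G, (hconj g θ f) x =
        if (g : G ⧸ C) = x then u • f x else 0 := fun g => by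
      show g • (if g⁻¹ • x = ((1 : G) : G ⧸ C) then u • (g⁻¹ • f) (g⁻¹ • x) else 0) = _
      have hc : g⁻¹ • x = ((1 : G) : G ⧸ C) ↔ (g : G ⧸ C) = x := by
        rw [inv_smul_eq_iff, MulAction.Quotient.smul_mk, smul_eq_mul, mul_one, eq_comm]
      by_cases h : (g : G ⧸ C) = x
      · rw [if_pos h, if_pos (hc.mpr h), PermMod.smul_apply, inv_inv, smul_inv_smul,
          smul_comm g u, smul_inv_smul]
      · rw [if_neg h, if_neg (hc.not.mpr h), smul_zero]
    simp only [e]
    rw [← Finset.sum_filter, Finset.sum_const, mul_nsmul']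
    congr 1
    obtain ⟨a, rfl⟩ := QuotientGroup.mk_surjective x
    rw [Nat.card_eq_fintype_card, ← Finset.card_univ]
    refine Finset.card_bij' (fun g hg => ⟨a⁻¹ * g, ?_⟩) (fun c _ => a * (c : G)) ?_ ?_ ?_ ?_
    · exact QuotientGroup.eq.mp (Finset.mem_filter.mp hg).2.symm
    · intro g hg; exact Finset.mem_univ _
    · intro c _
      refine Finset.mem_filter.mpr ⟨Finset.mem_univ _, QuotientGroup.eq.mpr ?_⟩
      simp
    · intro g hg; simp
    · intro c _; exact Subtype.ext (by simp)
  have hP' : ∀ f : PermMod (G ⧸ C) N, p • f = 0 := PermMod.nsmul_eq_zero hN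
  unfold chi
  rw [card_ext1_of_theta hP' θ hθ, Nat.card_congr (cosetHomEquiv C (ModP p W)), hloc C hC,
    Nat.card_congr (cosetHomEquiv C W)]
  have hcard : Nat.card (PermMod (G ⧸ C) N) = Nat.card N ^ C.index := Nat.card_fun
  rw [hcard]
  have hne : Finite (eqHom C N W) := by
    haveI := hW.finite_hom (M := PermMod (G ⧸ C) N) hP'
    exact Finite.of_equiv _ (cosetHomEquiv C W)
  exact div_self (Nat.cast_ne_zero.mpr (Nat.mul_ne_zero Nat.card_pos.ne'
    (pow_ne_zero _ Nat.card_pos.ne')))

/-- Powers of an additive endomorphism. -/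
def addPow {A : Type} [AddCommGroup A] (f : A →+ A) : ℕ → (A →+ A)
  | 0 => AddMonoidHom.id A
  | n + 1 => f.comp (addPow f n)

theorem addPow_succ_apply {A : Type} [AddCommGroup A] (f : A →+ A) (n : ℕ) (x : A) :
    addPow f (n + 1) x = f (addPow f n x) := rfl

theorem addPow_add_apply {A : Type} [AddCommGroup A] (f : A →+ A) (m n : ℕ) (x : A) :
    addPow f (m + n) x = addPow f m (addPow f n x) := by
  induction m with
  | zero => rw [Nat.zero_add]; rfl
  | succ m ih => rw [Nat.succ_add, addPow_succ_apply, ih, ← addPow_succ_apply]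

/-- Cosets of a normal subgroup of index `p` of `C`. -/
theorem chi_coset_pow (hW : IsCT p P W) (hN : ∀ n : N, p • n = 0) (C' C : Subgroup G) (t : G)
    (hle : C' ≤ C) (ht : t ∈ C) (hnorm : ∀ c : G, c ∈ C' ↔ t⁻¹ * c * t ∈ C')
    (hcov : ∀ c ∈ C, ∃ i : ℕ, i < p ∧ c⁻¹ * t ^ i ∈ C')
    (hdis : ∀ i : ℕ, i < p → t ^ i ∈ C' → i = 0) (htp : t ^ p ∈ C') :
    chi (G := G) W (PermMod (G ⧸ C') N) = chi (G := G) W (PermMod (G ⧸ C) N) ^ p := by
  classical
  have hrt : ∀ a b : G, (a : G ⧸ C') = (b : G ⧸ C') →
      ((a * t : G) : G ⧸ C') = ((b * t : G) : G ⧸ C') := fun a b h => QuotientGroup.eq.mpr (by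
    have := (hnorm _).mp (QuotientGroup.eq.mp h)
    rwa [mul_inv_rev, mul_assoc, ← mul_assoc a⁻¹, ← mul_assoc t⁻¹])
  let R : G ⧸ C' → G ⧸ C' := Quotient.lift (fun a : G => ((a * t : G) : G ⧸ C'))
    fun a b h => hrt a b (Quotient.sound h)
  have hR : ∀ a : G, R (a : G ⧸ C') = ((a * t : G) : G ⧸ C') := fun a => rfl
  have hRg : ∀ (g : G) x, R (g • x) = g • R x := fun g x => by
    obtain ⟨a, rfl⟩ := QuotientGroup.mk_surjective x
    rw [MulAction.Quotient.smul_mk, hR, hR, MulAction.Quotient.smul_mk, smul_eq_mul, smul_eq_mul,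
      mul_assoc]
  have hRn : ∀ (i : ℕ) (a : G), R^[i] (a : G ⧸ C') = ((a * t ^ i : G) : G ⧸ C') := fun i => by
    induction i with
    | zero => intro a; simp
    | succ i ih => intro a; rw [Function.iterate_succ_apply', ih, hR, pow_succ, mul_assoc]
  let D : PermMod (G ⧸ C') N →+ PermMod (G ⧸ C') N :=
    { toFun := fun f x => f (R x) - f x
      map_zero' := PermMod.ext fun x => sub_self (0 : N)
      map_add' := fun f f' => PermMod.ext fun x => by
        show f (R x) + f' (R x) - (f x + f' x) = f (R x) - f x + (f' (R x) - f' x)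
        abel }
  have hD : D ∈ eqHom G _ _ := fun g f => PermMod.ext fun x => by
    show g • f (g⁻¹ • R x) - g • f (g⁻¹ • x) = g • (f (R (g⁻¹ • x)) - f (g⁻¹ • x))
    rw [hRg, smul_sub]
  -- powers of `D`
  have hDmem : ∀ j : ℕ, (addPow D j) ∈ eqHom G (PermMod (G ⧸ C') N) (PermMod (G ⧸ C') N) := fun j => by
    induction j with
    | zero => exact fun _ _ => rfl
    | succ j ih => exact comp_mem_eqHom hD ih
  let E : ℕ → AddSubgroup (PermMod (G ⧸ C') N) := fun j =>
    AddMonoidHom.ker (addPow D j)
  have hEs : ∀ j (g : G) (f : PermMod (G ⧸ C') N), f ∈ E j → g • f ∈ E j := fun j g f hf => by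
    show (addPow D j) (g • f) = 0
    rw [hDmem j g f, (hf : (addPow D j) f = 0), smul_zero]
  -- `D ^ (p - 1)` is the sum over a fibre
  have hp1 := (Fact.out : p.Prime).one_le
  let S : PermMod (G ⧸ C') N →+ PermMod (G ⧸ C') N :=
    AddMonoidHom.mk' (fun f x => f (R x)) fun _ _ => rfl
  have hSn : ∀ (i : ℕ) (f : PermMod (G ⧸ C') N) x, addPow S i f x = f (R^[i] x) := fun i => by
    induction i with
    | zero => intro f x; rfl
    | succ i ih =>
      intro f x
      rw [addPow_succ_apply]
      show addPow S i f (R x) = _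
      rw [ih, Function.iterate_succ_apply]
  have hgeom : ∀ f x, (addPow D (p - 1)) f x =
      ∑ i ∈ Finset.range p, f (R^[i] x) := by
    -- in characteristic `p`, `(X - 1) ^ (p - 1) = 1 + X + ⋯ + X ^ (p - 1)`
    have hpoly : ((Polynomial.X - 1) ^ (p - 1) : Polynomial (ZMod p)) =
        ∑ i ∈ Finset.range p, Polynomial.X ^ i := by
      have h1 : ((Polynomial.X - 1) ^ p : Polynomial (ZMod p)) = Polynomial.X ^ p - 1 := by
        rw [sub_pow_char, one_pow]
      refine mul_left_cancel₀ (show (Polynomial.X - 1 : Polynomial (ZMod p)) ≠ 0 from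
        fun h => by simpa using congrArg (Polynomial.eval 0) h) ?_
      rw [← pow_succ', Nat.sub_add_cancel hp1, h1, mul_geom_sum]
    intro f x
    obtain ⟨Q, hQ⟩ : Polynomial.C (p : ℤ) ∣
        ((Polynomial.X - 1) ^ (p - 1) - ∑ i ∈ Finset.range p, Polynomial.X ^ i : Polynomial ℤ) := by
      rw [Polynomial.C_dvd_iff_dvd_coeff]
      intro n
      have h := congrArg (fun P : Polynomial (ZMod p) => P.coeff n) hpoly
      rw [← ZMod.intCast_zmod_eq_zero_iff_dvd, ← eq_intCast (Int.castRingHom (ZMod p)),
        ← Polynomial.coeff_map]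
      simp [Polynomial.map_sub, Polynomial.map_sum, h]
    let Sl : Module.End ℤ (PermMod (G ⧸ C') N) := S.toIntLinearMap
    have hpow : ∀ (i : ℕ) (φ : PermMod (G ⧸ C') N), (Sl ^ i) φ = addPow S i φ := fun i => by
      induction i with
      | zero => intro φ; rfl
      | succ i ih =>
        intro φ
        rw [pow_succ', Module.End.mul_apply, ih, addPow_succ_apply]
        rfl
    have hpow' : ∀ (i : ℕ) (φ : PermMod (G ⧸ C') N), ((Sl - 1) ^ i) φ = addPow D i φ := fun i => by
      induction i with
      | zero => intro φ; rfl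
      | succ i ih =>
        intro φ
        rw [pow_succ', Module.End.mul_apply, ih, addPow_succ_apply]
        rfl
    have h2 := congrArg (fun φ : Module.End ℤ (PermMod (G ⧸ C') N) => φ f)
      (congrArg (Polynomial.aeval Sl) hQ)
    simp only [map_sub, map_pow, map_mul, map_sum, Polynomial.aeval_X, map_one,
      Polynomial.aeval_C, LinearMap.sub_apply, Module.End.mul_apply, LinearMap.sum_apply,
      Module.algebraMap_end_apply] at h2
    rw [show ((p : ℤ) • (Polynomial.aeval Sl Q) f : PermMod (G ⧸ C') N) = 0 by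
      rw [natCast_zsmul]; exact PermMod.nsmul_eq_zero hN _, sub_eq_zero] at h2
    rw [← hpow', h2, PermMod.sum_apply]
    exact Finset.sum_congr rfl fun i _ => by rw [hpow, hSn]
  -- pullback from `G ⧸ C`
  let pr : G ⧸ C' → G ⧸ C := Quotient.lift (fun a : G => (a : G ⧸ C))
    fun a b h => QuotientGroup.eq.mpr (hle (QuotientGroup.eq.mp (Quotient.sound h)))
  have hprR : ∀ x, pr (R x) = pr x := fun x => by
    obtain ⟨a, rfl⟩ := QuotientGroup.mk_surjective x
    exact QuotientGroup.eq.mpr (by simpa using C.inv_mem ht)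
  let pull : PermMod (G ⧸ C) N →+ PermMod (G ⧸ C') N :=
    { toFun := fun f x => f (pr x), map_zero' := rfl, map_add' := fun _ _ => rfl }
  have hpull : pull ∈ eqHom G _ _ := fun g f => PermMod.ext fun x => by
    obtain ⟨a, rfl⟩ := QuotientGroup.mk_surjective x
    rfl
  -- `ker D` is the range of the pullback
  have hker1 : ∀ f, D f = 0 ↔ f ∈ pull.range := fun f => by
    constructor
    · intro h
      have h1 : ∀ x, f (R x) = f x := fun x => sub_eq_zero.mp (congrFun h x)
      have hi : ∀ i x, f (R^[i] x) = f x := fun i => by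
        induction i with
        | zero => intro x; rfl
        | succ i ih => intro x; rw [Function.iterate_succ_apply', h1, ih]
      refine ⟨fun y => f ((Quotient.out y : G) : G ⧸ C'), PermMod.ext fun x => ?_⟩
      obtain ⟨a, rfl⟩ := QuotientGroup.mk_surjective x
      show f ((Quotient.out (a : G ⧸ C) : G) : G ⧸ C') = f (a : G ⧸ C')
      obtain ⟨c, hc⟩ := QuotientGroup.mk_out_eq_mul C a
      rw [hc]
      obtain ⟨i, -, hi'⟩ := hcov c c.2
      rw [← hi i (a : G ⧸ C'), hRn]
      congr 1
      exact QuotientGroup.eq.mpr (by simpa [mul_assoc] using hi')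
    · rintro ⟨f, rfl⟩
      exact PermMod.ext fun x => sub_eq_zero.mpr (congrArg f (hprR x))
  have hinjp : Function.Injective pull := fun f f' h => PermMod.ext fun y => by
    obtain ⟨a, rfl⟩ := QuotientGroup.mk_surjective y
    exact congrFun h (a : G ⧸ C')
  -- every invariant function is a fibre sum
  have hsum : ∀ f : PermMod (G ⧸ C) N, ∃ φ, (addPow D (p - 1)) φ = pull f := by
    intro f
    refine ⟨PermMod.mk fun x => if x = ((Quotient.out (pr x) : G) : G ⧸ C') then f (pr x) else 0,
      PermMod.ext fun x => ?_⟩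
    rw [hgeom]
    obtain ⟨a, rfl⟩ := QuotientGroup.mk_surjective x
    have hpri : ∀ i : ℕ, pr (R^[i] (a : G ⧸ C')) = pr (a : G ⧸ C') := fun i => by
      induction i with
      | zero => rfl
      | succ i ih => rw [Function.iterate_succ_apply', hprR, ih]
    obtain ⟨c, hc⟩ := QuotientGroup.mk_out_eq_mul C a
    obtain ⟨i, hip, hi⟩ := hcov c c.2
    have hit : ∀ j : ℕ, j < p → (R^[j] (a : G ⧸ C') =
        ((Quotient.out (pr (R^[j] (a : G ⧸ C'))) : G) : G ⧸ C') ↔ j = i) := fun j hj => by
      rw [hpri]
      show R^[j] (a : G ⧸ C') = ((Quotient.out (a : G ⧸ C) : G) : G ⧸ C') ↔ _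
      rw [hc, hRn]
      have hci : ((a * c : G) : G ⧸ C') = ((a * t ^ i : G) : G ⧸ C') :=
        QuotientGroup.eq.mpr (by simpa [mul_assoc] using hi)
      rw [hci, QuotientGroup.eq]
      simp only [mul_inv_rev, mul_assoc, inv_mul_cancel_left]
      constructor
      · intro h
        rcases le_total j i with hji | hij
        · have h2 : t ^ (i - j) ∈ C' := by
            rwa [pow_sub _ hji, (Commute.pow_pow_self t i j).inv_right.eq]
          have := hdis _ (by omega) h2
          omega
        · have h2 : t ^ (j - i) ∈ C' := by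
            rw [pow_sub _ hij]
            simpa [mul_inv_rev, (Commute.pow_pow_self t j i).inv_right.eq] using C'.inv_mem h
          have := hdis _ (by omega) h2
          omega
      · rintro rfl; simp
    rw [Finset.sum_eq_single i]
    · rw [PermMod.mk_apply, if_pos ((hit i hip).mpr rfl), hpri]
      rfl
    · intro j hj hne
      rw [PermMod.mk_apply, if_neg]
      exact fun h => hne ((hit j (Finset.mem_range.mp hj)).mp h)
    · exact fun h => absurd (Finset.mem_range.mpr hip) h
  -- the filtration by the kernels of the powers of `D`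
  have hstep : ∀ j, j + 1 ≤ p → ∀ [DistribMulAction G (E j)] [DistribMulAction G (E (j + 1))],
      (∀ (g : G) (x : E j), (g • x).1 = g • x.1) →
      (∀ (g : G) (x : E (j + 1)), (g • x).1 = g • x.1) →
      chi (G := G) W (E (j + 1)) =
        chi (G := G) W (E j) * chi (G := G) W (PermMod (G ⧸ C) N) := by
    intro j hj _ _ hcj hcj'
    have hle' : E j ≤ E (j + 1) := fun f hf => by
      show (addPow D (j + 1)) f = 0
      rw [addPow_succ_apply, (hf : (addPow D j) f = 0), map_zero]
    have hex : ∀ f : E (j + 1), ∃ φ, pull φ = (addPow D j) f.1 := fun f =>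
      (hker1 _).mp (by
        exact (f.2 : (addPow D (j + 1)) f.1 = 0))
    choose q hq using hex
    refine IsSES.chi_mul (ι := AddSubgroup.inclusion hle') (π := AddMonoidHom.mk' q fun f f' =>
      hinjp (by rw [map_add, hq, hq, hq, AddSubgroup.coe_add, map_add]))
      { eq_ι := fun g x => Subtype.ext (by rw [AddSubgroup.coe_inclusion, hcj, hcj']; rfl)
        injective := AddSubgroup.inclusion_injective hle'
        eq_π := fun g x => hinjp (by
          show pull (q (g • x)) = pull (g • q x)
          rw [hq, hpull g, hq, hcj', hDmem j g])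
        surjective := fun f => ?_
        exact := AddSubgroup.ext fun x => ?_ } hW fun x => Subtype.ext (PermMod.nsmul_eq_zero hN _)
    · obtain ⟨φ, hφ⟩ := hsum f
      have he : p - 1 = j + (p - 1 - j) := by omega
      refine ⟨⟨(addPow D (p - 1 - j)) φ, ?_⟩, hinjp ?_⟩
      · show (addPow D (j + 1)) ((addPow D (p - 1 - j)) φ) = 0
        rw [← addPow_add_apply, add_right_comm, ← he, addPow_succ_apply, hφ]
        exact (hker1 _).mpr ⟨f, rfl⟩
      · show pull (q _) = pull f
        rw [hq, ← addPow_add_apply, ← he, hφ]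
    · rw [AddMonoidHom.mem_ker]
      show q x = 0 ↔ _
      constructor
      · intro h
        refine ⟨⟨x.1, ?_⟩, Subtype.ext rfl⟩
        show (addPow D j) x.1 = 0
        rw [← hq, h, map_zero]
      · rintro ⟨y, rfl⟩
        exact hinjp (by rw [map_zero, hq]; exact y.2)
  letI act : ∀ j, DistribMulAction G (E j) := fun j =>
    { smul := fun g x => ⟨g • x.1, hEs j g x.1 x.2⟩
      one_smul := fun x => Subtype.ext (one_smul G x.1)
      mul_smul := fun g h x => Subtype.ext (mul_smul g h x.1)
      smul_zero := fun g => Subtype.ext (smul_zero g)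
      smul_add := fun g x y => Subtype.ext (smul_add g x.1 y.1) }
  have hall : ∀ j, j ≤ p → chi (G := G) W (E j) = chi (G := G) W (PermMod (G ⧸ C) N) ^ j := by
    intro j
    induction j with
    | zero =>
      intro _
      haveI : Subsingleton (E 0) := ⟨fun a b => Subtype.ext (by
        have ha : a.1 = 0 := a.2
        have hb : b.1 = 0 := b.2
        rw [ha, hb])⟩
      rw [pow_zero, chi_subsingleton hW]
    | succ j ih =>
      intro hj
      rw [hstep j hj (fun _ _ => rfl) (fun _ _ => rfl), ih (by omega), pow_succ]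
  rw [← hall p le_rfl]
  have htop : E p = ⊤ := AddSubgroup.ext fun f => iff_of_true (by
    show (addPow D p) f = 0
    rw [show p = p - 1 + 1 from (Nat.sub_add_cancel hp1).symm, addPow_succ_apply]
    refine PermMod.ext fun x => ?_
    show (addPow D (p - 1)) f (R x) - (addPow D (p - 1)) f x = 0
    rw [hgeom, hgeom, sub_eq_zero]
    simp only [← Function.iterate_succ_apply R]
    have e1 := Finset.sum_range_succ (fun i => f (R^[i] x)) p
    rw [Finset.sum_range_succ' (fun i => f (R^[i] x)) p] at e1
    have hp' : R^[p] x = x := by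
      obtain ⟨a, rfl⟩ := QuotientGroup.mk_surjective x
      rw [hRn]
      exact QuotientGroup.eq.mpr (by simpa using C'.inv_mem htp)
    rw [hp', Function.iterate_zero_apply] at e1
    exact add_right_cancel e1) (AddSubgroup.mem_top _)
  exact chi_congr hW (PermMod.nsmul_eq_zero hN)
    ((AddEquiv.addSubgroupCongr htop).trans AddSubgroup.topEquiv).symm fun g x => Subtype.ext rfl

end FLTAgent.TW.Coh
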